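/-
S36lib / Desc2 / Speiser  (helper1)

**Speiser's lemma / Galois descent of subspaces, in the "fixed basis" form** (brick (D2) of S36).

Abstract setting: a field `L`, an `L`-vector space `F`, a family (index type `Γ`, NO group
structure needed) of ring endomorphisms `φ σ : L →+* L` and of additive endomorphisms
`ψ σ : F →+ F` which are semilinear: `ψ σ (a • f) = φ σ a • ψ σ f`.  `K` is any field with an
algebra structure `K → L` whose image is the field of `φ`-fixed elements.

* `linearIndependent_of_isFixed` : `K`-linearly independent `ψ`-fixed vectors are `L`-linearly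
  independent (Artin's argument; no hypothesis on `F`);
* `exists_basis_isFixed` : if `F` is `L`-spanned by its fixed vectors, it has an `L`-basis of fixed
  vectors;
* `span_inter_fixed_eq` : in that case every `ψ`-stable `L`-subspace `V` is `L`-spanned by its fixed
  vectors (minimal support argument; no Galois theory, no continuity);
* `fixedSub V : Submodule K F` (the fixed vectors of `V`), `rank_fixedSub`, `finrank_fixedSub` :
  `dim_K V^Γ = dim_L V`; `finrank_comap_eq` : the same for the preimage of `V` in any `K`-space
  `F'` with a `K`-linear injection `F' → F` whose range is the set of fixed vectors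
  (e.g. `F'` = the fixed field of `Γ` in a function field `F`);
* `exists_fixed_basis_of_finrank` : a `K`-basis of `V^Γ` indexed by `Fin (finrank L V)` which is
  an `L`-basis of `V`.

Mathlib only.
-/
import Mathlib

set_option autoImplicit false

noncomputable section

namespace Fermat.Agent.S36lib.Desc2

open Module

section Abstract

universe uL uF

variable {L : Type uL} [Field L] {F : Type uF} [AddCommGroup F] [Module L F]
variable {Γ : Type*}

/-- `f` is fixed by every member of the family `ψ` -/
def IsFixed (ψ : Γ → F →+ F) (f : F) : Prop := ∀ σ, ψ σ f = f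

theorem isFixed_zero (ψ : Γ → F →+ F) : IsFixed ψ 0 := fun σ => map_zero (ψ σ)

theorem IsFixed.add {ψ : Γ → F →+ F} {f g : F} (hf : IsFixed ψ f) (hg : IsFixed ψ g) :
    IsFixed ψ (f + g) := fun σ => by rw [map_add, hf σ, hg σ]

theorem IsFixed.neg {ψ : Γ → F →+ F} {f : F} (hf : IsFixed ψ f) : IsFixed ψ (-f) :=
  fun σ => by rw [map_neg, hf σ]

theorem IsFixed.sub {ψ : Γ → F →+ F} {f g : F} (hf : IsFixed ψ f) (hg : IsFixed ψ g) :
    IsFixed ψ (f - g) := fun σ => by rw [map_sub, hf σ, hg σ]

variable (φ : Γ → L →+* L) (ψ : Γ → F →+ F)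

/-- semilinearity of the family `ψ` over the family `φ` -/
def IsSemilinear : Prop := ∀ (σ : Γ) (a : L) (f : F), ψ σ (a • f) = φ σ a • ψ σ f

variable {φ ψ}

theorem IsFixed.smul_of_fixed (hψ : IsSemilinear φ ψ) {a : L} (ha : ∀ σ, φ σ a = a) {f : F}
    (hf : IsFixed ψ f) : IsFixed ψ (a • f) := fun σ => by rw [hψ, ha σ, hf σ]

variable {K : Type*} [Field K] [Algebra K L]

/-- **Artin's argument**: `K`-linearly independent fixed vectors are `L`-linearly independent,
`K →  L` having the `φ`-fixed elements in its range. -/
theorem linearIndependent_of_isFixed [Module K F] [IsScalarTower K L F]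
    (hψ : IsSemilinear φ ψ)
    (hK : ∀ a : L, (∀ σ, φ σ a = a) → a ∈ Set.range (algebraMap K L))
    {ι : Type*} {v : ι → F} (hfix : ∀ i, IsFixed ψ (v i)) (hv : LinearIndependent K v) :
    LinearIndependent L v := by
  classical
  rw [linearIndependent_iff']
  intro s
  induction s using Finset.strongInduction with
  | H s ih =>
    intro g hg i hi
    by_contra hne
    -- normalise the coefficient at `i` to `1`
    set g' : ι → L := fun j => (g i)⁻¹ * g j with hg'def
    have hg' : ∑ j ∈ s, g' j • v j = 0 := by
      have : ∑ j ∈ s, g' j • v j = (g i)⁻¹ • ∑ j ∈ s, g j • v j := by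
        rw [Finset.smul_sum]
        exact Finset.sum_congr rfl fun j _ => by rw [hg'def, mul_smul]
      rw [this, hg, smul_zero]
    have hg'i : g' i = 1 := inv_mul_cancel₀ hne
    -- all the normalised coefficients are fixed
    have hfixg : ∀ σ, ∀ j ∈ s, φ σ (g' j) = g' j := by
      intro σ
      have h1 : ∑ j ∈ s, φ σ (g' j) • v j = 0 := by
        have h := congrArg (ψ σ) hg'
        rw [map_sum, map_zero] at h
        rw [← h]
        exact Finset.sum_congr rfl fun j _ => by rw [hψ, hfix j σ]
      have h2 : ∑ j ∈ s.erase i, (φ σ (g' j) - g' j) • v j = 0 := by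
        have h3 : ∑ j ∈ s, (φ σ (g' j) - g' j) • v j = 0 := by
          simp only [sub_smul, Finset.sum_sub_distrib, h1, hg', sub_zero]
        rw [← Finset.add_sum_erase s _ hi, hg'i, map_one, sub_self, zero_smul, zero_add] at h3
        exact h3
      have h3 := ih (s.erase i) (Finset.erase_ssubset hi) (fun j => φ σ (g' j) - g' j) h2
      intro j hj
      by_cases hji : j = i
      · rw [hji, hg'i, map_one]
      · exact sub_eq_zero.mp (h3 j (Finset.mem_erase.mpr ⟨hji, hj⟩))
    -- descend the relation to `K`
    have hex : ∀ j, ∃ c : K, j ∈ s → algebraMap K L c = g' j := by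
      intro j
      by_cases hj : j ∈ s
      · obtain ⟨c, hc⟩ := hK (g' j) (fun σ => hfixg σ j hj)
        exact ⟨c, fun _ => hc⟩
      · exact ⟨0, fun h => absurd h hj⟩
    choose c hc using hex
    have hrel : ∑ j ∈ s, c j • v j = 0 := by
      rw [← hg']
      refine Finset.sum_congr rfl fun j hj => ?_
      rw [← hc j hj, algebraMap_smul]
    have hci := linearIndependent_iff'.mp hv s c hrel i hi
    have := hc i hi
    rw [hci, map_zero, hg'i] at this
    exact zero_ne_one this

/-- the `K`-submodule of fixed vectors of an `L`-subspace `V` -/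
def fixedSub [Module K F] [IsScalarTower K L F] (hψ : IsSemilinear φ ψ)
    (hK' : ∀ (σ : Γ) (c : K), φ σ (algebraMap K L c) = algebraMap K L c) (V : Submodule L F) :
    Submodule K F where
  carrier := {f | f ∈ V ∧ IsFixed ψ f}
  zero_mem' := ⟨V.zero_mem, isFixed_zero ψ⟩
  add_mem' := fun hf hg => ⟨V.add_mem hf.1 hg.1, hf.2.add hg.2⟩
  smul_mem' := fun c f hf => by
    rw [← algebraMap_smul L c f]
    exact ⟨V.smul_mem _ hf.1, hf.2.smul_of_fixed hψ fun σ => hK' σ c⟩

theorem mem_fixedSub [Module K F] [IsScalarTower K L F] {hψ : IsSemilinear φ ψ}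
    {hK' : ∀ (σ : Γ) (c : K), φ σ (algebraMap K L c) = algebraMap K L c} {V : Submodule L F}
    {f : F} : f ∈ fixedSub hψ hK' V ↔ f ∈ V ∧ IsFixed ψ f := Iff.rfl

section Basis

variable [Module K F] [IsScalarTower K L F]
variable (hψ : IsSemilinear φ ψ)
variable (hK' : ∀ (σ : Γ) (c : K), φ σ (algebraMap K L c) = algebraMap K L c)
variable (hK : ∀ a : L, (∀ σ, φ σ a = a) → a ∈ Set.range (algebraMap K L))

include hK in
/-- a `K`-basis of the fixed vectors of `V` is `L`-linearly independent in `F` -/
theorem linearIndependent_coe_basis_fixedSub (V : Submodule L F) {ι : Type*}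
    (b : Basis ι K (fixedSub hψ hK' V)) : LinearIndependent L fun i => ((b i : fixedSub hψ hK' V) : F) := by
  refine linearIndependent_of_isFixed hψ hK (fun i => (b i).2.2) ?_
  exact b.linearIndependent.map' (fixedSub hψ hK' V).subtype (Submodule.ker_subtype _)

include hK in
/-- if the fixed vectors of `V` span `V` over `L`, then a `K`-basis of the fixed vectors of `V`
is an `L`-basis of `V` -/
theorem exists_basis_of_span_fixedSub (V : Submodule L F)
    (hspan : Submodule.span L {f | f ∈ V ∧ IsFixed ψ f} = V) {ι : Type*}
    (b : Basis ι K (fixedSub hψ hK' V)) :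
    ∃ B : Basis ι L V, ∀ i, ((B i : V) : F) = ((b i : fixedSub hψ hK' V) : F) := by
  have hmem : ∀ i, ((b i : fixedSub hψ hK' V) : F) ∈ V := fun i => (b i).2.1
  have hli : LinearIndependent L fun i => (⟨((b i : fixedSub hψ hK' V) : F), hmem i⟩ : V) := by
    apply LinearIndependent.of_comp V.subtype
    exact linearIndependent_coe_basis_fixedSub hψ hK' hK V b
  have hsp : ⊤ ≤ Submodule.span L
      (Set.range fun i => (⟨((b i : fixedSub hψ hK' V) : F), hmem i⟩ : V)) := by
    rintro ⟨x, hx⟩ -
    -- it suffices to see that the image in `F` lies in the span of the images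
    have hx' : x ∈ Submodule.span L
        (Set.range fun i => ((b i : fixedSub hψ hK' V) : F)) := by
      have h1 : Submodule.span L {f | f ∈ V ∧ IsFixed ψ f} ≤
          Submodule.span L (Set.range fun i => ((b i : fixedSub hψ hK' V) : F)) := by
        rw [Submodule.span_le]
        intro f hf
        have h2 : (⟨f, hf⟩ : fixedSub hψ hK' V) ∈
            Submodule.span K (Set.range b) := by rw [b.span_eq]; trivial
        have h3 := Submodule.apply_mem_span_image_of_mem_span (fixedSub hψ hK' V).subtype h2
        rw [← Set.range_comp] at h3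
        have h4 : (Submodule.span K (Set.range ((fixedSub hψ hK' V).subtype ∘ b)) : Set F) ⊆
            Submodule.span L (Set.range ((fixedSub hψ hK' V).subtype ∘ b)) :=
          Submodule.span_subset_span K L _
        exact h4 h3
      rw [hspan] at h1
      exact h1 hx
    have h5 : Submodule.span L (Set.range fun i => ((b i : fixedSub hψ hK' V) : F)) =
        (Submodule.span L (Set.range fun i =>
          (⟨((b i : fixedSub hψ hK' V) : F), hmem i⟩ : V))).map V.subtype := by
      rw [Submodule.map_span, ← Set.range_comp]
      rfl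
    rw [h5] at hx'
    obtain ⟨y, hy, hyx⟩ := hx'
    have : y = ⟨x, hx⟩ := Subtype.ext hyx
    rw [← this]
    exact hy
  exact ⟨Basis.mk hli hsp, fun i => by rw [Basis.mk_apply]⟩

end Basis

section Span

/-- coordinates of `ψ σ f` in a basis of fixed vectors -/
theorem repr_map_of_fixed_basis (hψ : IsSemilinear φ ψ) {ι : Type*} (B : Basis ι L F)
    (hB : ∀ i, IsFixed ψ (B i)) (σ : Γ) (f : F) (i : ι) :
    B.repr (ψ σ f) i = φ σ (B.repr f i) := by
  have h : ψ σ f =
      Finsupp.linearCombination L B ((B.repr f).mapRange (φ σ) (map_zero _)) := by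
    conv_lhs => rw [← B.linearCombination_repr f]
    rw [Finsupp.linearCombination_apply, Finsupp.sum, map_sum, Finsupp.linearCombination_apply,
      Finsupp.sum_mapRange_index (fun j => zero_smul L (B j)), Finsupp.sum]
    exact Finset.sum_congr rfl fun j _ => by rw [hψ, hB j σ]
  rw [h, B.repr_linearCombination, Finsupp.mapRange_apply]

/-- **Speiser's lemma, fixed-basis form**: if `F` has an `L`-basis of fixed vectors, every
`ψ`-stable `L`-subspace is spanned by its fixed vectors. -/
theorem span_inter_fixed_eq_of_basis (hψ : IsSemilinear φ ψ) {ι : Type*} (B : Basis ι L F)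
    (hB : ∀ i, IsFixed ψ (B i)) (V : Submodule L F) (hV : ∀ σ, ∀ f ∈ V, ψ σ f ∈ V) :
    Submodule.span L {f | f ∈ V ∧ IsFixed ψ f} = V := by
  classical
  apply le_antisymm
  · rw [Submodule.span_le]
    exact fun f hf => hf.1
  set V' := Submodule.span L {f | f ∈ V ∧ IsFixed ψ f} with hV'
  have key : ∀ n : ℕ, ∀ S : Finset ι, S.card ≤ n → ∀ v ∈ V, (B.repr v).support ⊆ S → v ∈ V' := by
    intro n
    induction n with
    | zero =>
      intro S hS v _ hsupp
      have hS0 : S = ∅ := Finset.card_eq_zero.mp (Nat.le_zero.mp hS)
      rw [hS0, Finset.subset_empty, Finsupp.support_eq_empty] at hsupp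
      have : v = 0 := by
        have := congrArg B.repr.symm hsupp
        simpa using this
      rw [this]
      exact V'.zero_mem
    | succ n ih =>
      intro S hS v hv hsupp
      by_cases hex : ∃ w ∈ V, w ≠ 0 ∧ (B.repr w).support ⊂ S
      · -- Case A: a nonzero vector of `V` with strictly smaller support
        obtain ⟨w, hwV, hw0, hwS⟩ := hex
        have hcard : (B.repr w).support.card ≤ n := by
          have := Finset.card_lt_card hwS
          omega
        have hwV' : w ∈ V' := ih _ hcard w hwV (Finset.Subset.refl _)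
        have hne : (B.repr w).support.Nonempty := by
          rw [Finset.nonempty_iff_ne_empty, Ne, Finsupp.support_eq_empty]
          intro h
          apply hw0
          have := congrArg B.repr.symm h
          simpa using this
        obtain ⟨i0, hi0⟩ := hne
        have hwi0 : B.repr w i0 ≠ 0 := Finsupp.mem_support_iff.mp hi0
        have hi0S : i0 ∈ S := hwS.1 hi0
        set a : L := B.repr v i0 / B.repr w i0 with ha
        have hv' : v - a • w ∈ V := V.sub_mem hv (V.smul_mem _ hwV)
        have hsupp' : (B.repr (v - a • w)).support ⊆ S.erase i0 := by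
          intro j hj
          rw [Finsupp.mem_support_iff] at hj
          rw [Finset.mem_erase]
          constructor
          · rintro rfl
            apply hj
            rw [map_sub, map_smul, Finsupp.sub_apply, Finsupp.smul_apply, smul_eq_mul, ha,
              div_mul_cancel₀ _ hwi0, sub_self]
          · by_contra hjS
            apply hj
            have h1 : B.repr v j = 0 := by
              by_contra h
              exact hjS (hsupp (Finsupp.mem_support_iff.mpr h))
            have h2 : B.repr w j = 0 := by
              by_contra h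
              exact hjS (hwS.1 (Finsupp.mem_support_iff.mpr h))
            rw [map_sub, map_smul, Finsupp.sub_apply, Finsupp.smul_apply, h1, h2, smul_zero,
              sub_zero]
        have hcard' : (S.erase i0).card ≤ n := by
          rw [Finset.card_erase_of_mem hi0S]
          omega
        have h3 : v - a • w ∈ V' := ih _ hcard' _ hv' hsupp'
        have : v = (v - a • w) + a • w := by abel
        rw [this]
        exact V'.add_mem h3 (V'.smul_mem _ hwV')
      · -- Case B: every nonzero vector of `V` supported in `S` has support `S`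
        by_cases hv0 : v = 0
        · rw [hv0]; exact V'.zero_mem
        have hne : (B.repr v).support.Nonempty := by
          rw [Finset.nonempty_iff_ne_empty, Ne, Finsupp.support_eq_empty]
          intro h
          apply hv0
          have := congrArg B.repr.symm h
          simpa using this
        obtain ⟨i0, hi0⟩ := hne
        have hvi0 : B.repr v i0 ≠ 0 := Finsupp.mem_support_iff.mp hi0
        have hi0S : i0 ∈ S := hsupp hi0
        set v' : F := (B.repr v i0)⁻¹ • v with hv'def
        have hv'V : v' ∈ V := V.smul_mem _ hv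
        have hv'i0 : B.repr v' i0 = 1 := by
          rw [hv'def, map_smul, Finsupp.smul_apply, smul_eq_mul, inv_mul_cancel₀ hvi0]
        have hv'supp : ∀ j, j ∉ S → B.repr v' j = 0 := by
          intro j hj
          have h1 : B.repr v j = 0 := by
            by_contra h
            exact hj (hsupp (Finsupp.mem_support_iff.mpr h))
          rw [hv'def, map_smul, Finsupp.smul_apply, h1, smul_zero]
        have hfix : IsFixed ψ v' := by
          intro σ
          by_contra hσ
          apply hex
          refine ⟨ψ σ v' - v', V.sub_mem (hV σ _ hv'V) hv'V, sub_ne_zero.mpr hσ, ?_⟩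
          have hsub : (B.repr (ψ σ v' - v')).support ⊆ S.erase i0 := by
            intro j hj
            rw [Finsupp.mem_support_iff, map_sub, Finsupp.sub_apply,
              repr_map_of_fixed_basis hψ B hB] at hj
            rw [Finset.mem_erase]
            constructor
            · rintro rfl
              apply hj
              rw [hv'i0, map_one, sub_self]
            · by_contra hjS
              apply hj
              rw [hv'supp j hjS, map_zero, sub_self]
          exact lt_of_le_of_lt hsub (Finset.erase_ssubset hi0S)
        have hv'V' : v' ∈ V' := Submodule.subset_span ⟨hv'V, hfix⟩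
        have : v = B.repr v i0 • v' := by
          rw [hv'def, smul_smul, mul_inv_cancel₀ hvi0, one_smul]
        rw [this]
        exact V'.smul_mem _ hv'V'
  intro v hv
  exact key _ _ le_rfl v hv (Finset.Subset.refl _)

end Span

section Main

variable [Module K F] [IsScalarTower K L F]
variable (hψ : IsSemilinear φ ψ)
variable (hK' : ∀ (σ : Γ) (c : K), φ σ (algebraMap K L c) = algebraMap K L c)
variable (hK : ∀ a : L, (∀ σ, φ σ a = a) → a ∈ Set.range (algebraMap K L))
variable (hF : Submodule.span L {f : F | IsFixed ψ f} = ⊤)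

include hψ hK' hK hF in
/-- if `F` is `L`-spanned by its fixed vectors, it has an `L`-basis of fixed vectors -/
theorem exists_basis_isFixed : ∃ (ι : Type uF) (B : Basis ι L F), ∀ i, IsFixed ψ (B i) := by
  have hspan : Submodule.span L {f | f ∈ (⊤ : Submodule L F) ∧ IsFixed ψ f} =
      (⊤ : Submodule L F) := by
    have h : {f | f ∈ (⊤ : Submodule L F) ∧ IsFixed ψ f} = {f : F | IsFixed ψ f} := by
      ext f
      simp
    rw [h, hF]
  obtain ⟨B, hB⟩ := exists_basis_of_span_fixedSub hψ hK' hK ⊤ hspan
    (Basis.ofVectorSpace K (fixedSub hψ hK' (⊤ : Submodule L F)))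
  refine ⟨_, B.map (Submodule.topEquiv : (⊤ : Submodule L F) ≃ₗ[L] F), fun i => ?_⟩
  rw [Basis.map_apply]
  show IsFixed ψ ((B i : (⊤ : Submodule L F)) : F)
  rw [hB i]
  exact (Basis.ofVectorSpace K (fixedSub hψ hK' (⊤ : Submodule L F)) i).2.2

include hψ hK' hK hF in
/-- **Speiser's lemma**: if `F` is `L`-spanned by its fixed vectors, every `ψ`-stable
`L`-subspace `V` is `L`-spanned by its fixed vectors. -/
theorem span_inter_fixed_eq (V : Submodule L F) (hV : ∀ σ, ∀ f ∈ V, ψ σ f ∈ V) :
    Submodule.span L {f | f ∈ V ∧ IsFixed ψ f} = V := by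
  obtain ⟨ι, B, hB⟩ := exists_basis_isFixed hψ hK' hK hF
  exact span_inter_fixed_eq_of_basis hψ B hB V hV

include hK hF in
/-- a `K`-basis of the fixed vectors of a stable subspace `V` is an `L`-basis of `V` -/
theorem exists_basis_of_basis_fixedSub (V : Submodule L F) (hV : ∀ σ, ∀ f ∈ V, ψ σ f ∈ V)
    {ι : Type*} (b : Basis ι K (fixedSub hψ hK' V)) :
    ∃ B : Basis ι L V, ∀ i, ((B i : V) : F) = ((b i : fixedSub hψ hK' V) : F) :=
  exists_basis_of_span_fixedSub hψ hK' hK V (span_inter_fixed_eq hψ hK' hK hF V hV) b

include hK hF in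
/-- `dim_K V^Γ = dim_L V` (as cardinals) -/
theorem rank_fixedSub (V : Submodule L F) (hV : ∀ σ, ∀ f ∈ V, ψ σ f ∈ V) :
    Module.rank K (fixedSub hψ hK' V) = Module.rank L V := by
  obtain ⟨B, -⟩ := exists_basis_of_basis_fixedSub hψ hK' hK hF V hV
    (Basis.ofVectorSpace K (fixedSub hψ hK' V))
  rw [← (Basis.ofVectorSpace K (fixedSub hψ hK' V)).mk_eq_rank'', ← B.mk_eq_rank'']

include hK hF in
/-- `dim_K V^Γ = dim_L V` -/
theorem finrank_fixedSub (V : Submodule L F) (hV : ∀ σ, ∀ f ∈ V, ψ σ f ∈ V) :
    finrank K (fixedSub hψ hK' V) = finrank L V := by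
  rw [finrank, finrank, rank_fixedSub hψ hK' hK hF V hV]

include hK hF in
/-- for `V` finite dimensional, so is `V^Γ` over `K` -/
theorem finiteDimensional_fixedSub (V : Submodule L F) (hV : ∀ σ, ∀ f ∈ V, ψ σ f ∈ V)
    [FiniteDimensional L V] : FiniteDimensional K (fixedSub hψ hK' V) := by
  rw [FiniteDimensional, ← Module.rank_lt_aleph0_iff, rank_fixedSub hψ hK' hK hF V hV]
  exact Module.rank_lt_aleph0 L V

include hK hF in
/-- a family `b : Fin (dim_L V) → F` of fixed vectors of `V` which is a `K`-basis of `V^Γ` and an
`L`-basis of `V` -/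
theorem exists_fixed_basis_of_finrank (V : Submodule L F) (hV : ∀ σ, ∀ f ∈ V, ψ σ f ∈ V)
    [FiniteDimensional L V] :
    ∃ b : Fin (finrank L V) → F, (∀ i, b i ∈ V) ∧ (∀ i, IsFixed ψ (b i)) ∧
      LinearIndependent L b ∧ Submodule.span L (Set.range b) = V ∧
      Submodule.span K (Set.range b) = fixedSub hψ hK' V := by
  have := finiteDimensional_fixedSub hψ hK' hK hF V hV
  have hfr := finrank_fixedSub hψ hK' hK hF V hV
  set b0 : Basis (Fin (finrank L V)) K (fixedSub hψ hK' V) :=
    (Module.finBasis K (fixedSub hψ hK' V)).reindex (finCongr hfr) with hb0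
  obtain ⟨B, hB⟩ := exists_basis_of_basis_fixedSub hψ hK' hK hF V hV b0
  refine ⟨fun i => ((b0 i : fixedSub hψ hK' V) : F), fun i => (b0 i).2.1, fun i => (b0 i).2.2,
    linearIndependent_coe_basis_fixedSub hψ hK' hK V b0, ?_, ?_⟩
  · have h1 : (fun i => ((b0 i : fixedSub hψ hK' V) : F)) = V.subtype ∘ B := by
      funext i
      exact (hB i).symm
    rw [h1, Set.range_comp, ← Submodule.map_span, B.span_eq, Submodule.map_top,
      Submodule.range_subtype]
  · have h1 : (fun i => ((b0 i : fixedSub hψ hK' V) : F)) = (fixedSub hψ hK' V).subtype ∘ b0 := rfl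
    rw [h1, Set.range_comp, ← Submodule.map_span, b0.span_eq, Submodule.map_top,
      Submodule.range_subtype]

/-- the preimage of `V` in a `K`-space `F'` mapping isomorphically onto the fixed vectors of `F`
is `K`-isomorphic to the fixed vectors of `V` -/
def comapEquiv {F' : Type*} [AddCommGroup F'] [Module K F'] (i' : F' →ₗ[K] F)
    (hinj : Function.Injective i') (hrange : ∀ f : F, IsFixed ψ f ↔ f ∈ Set.range i')
    (V : Submodule L F) :
    ((V.restrictScalars K).comap i') ≃ₗ[K] fixedSub hψ hK' V :=
  LinearEquiv.ofBijective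
    ({ toFun := fun x => (⟨i' x, x.2, (hrange _).mpr ⟨x, rfl⟩⟩ : fixedSub hψ hK' V)
       map_add' := fun x y => Subtype.ext (map_add i' (x : F') (y : F'))
       map_smul' := fun c x => Subtype.ext (map_smul i' c (x : F')) } :
      ((V.restrictScalars K).comap i') →ₗ[K] fixedSub hψ hK' V)
    (by
      constructor
      · intro x y hxy
        have h1 : i' (x : F') = i' (y : F') := congrArg Subtype.val hxy
        exact Subtype.ext (hinj h1)
      · rintro ⟨f, hf⟩
        obtain ⟨x, hx⟩ := (hrange f).mp hf.2
        have hxV : x ∈ (V.restrictScalars K).comap i' := by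
          show i' x ∈ V.restrictScalars K
          rw [hx]
          exact hf.1
        exact ⟨⟨x, hxV⟩, Subtype.ext hx⟩)

include hψ hK' hK hF in
/-- the same dimension formula for the preimage of `V` in any `K`-space `F'` mapping
isomorphically onto the fixed vectors of `F` (e.g. the fixed field). -/
theorem finrank_comap_eq {F' : Type*} [AddCommGroup F'] [Module K F'] (i' : F' →ₗ[K] F)
    (hinj : Function.Injective i') (hrange : ∀ f : F, IsFixed ψ f ↔ f ∈ Set.range i')
    (V : Submodule L F) (hV : ∀ σ, ∀ f ∈ V, ψ σ f ∈ V) :
    finrank K ((V.restrictScalars K).comap i') = finrank L V := by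
  rw [← finrank_fixedSub hψ hK' hK hF V hV]
  exact (comapEquiv hψ hK' i' hinj hrange V).finrank_eq

include hψ hK' hK hF in
/-- finite dimensionality of the preimage -/
theorem finiteDimensional_comap {F' : Type*} [AddCommGroup F'] [Module K F'] (i' : F' →ₗ[K] F)
    (hinj : Function.Injective i') (hrange : ∀ f : F, IsFixed ψ f ↔ f ∈ Set.range i')
    (V : Submodule L F) (hV : ∀ σ, ∀ f ∈ V, ψ σ f ∈ V) [FiniteDimensional L V] :
    FiniteDimensional K ((V.restrictScalars K).comap i') := by
  have := finiteDimensional_fixedSub hψ hK' hK hF V hV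
  exact (comapEquiv hψ hK' i' hinj hrange V).symm.finiteDimensional

end Main

end Abstract

end Fermat.Agent.S36lib.Desc2
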