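/-
S36lib / Desc2 / SpeiserBar  (helper1)

**Speiser's lemma for the modular function fields `FBar N = ℚ̄ · F_ℚ(N)`** and the coefficientwise
action of an ARBITRARY subgroup `H ≤ G_ℚ` (brick (D2) of S36; for S36, `H` = the inertia group of
a valuation ring of `ℚ̄`).

* `galPsi N H`, `galPhi H` : the two families of `Desc2/Speiser`, `galSemilinear`;
* `span_coeffEmb_eq_top` / `span_isFixed_eq_top` : `FBar N` is `ℚ̄`-spanned by the image of
  `F_ℚ(N)`, which is fixed by all of `G_ℚ`;
* for an `H`-stable `ℚ̄`-subspace `V` of `FBar N` (`K` := the fixed field of `H`):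
  `span_fixed_eq` (`V` is spanned by its fixed vectors), `exists_fixed_ne_zero`,
  `finrank_fixedPart` (`dim_K V^H = dim_ℚ̄ V`), `exists_fixed_basis` (a basis of fixed vectors);
* `fixF N H : Subfield (FBar N)` (the fixed field), its `K`-algebra structure, and
  `finrank_comap_fixF` : `dim_K (V ∩ fixF) = dim_ℚ̄ V` for the preimage in `fixF N H`.
-/
import Mathlib
import Fermat.Agent.S36lib.Desc2.Speiser
import Fermat.Agent.S29lib.GH.HeckeGalois

set_option autoImplicit false
set_option linter.unusedSectionVars false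

noncomputable section

namespace Fermat.Agent.S36lib.Desc2

open ModularCurve AlgebraicCurve Module Fermat.Agent.S29lib.GH
open Fermat.Agent.S37lib.HeckeInst (FB)

local notation "Qb" => AlgebraicClosure ℚ
local notation "GQ" => (AlgebraicClosure ℚ ≃ₐ[ℚ] AlgebraicClosure ℚ)

variable (N : ℕ) (H : Subgroup GQ)

/-- the action of `H` on the constants -/
def galPhi : H → Qb →+* Qb := fun σ => ((σ : GQ) : Qb →+* Qb)

/-- the coefficientwise action of `H` on `FBar N` -/
def galPsi : H → (FB N) →+ (FB N) := fun σ =>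
  ((arithmeticRingAut (modularFunctionFieldFull N) (σ : GQ) : (FB N) ≃+* (FB N)) :
    (FB N) →+* (FB N)).toAddMonoidHom

@[simp] theorem galPsi_apply (σ : H) (f : FB N) :
    galPsi N H σ f = galAutBar N (σ : GQ) • f := rfl

theorem coe_galPsi_apply (σ : H) (f : FB N) :
    ((galPsi N H σ f : FB N) : LaurentSeries Qb) =
      coeffMap (((σ : GQ) : Qb →+* Qb)) (f : LaurentSeries Qb) := rfl

theorem galPsi_mul (σ : H) (f g : FB N) :
    galPsi N H σ (f * g) = galPsi N H σ f * galPsi N H σ g :=
  map_mul (arithmeticRingAut (modularFunctionFieldFull N) (σ : GQ)) f g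

theorem galPsi_one (σ : H) : galPsi N H σ 1 = 1 :=
  map_one (arithmeticRingAut (modularFunctionFieldFull N) (σ : GQ))

theorem galPsi_inv (σ : H) (f : FB N) : galPsi N H σ f⁻¹ = (galPsi N H σ f)⁻¹ :=
  map_inv₀ (arithmeticRingAut (modularFunctionFieldFull N) (σ : GQ)) f

theorem galPsi_algebraMap (σ : H) (a : Qb) :
    galPsi N H σ (algebraMap Qb (FB N) a) = algebraMap Qb (FB N) ((σ : GQ) a) :=
  arithmeticRingAut_algebraMap (modularFunctionFieldFull N) (σ : GQ) a

/-- semilinearity -/
theorem galSemilinear : IsSemilinear (galPhi H) (galPsi N H) := by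
  intro σ a f
  rw [Algebra.smul_def, galPsi_mul, galPsi_algebraMap, Algebra.smul_def]
  rfl

/-- `IsFixed` spelled out -/
theorem isFixed_galPsi_iff {f : FB N} :
    IsFixed (galPsi N H) f ↔ ∀ σ ∈ H, galAutBar N σ • f = f :=
  ⟨fun h σ hσ => h ⟨σ, hσ⟩, fun h σ => h σ σ.2⟩

/-- the elements of `F_ℚ(N)`, as elements of `FBar N` -/
def ratElem {z : LaurentSeries ℚ} (hz : z ∈ modularFunctionFieldFull N) : FB N :=
  ⟨coeffEmb Qb z, coeffEmb_mem_laurentBaseChange Qb hz⟩

theorem isFixed_ratElem {z : LaurentSeries ℚ} (hz : z ∈ modularFunctionFieldFull N) :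
    IsFixed (galPsi N H) (ratElem N hz) := by
  intro σ
  apply Subtype.ext
  rw [coe_galPsi_apply]
  exact coeffMap_coeffEmb _ z

theorem ratElem_mul {z z' : LaurentSeries ℚ} (hz : z ∈ modularFunctionFieldFull N)
    (hz' : z' ∈ modularFunctionFieldFull N) :
    ratElem N hz * ratElem N hz' = ratElem N (mul_mem hz hz') := by
  apply Subtype.ext
  show coeffEmb Qb z * coeffEmb Qb z' = coeffEmb Qb (z * z')
  rw [map_mul]

theorem ratElem_one : ratElem N (one_mem (modularFunctionFieldFull N)) = 1 := by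
  apply Subtype.ext
  show coeffEmb Qb 1 = 1
  rw [map_one]

/-- the `ℚ̄`-span of the image of `F_ℚ(N)` in `FBar N` -/
def ratSpan : Submodule Qb (FB N) :=
  Submodule.span Qb {f | ∃ (z : LaurentSeries ℚ) (hz : z ∈ modularFunctionFieldFull N),
    f = ratElem N hz}

theorem ratElem_mem_ratSpan {z : LaurentSeries ℚ} (hz : z ∈ modularFunctionFieldFull N) :
    ratElem N hz ∈ ratSpan N := Submodule.subset_span ⟨z, hz, rfl⟩

theorem ratElem_mul_mem_ratSpan {z : LaurentSeries ℚ} (hz : z ∈ modularFunctionFieldFull N)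
    {f : FB N} (hf : f ∈ ratSpan N) : ratElem N hz * f ∈ ratSpan N := by
  induction hf using Submodule.span_induction with
  | mem g hg =>
    obtain ⟨z', hz', rfl⟩ := hg
    rw [ratElem_mul]
    exact ratElem_mem_ratSpan N _
  | zero => rw [mul_zero]; exact (ratSpan N).zero_mem
  | add g g' _ _ hg hg' => rw [mul_add]; exact (ratSpan N).add_mem hg hg'
  | smul a g _ hg => rw [mul_smul_comm]; exact (ratSpan N).smul_mem a hg

set_option maxHeartbeats 400000 in
/-- **`FBar N` is `ℚ̄`-spanned by `F_ℚ(N)`** (a domain generated over a field by algebraic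
elements is a field). -/
theorem ratSpan_eq_top : ratSpan N = ⊤ := by
  classical
  rw [eq_top_iff]
  rintro f -
  -- the subfield `E₀ = coeffEmb (F_ℚ)` of `ℚ̄((t))` and the set `C` of constants
  set E₀ : Subfield (LaurentSeries Qb) :=
    (modularFunctionFieldFull N).toSubfield.map (coeffEmb Qb) with hE₀
  set C : Set (LaurentSeries Qb) := Set.range (algebraMap Qb (LaurentSeries Qb)) with hC
  have hmemE₀ : ∀ {z : LaurentSeries ℚ}, z ∈ modularFunctionFieldFull N → coeffEmb Qb z ∈ E₀ :=
    fun {z} hz => ⟨z, hz, rfl⟩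
  -- constants are algebraic over `E₀`
  have halg : ∀ x ∈ C, IsAlgebraic E₀ x := by
    rintro _ ⟨a, rfl⟩
    have h1 : IsAlgebraic ℤ a :=
      (IsFractionRing.isAlgebraic_iff ℤ ℚ Qb).mpr ((AlgebraicClosure.isAlgebraic ℚ).isAlgebraic a)
    obtain ⟨p, hp0, hpa⟩ := h1
    have hcz : CharZero (LaurentSeries Qb) :=
      charZero_of_injective_algebraMap (algebraMap Qb (LaurentSeries Qb)).injective
    have hinj : Function.Injective (Int.castRingHom E₀) := by
      intro m n h
      have h3 := congrArg (fun x : E₀ => (x : LaurentSeries Qb)) h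
      simp only [eq_intCast] at h3
      exact_mod_cast h3
    refine ⟨p.map (Int.castRingHom E₀), (Polynomial.map_ne_zero_iff hinj).mpr hp0, ?_⟩
    rw [Polynomial.aeval_def, Polynomial.eval₂_map]
    have hcomp : (algebraMap E₀ (LaurentSeries Qb)).comp (Int.castRingHom E₀) =
        (algebraMap Qb (LaurentSeries Qb)).comp (Int.castRingHom Qb) := RingHom.ext_int _ _
    rw [hcomp, ← Polynomial.hom_eval₂]
    have : Polynomial.eval₂ (Int.castRingHom Qb) a p = 0 := by
      rw [← hpa, Polynomial.aeval_def]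
      rfl
    rw [this, map_zero]
  -- Step 1: `f ∈ Algebra.adjoin E₀ C`
  have h1 : (f : LaurentSeries Qb) ∈ Algebra.adjoin E₀ C := by
    rw [← IntermediateField.adjoin_toSubalgebra_of_isAlgebraic halg]
    have hle : Subfield.closure (Set.range (algebraMap Qb (LaurentSeries Qb)) ∪
        (⇑(coeffEmb Qb) '' ((modularFunctionFieldFull N : IntermediateField ℚ (LaurentSeries ℚ)) :
          Set (LaurentSeries ℚ)))) ≤ (IntermediateField.adjoin E₀ C).toSubfield := by
      rw [Subfield.closure_le]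
      rintro x (hx | ⟨z, hz, rfl⟩)
      · exact IntermediateField.subset_adjoin E₀ C hx
      · exact (IntermediateField.adjoin E₀ C).algebraMap_mem ⟨coeffEmb Qb z, hmemE₀ hz⟩
    exact hle (mem_laurentBaseChange_iff.mp f.2)
  -- Step 2: `Algebra.adjoin E₀ C` is the `E₀`-span of `C`
  have h2 : (f : LaurentSeries Qb) ∈ Submodule.span E₀ C := by
    have := Algebra.adjoin_eq_span E₀ C
    have h3 : (f : LaurentSeries Qb) ∈ Subalgebra.toSubmodule (Algebra.adjoin E₀ C) := h1
    rw [this] at h3
    have hcl : (Submonoid.closure C : Set (LaurentSeries Qb)) = C := by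
      have : C = ((algebraMap Qb (LaurentSeries Qb)).range.toSubmonoid : Set (LaurentSeries Qb)) := by
        ext x; simp [hC]
      rw [this, Submonoid.closure_eq]
    rwa [hcl] at h3
  -- Step 3: induction
  have key : ∀ x ∈ Submodule.span E₀ C, ∃ g : FB N, g ∈ ratSpan N ∧ (g : LaurentSeries Qb) = x := by
    intro x hx
    induction hx using Submodule.span_induction with
    | mem x hx =>
      obtain ⟨a, rfl⟩ := hx
      refine ⟨algebraMap Qb (FB N) a, ?_, rfl⟩
      rw [Algebra.algebraMap_eq_smul_one, ← ratElem_one N]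
      exact (ratSpan N).smul_mem a (ratElem_mem_ratSpan N _)
    | zero => exact ⟨0, (ratSpan N).zero_mem, rfl⟩
    | add x y _ _ hx hy =>
      obtain ⟨g, hg, rfl⟩ := hx
      obtain ⟨g', hg', rfl⟩ := hy
      exact ⟨g + g', (ratSpan N).add_mem hg hg', rfl⟩
    | smul e x _ hx =>
      obtain ⟨g, hg, rfl⟩ := hx
      obtain ⟨z, hz, hze⟩ := e.2
      refine ⟨ratElem N hz * g, ratElem_mul_mem_ratSpan N hz hg, ?_⟩
      show coeffEmb Qb z * (g : LaurentSeries Qb) = e • (g : LaurentSeries Qb)
      rw [Subfield.smul_def, smul_eq_mul, ← hze]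
  obtain ⟨g, hg, hgf⟩ := key _ h2
  have : g = f := Subtype.ext hgf
  rw [← this]
  exact hg

/-- `FBar N` is `ℚ̄`-spanned by its `H`-fixed vectors -/
theorem span_isFixed_eq_top : Submodule.span Qb {f : FB N | IsFixed (galPsi N H) f} = ⊤ := by
  rw [eq_top_iff, ← ratSpan_eq_top N, ratSpan]
  apply Submodule.span_mono
  rintro f ⟨z, hz, rfl⟩
  exact isFixed_ratElem N H hz

/-- the fixed field of `H` in `ℚ̄` -/
abbrev fixK : IntermediateField ℚ Qb := IntermediateField.fixedField H

/-! shortcut instances (the default search through `IntermediateField` is slow) -/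

instance instFieldFixK : Field (fixK H) := inferInstance

instance instAlgebraFixKQb : Algebra (fixK H) Qb := inferInstance

instance instAlgebraFixKFB : Algebra (fixK H) (FB N) := inferInstance

instance instModuleFixKFB : Module (fixK H) (FB N) := inferInstance

instance instIsScalarTowerFixKFB : IsScalarTower (fixK H) Qb (FB N) := inferInstance

theorem galPhi_algebraMap (σ : H) (c : fixK H) :
    galPhi H σ (algebraMap (fixK H) Qb c) = algebraMap (fixK H) Qb c :=
  (IntermediateField.mem_fixedField_iff H _).mp c.2 σ σ.2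

theorem mem_range_of_galPhi_fixed (a : Qb) (ha : ∀ σ : H, galPhi H σ a = a) :
    a ∈ Set.range (algebraMap (fixK H) Qb) :=
  ⟨⟨a, (IntermediateField.mem_fixedField_iff H a).mpr fun σ hσ => ha ⟨σ, hσ⟩⟩, rfl⟩

variable {N H}

/-- stability of a subspace, in terms of `galPsi` -/
theorem stable_galPsi {V : Submodule Qb (FB N)}
    (hV : ∀ σ ∈ H, ∀ f ∈ V, galAutBar N σ • f ∈ V) :
    ∀ σ : H, ∀ f ∈ V, galPsi N H σ f ∈ V := fun σ f hf => hV σ σ.2 f hf

/-- **Speiser for `FBar N`**: an `H`-stable `ℚ̄`-subspace is spanned by its fixed vectors. -/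
theorem span_fixed_eq (V : Submodule Qb (FB N))
    (hV : ∀ σ ∈ H, ∀ f ∈ V, galAutBar N σ • f ∈ V) :
    Submodule.span Qb {f | f ∈ V ∧ ∀ σ ∈ H, galAutBar N σ • f = f} = V := by
  have h := span_inter_fixed_eq (galSemilinear N H) (galPhi_algebraMap H)
    (mem_range_of_galPhi_fixed H) (span_isFixed_eq_top N H) V (stable_galPsi hV)
  have hset : {f | f ∈ V ∧ ∀ σ ∈ H, galAutBar N σ • f = f} =
      {f | f ∈ V ∧ IsFixed (galPsi N H) f} := by
    ext f
    simp only [Set.mem_ofPred_eq, isFixed_galPsi_iff]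
  rw [hset]
  exact h

/-- a nonzero `H`-stable subspace contains a nonzero fixed vector -/
theorem exists_fixed_ne_zero (V : Submodule Qb (FB N))
    (hV : ∀ σ ∈ H, ∀ f ∈ V, galAutBar N σ • f ∈ V) (hne : V ≠ ⊥) :
    ∃ f ∈ V, f ≠ 0 ∧ ∀ σ ∈ H, galAutBar N σ • f = f := by
  by_contra hcon
  push Not at hcon
  apply hne
  rw [← span_fixed_eq V hV, Submodule.span_eq_bot]
  rintro f ⟨hfV, hfix⟩
  by_contra hf0
  obtain ⟨σ, hσ, hne'⟩ := hcon f hfV hf0
  exact hne' (hfix σ hσ)

variable (H) in
/-- the `K`-subspace of fixed vectors of `V` (`K` the fixed field of `H`) -/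
def fixedPart (V : Submodule Qb (FB N)) : Submodule (fixK H) (FB N) :=
  fixedSub (galSemilinear N H) (galPhi_algebraMap H) V

theorem mem_fixedPart {V : Submodule Qb (FB N)} {f : FB N} :
    f ∈ fixedPart H V ↔ f ∈ V ∧ ∀ σ ∈ H, galAutBar N σ • f = f := by
  rw [fixedPart, mem_fixedSub, isFixed_galPsi_iff]

/-- **`dim_K V^H = dim_ℚ̄ V`** -/
theorem finrank_fixedPart (V : Submodule Qb (FB N))
    (hV : ∀ σ ∈ H, ∀ f ∈ V, galAutBar N σ • f ∈ V) :
    finrank (fixK H) (fixedPart H V) = finrank Qb V :=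
  finrank_fixedSub (galSemilinear N H) (galPhi_algebraMap H) (mem_range_of_galPhi_fixed H)
    (span_isFixed_eq_top N H) V (stable_galPsi hV)

theorem rank_fixedPart (V : Submodule Qb (FB N))
    (hV : ∀ σ ∈ H, ∀ f ∈ V, galAutBar N σ • f ∈ V) :
    Module.rank (fixK H) (fixedPart H V) = Module.rank Qb V :=
  rank_fixedSub (galSemilinear N H) (galPhi_algebraMap H) (mem_range_of_galPhi_fixed H)
    (span_isFixed_eq_top N H) V (stable_galPsi hV)

theorem finiteDimensional_fixedPart (V : Submodule Qb (FB N))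
    (hV : ∀ σ ∈ H, ∀ f ∈ V, galAutBar N σ • f ∈ V) [FiniteDimensional Qb V] :
    FiniteDimensional (fixK H) (fixedPart H V) :=
  finiteDimensional_fixedSub (galSemilinear N H) (galPhi_algebraMap H)
    (mem_range_of_galPhi_fixed H) (span_isFixed_eq_top N H) V (stable_galPsi hV)

/-- a basis of `V` over `ℚ̄` consisting of fixed vectors, which is a `K`-basis of `V^H` -/
theorem exists_fixed_basis (V : Submodule Qb (FB N))
    (hV : ∀ σ ∈ H, ∀ f ∈ V, galAutBar N σ • f ∈ V) [FiniteDimensional Qb V] :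
    ∃ b : Fin (finrank Qb V) → FB N, (∀ i, b i ∈ V) ∧
      (∀ i, ∀ σ ∈ H, galAutBar N σ • b i = b i) ∧ LinearIndependent Qb b ∧
      Submodule.span Qb (Set.range b) = V ∧
      Submodule.span (fixK H) (Set.range b) = fixedPart H V := by
  obtain ⟨b, h1, h2, h3, h4, h5⟩ := exists_fixed_basis_of_finrank (galSemilinear N H)
    (galPhi_algebraMap H) (mem_range_of_galPhi_fixed H) (span_isFixed_eq_top N H) V
    (stable_galPsi hV)
  exact ⟨b, h1, fun i => (isFixed_galPsi_iff N H).mp (h2 i), h3, h4, h5⟩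

/-- **Artin independence for `FBar N`**: `K`-linearly independent `H`-fixed functions are
`ℚ̄`-linearly independent. -/
theorem linearIndependent_of_fixed {ι : Type*} {v : ι → FB N}
    (hfix : ∀ i, ∀ σ ∈ H, galAutBar N σ • v i = v i) (hv : LinearIndependent (fixK H) v) :
    LinearIndependent Qb v :=
  linearIndependent_of_isFixed (galSemilinear N H) (mem_range_of_galPhi_fixed H)
    (fun i => (isFixed_galPsi_iff N H).mpr (hfix i)) hv

/-! ### the fixed field `fixF N H ⊆ FBar N` -/

variable (N H)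

/-- the subfield of `FBar N` fixed by the coefficientwise action of `H` -/
def fixF : Subfield (FB N) where
  carrier := {f | IsFixed (galPsi N H) f}
  mul_mem' := fun hf hg σ => by rw [galPsi_mul, hf σ, hg σ]
  one_mem' := fun σ => galPsi_one N H σ
  add_mem' := fun hf hg => hf.add hg
  zero_mem' := isFixed_zero _
  neg_mem' := fun hf => hf.neg
  inv_mem' := fun f hf σ => by rw [galPsi_inv, hf σ]

variable {N H}

theorem mem_fixF {f : FB N} : f ∈ fixF N H ↔ ∀ σ ∈ H, galAutBar N σ • f = f :=
  isFixed_galPsi_iff N H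

theorem mem_fixF_iff_isFixed {f : FB N} : f ∈ fixF N H ↔ IsFixed (galPsi N H) f := Iff.rfl

theorem algebraMap_mem_fixF (c : fixK H) :
    algebraMap Qb (FB N) (algebraMap (fixK H) Qb c) ∈ fixF N H := by
  intro σ
  rw [galPsi_algebraMap]
  exact congrArg _ (galPhi_algebraMap H σ c)

variable (N H)

/-- the structure map `K → fixF N H` -/
def fixKToFixF : fixK H →+* fixF N H :=
  ((algebraMap Qb (FB N)).comp (algebraMap (fixK H) Qb)).codRestrict (fixF N H)
    fun c => algebraMap_mem_fixF c

instance instAlgebraFixF : Algebra (fixK H) (fixF N H) := (fixKToFixF N H).toAlgebra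

instance instIsScalarTowerFixF : IsScalarTower (fixK H) (fixF N H) (FB N) :=
  IsScalarTower.of_algebraMap_eq fun _ => rfl

theorem coe_algebraMap_fixF (c : fixK H) :
    ((algebraMap (fixK H) (fixF N H) c : fixF N H) : FB N) =
      algebraMap Qb (FB N) (algebraMap (fixK H) Qb c) := rfl

/-- the inclusion `fixF N H → FBar N` as a `K`-linear map -/
def fixFIncl : fixF N H →ₗ[fixK H] FB N :=
  (IsScalarTower.toAlgHom (fixK H) (fixF N H) (FB N)).toLinearMap

@[simp] theorem fixFIncl_apply (f : fixF N H) : fixFIncl N H f = (f : FB N) := rfl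

theorem fixFIncl_injective : Function.Injective (fixFIncl N H) :=
  fun _ _ h => Subtype.ext h

variable {N H}

/-- **`dim_K (V ∩ fixF) = dim_ℚ̄ V`** for an `H`-stable `ℚ̄`-subspace `V`, the intersection
taken inside the fixed field `fixF N H`. -/
theorem finrank_comap_fixF (V : Submodule Qb (FB N))
    (hV : ∀ σ ∈ H, ∀ f ∈ V, galAutBar N σ • f ∈ V) :
    finrank (fixK H) ((V.restrictScalars (fixK H)).comap (fixFIncl N H)) = finrank Qb V := by
  refine finrank_comap_eq (galSemilinear N H) (galPhi_algebraMap H)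
    (mem_range_of_galPhi_fixed H) (span_isFixed_eq_top N H) (fixFIncl N H)
    (fixFIncl_injective N H) (fun f => ?_) V (stable_galPsi hV)
  constructor
  · intro hf
    exact ⟨⟨f, hf⟩, rfl⟩
  · rintro ⟨g, rfl⟩
    exact g.2

theorem finiteDimensional_comap_fixF (V : Submodule Qb (FB N))
    (hV : ∀ σ ∈ H, ∀ f ∈ V, galAutBar N σ • f ∈ V) [FiniteDimensional Qb V] :
    FiniteDimensional (fixK H) ((V.restrictScalars (fixK H)).comap (fixFIncl N H)) := by
  refine finiteDimensional_comap (galSemilinear N H) (galPhi_algebraMap H)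
    (mem_range_of_galPhi_fixed H) (span_isFixed_eq_top N H) (fixFIncl N H)
    (fixFIncl_injective N H) (fun f => ?_) V (stable_galPsi hV)
  constructor
  · intro hf
    exact ⟨⟨f, hf⟩, rfl⟩
  · rintro ⟨g, rfl⟩
    exact g.2

theorem mem_comap_fixFIncl {V : Submodule Qb (FB N)} {f : fixF N H} :
    f ∈ (V.restrictScalars (fixK H)).comap (fixFIncl N H) ↔ (f : FB N) ∈ V := Iff.rfl

end Fermat.Agent.S36lib.Desc2
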