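/-
S36lib / Desc2 / Lattice  (helper1)

**Lattices over a (non complete) discrete valuation ring**: the corrected route to (N1) for S36
(the truncation argument is not available: `f ∈ O ⟺ integral t-expansion` is false on `F`).

* `exists_lattice_basis` (PID lemma): `R` a PID, `K = Frac R`, `V` a finite dimensional
  `K`-space, `Λ ⊆ V` an `R`-submodule contained in a finitely generated one and absorbing
  (`∀ v, ∃ r ≠ 0, r • v ∈ Λ`)  ⟹  `Λ` has an `R`-basis `b : Fin (dim V) → V` which is a
  `K`-basis of `V`;  `exists_basis_inter` : relative form (`W ∩ O` for `W ≤ F`);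
* `LatticeBounded R O W` (`W ∩ O ⊆` a finitely generated `R`-module, elementary form),
  `HasLatticeBasis R O W` (= the shape of `Thick.ThickDatum.HasLatticeBases` for one `W`),
  `hasLatticeBasis_of_bounded` (`R : ValuationSubring K` a PID, bounded + absorbing ⟹ basis);
* `latticeBounded_of_orthonormal` : **boundedness descent** from `(L, A)` to `(K, R = A ∩ K)`:
  a spanning family `e` of `L · W` with `Σ βᵢ eᵢ ∈ O ⟹ βᵢ ∈ A` (e.g. an orthonormal basis over
  `(L, A)`) bounds `W ∩ O` for a `K`-subspace `W` linearly disjoint from `L`;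
* `latticeBounded_of_trace` : **finite extension step**: `F₂ / F₁` finite separable,
  `Tr (O₂) ⊆ O₁`, `O₂` absorbing, boundedness for `(F₁, O₁)` ⟹ boundedness for `(F₂, O₂)`
  (dual basis of the trace form; no common frame needed);
  `trace_mem_of_minpoly_coeff_mem` : `Tr f ∈ O₁` if `minpoly F₁ f` has coefficients in `O₁`.

Mathlib only.
-/
import Mathlib

set_option autoImplicit false

noncomputable section

namespace Fermat.Agent.S36lib.Desc2

open Module

section PID

variable {R : Type*} [CommRing R] [IsDomain R] [IsPrincipalIdealRing R]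
variable {K : Type*} [Field K] [Algebra R K] [IsFractionRing R K]
variable {V : Type*} [AddCommGroup V] [Module R V] [Module K V] [IsScalarTower R K V]

/-- a `K`-vector space is torsion free over `R` (`K = Frac R`) -/
theorem smul_eq_zero_of_isFractionRing {R : Type*} [CommRing R] (K : Type*) [Field K]
    [Algebra R K] [IsFractionRing R K] {V : Type*} [AddCommGroup V] [Module R V] [Module K V]
    [IsScalarTower R K V] {r : R} {v : V} (h : r • v = 0) : r = 0 ∨ v = 0 := by
  by_cases hr : r = 0
  · exact Or.inl hr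
  · right
    have hrK : algebraMap R K r ≠ 0 := by
      rw [Ne, ← map_zero (algebraMap R K)]
      exact fun h' => hr (IsFractionRing.injective R K h')
    rw [← algebraMap_smul K r v] at h
    exact (smul_eq_zero.mp h).resolve_left hrK

/-- **PID lemma**: a bounded absorbing `R`-lattice in a finite dimensional `K`-space has an
`R`-basis which is a `K`-basis. -/
theorem exists_lattice_basis [FiniteDimensional K V] (Λ : Submodule R V)
    (hfg : ∃ Λ' : Submodule R V, Λ'.FG ∧ Λ ≤ Λ')
    (habs : ∀ v : V, ∃ r : R, r ≠ 0 ∧ r • v ∈ Λ) :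
    ∃ b : Fin (finrank K V) → V, (∀ i, b i ∈ Λ) ∧ LinearIndependent K b ∧
      ∀ v ∈ Λ, ∃ a : Fin (finrank K V) → R, v = ∑ i, a i • b i := by
  classical
  obtain ⟨Λ', hΛ', hle⟩ := hfg
  -- `Λ` is finitely generated
  have hnoeth : IsNoetherian R Λ' := isNoetherian_of_fg_of_noetherian Λ' hΛ'
  have hΛfg : Λ.FG := isNoetherian_submodule.mp hnoeth Λ hle
  have : Module.Finite R Λ := Module.Finite.iff_fg.mpr hΛfg
  -- and torsion free
  have : Module.IsTorsionFree R Λ := by
    refine ⟨fun r hr m₁ m₂ h => ?_⟩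
    have hr0 : r ≠ 0 := hr.ne_zero
    have h1 : r • ((m₁ : V) - (m₂ : V)) = 0 := by
      have := congrArg (fun x : Λ => (x : V)) h
      simp only [Submodule.coe_smul] at this
      rw [smul_sub, this, sub_self]
    have := (smul_eq_zero_of_isFractionRing K h1).resolve_left hr0
    exact Subtype.ext (sub_eq_zero.mp this)
  -- hence free
  obtain ⟨n, B⟩ := Module.basisOfFiniteTypeTorsionFree' (R := R) (M := Λ)
  set v : Fin n → V := fun i => ((B i : Λ) : V) with hv
  have hvR : LinearIndependent R v :=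
    B.linearIndependent.map' Λ.subtype (Submodule.ker_subtype Λ)
  have hvK : LinearIndependent K v := (LinearIndependent.iff_fractionRing R K).mp hvR
  -- `v` spans `V` over `K`
  have hmemspan : ∀ x ∈ Λ, x ∈ Submodule.span K (Set.range v) := by
    intro x hx
    have h1 : (⟨x, hx⟩ : Λ) ∈ Submodule.span R (Set.range B) := by rw [B.span_eq]; trivial
    have h2 := Submodule.apply_mem_span_image_of_mem_span Λ.subtype h1
    rw [← Set.range_comp] at h2
    exact Submodule.span_subset_span R K _ h2
  have hspan : Submodule.span K (Set.range v) = ⊤ := by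
    rw [eq_top_iff]
    rintro x -
    obtain ⟨r, hr, hrx⟩ := habs x
    have hrK : algebraMap R K r ≠ 0 := by
      rw [Ne, ← map_zero (algebraMap R K)]
      exact fun h' => hr (IsFractionRing.injective R K h')
    have h1 := hmemspan _ hrx
    have h2 : x = (algebraMap R K r)⁻¹ • (r • x) := by
      rw [← algebraMap_smul K r x, smul_smul, inv_mul_cancel₀ hrK, one_smul]
    rw [h2]
    exact Submodule.smul_mem _ _ h1
  have hcard : n = finrank K V := by
    have := finrank_eq_card_basis (Basis.mk hvK hspan.ge)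
    rw [this, Fintype.card_fin]
  subst hcard
  refine ⟨v, fun i => (B i).2, hvK, fun x hx => ?_⟩
  refine ⟨fun i => B.repr ⟨x, hx⟩ i, ?_⟩
  have := B.sum_repr ⟨x, hx⟩
  have h2 := congrArg (fun y : Λ => (y : V)) this
  simp only [Submodule.coe_sum, Submodule.coe_smul] at h2
  exact h2.symm

/-- **PID lemma, relative form**: `W ≤ F` a finite dimensional `K`-subspace of a `K`-space `F`,
`O ⊆ F` an `R`-submodule such that `W ∩ O` is contained in a finitely generated `R`-submodule and
absorbs `W`.  Then `W ∩ O` has an `R`-basis which is a `K`-basis of `W`. -/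
theorem exists_basis_inter {F : Type*} [AddCommGroup F] [Module R F] [Module K F]
    [IsScalarTower R K F] (O : Submodule R F) (W : Submodule K F) [FiniteDimensional K W]
    (hb : ∃ M : Submodule R F, M.FG ∧ ∀ f ∈ W, f ∈ O → f ∈ M)
    (habs : ∀ f ∈ W, ∃ r : R, r ≠ 0 ∧ r • f ∈ O) :
    ∃ b : Fin (finrank K W) → F, (∀ i, b i ∈ W) ∧ (∀ i, b i ∈ O) ∧ LinearIndependent K b ∧
      ∀ f ∈ W, f ∈ O → ∃ a : Fin (finrank K W) → R, f = ∑ i, a i • b i := by
  classical
  obtain ⟨M, hM, hWM⟩ := hb
  -- the lattice inside `W`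
  let Λ : Submodule R W :=
    { carrier := {w | (w : F) ∈ O}
      add_mem' := fun {x y} hx hy => by
        show ((x + y : W) : F) ∈ O
        rw [Submodule.coe_add]; exact O.add_mem hx hy
      zero_mem' := by
        show ((0 : W) : F) ∈ O
        rw [Submodule.coe_zero]; exact O.zero_mem
      smul_mem' := fun r {x} hx => by
        show ((r • x : W) : F) ∈ O
        have : ((r • x : W) : F) = r • (x : F) := by
          rw [← algebraMap_smul K r x, Submodule.coe_smul, algebraMap_smul]
        rw [this]; exact O.smul_mem r hx }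
  -- `Λ` is finitely generated
  have hΛfg : Λ.FG := by
    have hnoeth : IsNoetherian R M := isNoetherian_of_fg_of_noetherian M hM
    let ι' : W →ₗ[R] F := (W.subtype).restrictScalars R
    have hinj : Function.Injective ι' := Subtype.val_injective
    apply Submodule.fg_of_fg_map_injective ι' hinj
    apply isNoetherian_submodule.mp hnoeth
    rintro _ ⟨w, hw, rfl⟩
    exact hWM _ w.2 hw
  obtain ⟨b, hbΛ, hbK, hbrep⟩ := exists_lattice_basis (K := K) Λ ⟨Λ, hΛfg, le_rfl⟩ (fun w => by
    obtain ⟨r, hr, hrw⟩ := habs _ w.2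
    refine ⟨r, hr, ?_⟩
    show ((r • w : W) : F) ∈ O
    have : ((r • w : W) : F) = r • (w : F) := by
      rw [← algebraMap_smul K r w, Submodule.coe_smul, algebraMap_smul]
    rw [this]; exact hrw)
  refine ⟨fun i => ((b i : W) : F), fun i => (b i).2, fun i => hbΛ i, ?_, fun f hfW hfO => ?_⟩
  · exact hbK.map' W.subtype (Submodule.ker_subtype W)
  · obtain ⟨a, ha⟩ := hbrep ⟨f, hfW⟩ hfO
    refine ⟨a, ?_⟩
    have := congrArg (fun y : W => (y : F)) ha
    simp only [Submodule.coe_sum] at this
    rw [this]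
    refine Finset.sum_congr rfl fun i _ => ?_
    rw [← algebraMap_smul K (a i) (b i), Submodule.coe_smul, algebraMap_smul]

end PID

/-! ### valuation subrings: the shapes used by the thick datum -/

section Val

variable {K : Type*} [Field K] (R : ValuationSubring K) {F : Type*} [Field F] [Algebra K F]

/-- `W ∩ O` is contained in the `R`-span of finitely many elements of `F` (elementary form) -/
def LatticeBounded (O : Subring F) (W : Submodule K F) : Prop :=
  ∃ (m : ℕ) (g : Fin m → F), ∀ f ∈ W, f ∈ O →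
    ∃ a : Fin m → R, f = ∑ i, algebraMap K F (a i : K) * g i

/-- `W ∩ O` has an `R`-basis which is a `K`-basis of `W`
(the shape of `Thick.ThickDatum.HasLatticeBases`, for one subspace `W`) -/
def HasLatticeBasis (O : Subring F) (W : Submodule K F) : Prop :=
  ∃ b : Fin (finrank K W) → F, (∀ i, b i ∈ W) ∧ (∀ i, b i ∈ O) ∧ LinearIndependent K b ∧
    ∀ f ∈ W, f ∈ O → ∃ a : Fin (finrank K W) → R, f = ∑ i, algebraMap K F (a i : K) * b i

variable {R}

theorem LatticeBounded.mono {O : Subring F} {W W' : Submodule K F} (h : LatticeBounded R O W')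
    (hle : W ≤ W') : LatticeBounded R O W := by
  obtain ⟨m, g, hg⟩ := h
  exact ⟨m, g, fun f hf hfO => hg f (hle hf) hfO⟩

theorem HasLatticeBasis.latticeBounded {O : Subring F} {W : Submodule K F}
    (h : HasLatticeBasis R O W) : LatticeBounded R O W := by
  obtain ⟨b, -, -, -, hb⟩ := h
  exact ⟨_, b, hb⟩

/-- **bounded + absorbing ⟹ lattice basis** (over a valuation ring which is a PID) -/
theorem hasLatticeBasis_of_bounded [IsPrincipalIdealRing R] {O : Subring F}
    (hRO : ∀ r : R, algebraMap K F (r : K) ∈ O) (W : Submodule K F) [FiniteDimensional K W]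
    (hb : LatticeBounded R O W)
    (habs : ∀ f ∈ W, ∃ r : R, r ≠ 0 ∧ algebraMap K F (r : K) * f ∈ O) :
    HasLatticeBasis R O W := by
  classical
  have hsmul : ∀ (r : R) (f : F), r • f = algebraMap K F (r : K) * f := fun r f => by
    rw [← Algebra.smul_def]; rfl
  -- `O` as an `R`-submodule
  let O' : Submodule R F :=
    { carrier := {f | f ∈ O}
      add_mem' := fun hx hy => O.add_mem hx hy
      zero_mem' := O.zero_mem
      smul_mem' := fun r f hf => by
        show r • f ∈ O
        rw [hsmul]; exact O.mul_mem (hRO r) hf }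
  obtain ⟨m, g, hg⟩ := hb
  have hbound : ∃ M : Submodule R F, M.FG ∧ ∀ f ∈ W, f ∈ O' → f ∈ M := by
    refine ⟨Submodule.span R (Set.range g), Submodule.fg_span (Set.finite_range g), ?_⟩
    intro f hfW hfO
    obtain ⟨a, rfl⟩ := hg f hfW hfO
    refine Submodule.sum_mem _ fun i _ => ?_
    rw [← hsmul]
    exact Submodule.smul_mem _ _ (Submodule.subset_span ⟨i, rfl⟩)
  obtain ⟨b, hbW, hbO, hbK, hrep⟩ := exists_basis_inter (R := R) (K := K) O' W hbound
    (fun f hf => by
      obtain ⟨r, hr, hrf⟩ := habs f hf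
      exact ⟨r, hr, by show r • f ∈ O; rw [hsmul]; exact hrf⟩)
  refine ⟨b, hbW, hbO, hbK, fun f hfW hfO => ?_⟩
  obtain ⟨a, ha⟩ := hrep f hfW hfO
  refine ⟨a, ?_⟩
  rw [ha]
  exact Finset.sum_congr rfl fun i _ => hsmul _ _

end Val

/-! ### boundedness descent: from an orthonormal basis over `(L, A)` to `(K, R)` -/

section Descent

variable {L : Type*} [Field L] (A : ValuationSubring L)
variable {K : Type*} [Field K] [Algebra K L] (R : ValuationSubring K)
variable {F : Type*} [Field F] [Algebra L F] [Algebra K F] [IsScalarTower K L F]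

/-- **Boundedness descent.**  `W` a finite dimensional `K`-subspace of `F`, linearly disjoint
from `L` over `K`; `e` a finite family in the `L`-span of `W`, spanning it, such that
`Σ βᵢ eᵢ ∈ O ⟹ βᵢ ∈ A` (e.g. an orthonormal basis of `L · W` over `(L, A)`).  If `R = A ∩ K` and
`R` is cofinal in `A`, then `W ∩ O` is contained in a finitely generated `R`-module. -/
theorem latticeBounded_of_orthonormal (hR : ∀ c : K, c ∈ R ↔ algebraMap K L c ∈ A)
    (hcof : ∀ c : L, ∃ r : R, r ≠ 0 ∧ algebraMap K L (r : K) * c ∈ A)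
    (O : Subring F) (W : Submodule K F) [FiniteDimensional K W]
    (hdisj : ∀ (n : ℕ) (w : Fin n → F), (∀ j, w j ∈ W) → LinearIndependent K w →
      LinearIndependent L w)
    {n : ℕ} (e : Fin n → F)
    (he : ∀ β : Fin n → L, ∑ i, β i • e i ∈ O → ∀ i, β i ∈ A)
    (he_mem : ∀ i, e i ∈ Submodule.span L (W : Set F))
    (he_span : ∀ f ∈ W, f ∈ Submodule.span L (Set.range e)) :
    LatticeBounded R O W := by
  classical
  set d := finrank K W with hd
  set bW : Basis (Fin d) K W := Module.finBasis K W with hbW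
  set w : Fin d → F := fun j => ((bW j : W) : F) with hw
  have hwW : ∀ j, w j ∈ W := fun j => (bW j).2
  have hwK : LinearIndependent K w :=
    bW.linearIndependent.map' W.subtype (Submodule.ker_subtype W)
  have hwL : LinearIndependent L w := hdisj d w hwW hwK
  -- `span_L W = span_L (range w)`
  have hWspan : Submodule.span L (W : Set F) ≤ Submodule.span L (Set.range w) := by
    rw [Submodule.span_le]
    intro f hf
    have h1 : (⟨f, hf⟩ : W) ∈ Submodule.span K (Set.range bW) := by rw [bW.span_eq]; trivial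
    have h2 := Submodule.apply_mem_span_image_of_mem_span W.subtype h1
    rw [← Set.range_comp] at h2
    exact Submodule.span_subset_span K L _ h2
  -- the matrix of `e` in terms of `w`
  have hM : ∀ i, ∃ c : Fin d → L, ∑ j, c j • w j = e i := fun i =>
    (Submodule.mem_span_range_iff_exists_fun L).mp (hWspan (he_mem i))
  choose M hMe using hM
  -- a common denominator in `R`
  have hden : ∃ r : R, r ≠ 0 ∧ ∀ i j, algebraMap K L (r : K) * M i j ∈ A := by
    choose ρ hρ0 hρ using fun p : Fin n × Fin d => hcof (M p.1 p.2)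
    refine ⟨∏ p, ρ p, Finset.prod_ne_zero_iff.mpr fun p _ => hρ0 p, fun i j => ?_⟩
    have h1 : (∏ p, ρ p) = (∏ p ∈ Finset.univ.erase (i, j), ρ p) * ρ (i, j) :=
      (Finset.prod_erase_mul _ _ (Finset.mem_univ _)).symm
    rw [h1, MulMemClass.coe_mul, map_mul, mul_assoc]
    exact A.mul_mem _ _ ((hR _).mp (∏ p ∈ Finset.univ.erase (i, j), ρ p : R).2) (hρ (i, j))
  obtain ⟨r, hr0, hrM⟩ := hden
  have hrK : (r : K) ≠ 0 := fun h => hr0 (Subtype.ext h)
  refine ⟨d, fun j => algebraMap K F (r : K)⁻¹ * w j, fun f hfW hfO => ?_⟩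
  -- coordinates of `f`
  set x : Fin d → K := fun j => bW.repr ⟨f, hfW⟩ j with hx
  have hfx : f = ∑ j, x j • w j := by
    have := bW.sum_repr ⟨f, hfW⟩
    have h2 := congrArg (fun y : W => (y : F)) this
    simp only [Submodule.coe_sum, Submodule.coe_smul] at h2
    exact h2.symm
  obtain ⟨β, hβ⟩ := (Submodule.mem_span_range_iff_exists_fun L).mp (he_span f hfW)
  have hβA : ∀ i, β i ∈ A := he β (by rw [hβ]; exact hfO)
  -- compare coefficients
  have h1 : ∑ j, (∑ i, β i * M i j) • w j = ∑ j, algebraMap K L (x j) • w j := by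
    have h2 : ∑ j, algebraMap K L (x j) • w j = f := by
      rw [hfx]
      exact Finset.sum_congr rfl fun j _ => algebraMap_smul L (x j) (w j)
    rw [h2, ← hβ]
    simp only [Finset.sum_smul, mul_smul]
    rw [Finset.sum_comm]
    refine Finset.sum_congr rfl fun i _ => ?_
    rw [← hMe i, Finset.smul_sum]
  have h3 : ∀ j, ∑ i, β i * M i j = algebraMap K L (x j) := by
    have h4 : ∑ j, ((∑ i, β i * M i j) - algebraMap K L (x j)) • w j = 0 := by
      simp only [sub_smul, Finset.sum_sub_distrib, h1, sub_self]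
    intro j
    have := Fintype.linearIndependent_iff.mp hwL _ h4 j
    exact sub_eq_zero.mp this
  have hrx : ∀ j, (r : K) * x j ∈ R := by
    intro j
    rw [hR, map_mul, ← h3 j, Finset.mul_sum]
    refine A.sum_mem fun i _ => ?_
    have : algebraMap K L (r : K) * (β i * M i j) = β i * (algebraMap K L (r : K) * M i j) := by
      ring
    rw [this]
    exact A.mul_mem _ _ (hβA i) (hrM i j)
  refine ⟨fun j => ⟨(r : K) * x j, hrx j⟩, ?_⟩
  rw [hfx]
  refine Finset.sum_congr rfl fun j _ => ?_
  show x j • w j = algebraMap K F ((r : K) * x j) * (algebraMap K F (r : K)⁻¹ * w j)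
  rw [Algebra.smul_def, ← mul_assoc, ← map_mul, mul_right_comm, mul_inv_cancel₀ hrK, one_mul]

end Descent

/-! ### the finite extension step (trace form) -/

section Trace

variable {K : Type*} [Field K] (R : ValuationSubring K)

/-- `LatticeBounded` with an arbitrary finite index type -/
theorem latticeBounded_of_fintype {F : Type*} [Field F] [Algebra K F] {O : Subring F}
    {W : Submodule K F} {κ : Type*} [Fintype κ] (g : κ → F)
    (h : ∀ f ∈ W, f ∈ O → ∃ a : κ → R, f = ∑ i, algebraMap K F (a i : K) * g i) :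
    LatticeBounded R O W := by
  classical
  let eq := Fintype.equivFin κ
  refine ⟨Fintype.card κ, fun i => g (eq.symm i), fun f hfW hfO => ?_⟩
  obtain ⟨a, ha⟩ := h f hfW hfO
  refine ⟨fun i => a (eq.symm i), ?_⟩
  rw [ha]
  exact (Equiv.sum_comp eq.symm fun i => algebraMap K F (a i : K) * g i).symm

variable {F₁ : Type*} [Field F₁] [Algebra K F₁]
variable {F₂ : Type*} [Field F₂] [Algebra K F₂] [Algebra F₁ F₂] [IsScalarTower K F₁ F₂]

/-- **Finite extension step.**  `F₂ / F₁` finite separable, `O₁ ⊆ F₁`, `O₂ ⊆ F₂` subrings with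
`Tr (O₂) ⊆ O₁`, `O₂` absorbing for `K`-scalars.  If every finite dimensional `K`-subspace of `F₁`
has bounded intersection with `O₁`, the same holds for `(F₂, O₂)`. -/
theorem latticeBounded_of_trace [FiniteDimensional F₁ F₂] [Algebra.IsSeparable F₁ F₂]
    (O₁ : Subring F₁) (O₂ : Subring F₂)
    (htr : ∀ f ∈ O₂, Algebra.trace F₁ F₂ f ∈ O₁)
    (habs : ∀ f : F₂, ∃ c : K, c ≠ 0 ∧ algebraMap K F₂ c * f ∈ O₂)
    (hN1 : ∀ W₁ : Submodule K F₁, FiniteDimensional K W₁ → LatticeBounded R O₁ W₁)
    (W : Submodule K F₂) [FiniteDimensional K W] : LatticeBounded R O₂ W := by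
  classical
  set ι := Module.Free.ChooseBasisIndex F₁ F₂ with hι
  set u : Basis ι F₁ F₂ := Module.Free.chooseBasis F₁ F₂ with hu
  have hnd := traceForm_nondegenerate F₁ F₂
  set ud : Basis ι F₁ F₂ := (Algebra.traceForm F₁ F₂).dualBasis hnd u with hud
  -- `x = Σ Tr (x uᵢ) • ud i`
  have hexp : ∀ x : F₂, x = ∑ i, Algebra.trace F₁ F₂ (x * u i) • ud i := by
    intro x
    have := ud.sum_repr x
    rw [← this]
    refine Finset.sum_congr rfl fun i _ => ?_
    rw [hud, LinearMap.BilinForm.dualBasis_repr_apply, Algebra.traceForm_apply, ← hud, this]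
  -- scale `u i` into `O₂`
  choose c hc0 hcu using fun i => habs (u i)
  -- the `K`-linear maps `x ↦ Tr (x * (c i • u i))`
  let T : ι → F₂ →ₗ[K] F₁ := fun i =>
    ((Algebra.trace F₁ F₂).restrictScalars K).comp
      (LinearMap.mulRight K (algebraMap K F₂ (c i) * u i))
  have hT : ∀ i x, T i x = Algebra.trace F₁ F₂ (x * (algebraMap K F₂ (c i) * u i)) :=
    fun i x => rfl
  have hT' : ∀ i x, T i x = algebraMap K F₁ (c i) * Algebra.trace F₁ F₂ (x * u i) := by
    intro i x
    rw [hT, IsScalarTower.algebraMap_apply K F₁ F₂, ← mul_assoc, mul_comm x, mul_assoc,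
      ← Algebra.smul_def, map_smul, smul_eq_mul]
  have hbdd : ∀ i, LatticeBounded R O₁ (W.map (T i)) := fun i => hN1 _ inferInstance
  choose m g hg using hbdd
  refine latticeBounded_of_fintype R
    (fun p : Σ i, Fin (m i) => (algebraMap K F₁ (c p.1)⁻¹ * g p.1 p.2) • ud p.1)
    fun f hfW hfO => ?_
  have hTO : ∀ i, T i f ∈ O₁ := fun i => by
    rw [hT]
    exact htr _ (O₂.mul_mem hfO (hcu i))
  have hTW : ∀ i, T i f ∈ W.map (T i) := fun i => Submodule.mem_map_of_mem hfW
  choose a ha using fun i => hg i (T i f) (hTW i) (hTO i)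
  refine ⟨fun p => a p.1 p.2, ?_⟩
  rw [Fintype.sum_sigma]
  conv_lhs => rw [hexp f]
  refine Finset.sum_congr rfl fun i _ => ?_
  have hci : algebraMap K F₁ (c i) ≠ 0 := (map_ne_zero _).mpr (hc0 i)
  have h1 : Algebra.trace F₁ F₂ (f * u i) = algebraMap K F₁ (c i)⁻¹ * T i f := by
    rw [hT', map_inv₀, inv_mul_cancel_left₀ hci]
  rw [h1, ha i, Finset.mul_sum, Finset.sum_smul]
  refine Finset.sum_congr rfl fun k _ => ?_
  show (algebraMap K F₁ (c i)⁻¹ * (algebraMap K F₁ ((a i k : R) : K) * g i k)) • ud i =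
    algebraMap K F₂ ((a i k : R) : K) * ((algebraMap K F₁ (c i)⁻¹ * g i k) • ud i)
  rw [IsScalarTower.algebraMap_apply K F₁ F₂ ((a i k : R) : K),
    ← Algebra.smul_def (algebraMap K F₁ ((a i k : R) : K)), smul_smul]
  congr 1
  ring

/-- the trace of an element whose minimal polynomial has coefficients in the subring `O₁`
lies in `O₁` -/
theorem trace_mem_of_minpoly_coeff_mem {F₁ : Type*} [Field F₁] {F₂ : Type*} [Field F₂]
    [Algebra F₁ F₂] [FiniteDimensional F₁ F₂] (O₁ : Subring F₁) (f : F₂)
    (h : ∀ m, (minpoly F₁ f).coeff m ∈ O₁) : Algebra.trace F₁ F₂ f ∈ O₁ := by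
  rw [trace_eq_finrank_mul_minpoly_nextCoeff]
  refine O₁.mul_mem (natCast_mem O₁ _) (O₁.neg_mem ?_)
  rw [Polynomial.nextCoeff]
  split_ifs
  · exact O₁.zero_mem
  · exact h _

end Trace

end Fermat.Agent.S36lib.Desc2
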