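/-
S36lib / Desc2 / Restrict  (helper1)

**Generic restriction of a Gauss datum to a smaller base.**
`G : GaussDatum A F Fk` over `(L, A)`;  `K → L` a subfield with valuation ring `R = A ∩ K`;
`F' → F` a subfield of `F` over `K` (e.g. the fixed field of the inertia group).  If

 (i)  every `f ∈ F'ˣ` is a `K`-constant times a unit of `G.O` (discreteness (D1)), and
 (ii) every residue `η ∈ Fk` is the reduction of an element of `F'` (`K`-rational lifting),

then `restrictDatum … : GaussDatum R F' Fk` with `O' = O ∩ F'`, `red' = red|_{O'}`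
(`Fk` being a `k_R`-algebra compatibly with `k_R → k_A`).

`exists_lift_of_closure` gives (ii) from a generating set of `Fk` and surjectivity of `k_R → k_A`.
-/
import Fermat.Agent.S18lib.Weak.Lemmas

set_option autoImplicit false
set_option linter.unusedSectionVars false

noncomputable section

namespace Fermat.Agent.S36lib.Desc2

open Fermat.Agent.S18lib

variable {L : Type*} [Field L] {A : ValuationSubring L}
variable {K : Type*} [Field K] [Algebra K L] {R : ValuationSubring K}
variable {F : Type*} [Field F] [Algebra L F]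
variable {F' : Type*} [Field F'] [Algebra K F'] [Algebra F' F] [Algebra K F]
variable [IsScalarTower K F' F] [IsScalarTower K L F]
variable {Fk : Type*} [Field Fk] [Algebra (IsLocalRing.ResidueField A) Fk]
variable [Algebra (IsLocalRing.ResidueField R) Fk]

/-- the two ways from `K` to `F` agree -/
theorem algebraMap_comm (c : K) :
    algebraMap F' F (algebraMap K F' c) = algebraMap L F (algebraMap K L c) := by
  rw [← IsScalarTower.algebraMap_apply K F' F, ← IsScalarTower.algebraMap_apply K L F]

/-- The hypotheses of the restriction construction. -/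
structure RestrictHyp (G : GaussDatum A F Fk) (R : ValuationSubring K) (F' : Type*) [Field F']
    [Algebra K F'] [Algebra F' F] [Algebra (IsLocalRing.ResidueField R) Fk] : Prop where
  /-- `R = A ∩ K` -/
  mem_iff : ∀ c : K, c ∈ R ↔ algebraMap K L c ∈ A
  /-- `Fk` is a `k_R`-algebra compatibly with `k_R → k_A` -/
  compat : ∀ (r : R) (h : algebraMap K L (r : K) ∈ A),
    algebraMap (IsLocalRing.ResidueField R) Fk (IsLocalRing.residue R r) =
      algebraMap (IsLocalRing.ResidueField A) Fk
        (IsLocalRing.residue A ⟨algebraMap K L (r : K), h⟩)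
  /-- (i) discreteness: every nonzero element of `F'` is a `K`-constant times a unit of `O` -/
  exists_const : ∀ f : F', f ≠ 0 → ∃ c : K, c ≠ 0 ∧
    G.redF (algebraMap F' F (algebraMap K F' c * f)) ≠ 0
  /-- (ii) `K`-rational lifting of residues -/
  exists_lift : ∀ η : Fk, ∃ f : F', algebraMap F' F f ∈ G.O ∧ G.redF (algebraMap F' F f) = η

variable {G : GaussDatum A F Fk}

/-- **the restricted Gauss datum** -/
def restrictDatum (h : RestrictHyp G R F') : GaussDatum R F' Fk where
  O := G.O.comap (algebraMap F' F)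
  algebraMap_mem_iff := fun c => by
    rw [ValuationSubring.mem_comap, algebraMap_comm (L := L), G.algebraMap_mem_iff, h.mem_iff]
  red := G.red.comp
    { toFun := fun x => ⟨algebraMap F' F x.1, x.2⟩
      map_one' := Subtype.ext (map_one _)
      map_mul' := fun x y => Subtype.ext (map_mul _ _ _)
      map_zero' := Subtype.ext (map_zero _)
      map_add' := fun x y => Subtype.ext (map_add _ _ _) }
  red_surjective := fun η => by
    obtain ⟨f, hf, hη⟩ := h.exists_lift η
    refine ⟨⟨f, hf⟩, ?_⟩
    rw [← hη, G.redF_of_mem hf]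
    rfl
  red_algebraMap := fun a ha => by
    have hA : algebraMap K L (a : K) ∈ A := (h.mem_iff _).mp a.2
    rw [h.compat a hA]
    have := G.red_algebraMap ⟨algebraMap K L (a : K), hA⟩
      ((G.algebraMap_mem_iff _).mpr hA)
    rw [← this]
    show G.red ⟨algebraMap F' F (algebraMap K F' (a : K)), _⟩ = _
    congr 1
    exact Subtype.ext (algebraMap_comm (L := L) _)
  exists_const_mul_isUnit := fun f hf => by
    obtain ⟨c, hc, hne⟩ := h.exists_const f hf
    refine ⟨c, hc, ?_⟩
    have hmem : algebraMap F' F (algebraMap K F' c * f) ∈ G.O := G.mem_of_redF_ne_zero hne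
    have hinv : (algebraMap F' F (algebraMap K F' c * f))⁻¹ ∈ G.O :=
      G.inv_mem_of_redF_ne_zero hne
    have hne0 : algebraMap K F' c * f ≠ 0 :=
      mul_ne_zero ((map_ne_zero _).mpr hc) hf
    refine ⟨⟨⟨algebraMap K F' c * f, hmem⟩, ⟨(algebraMap K F' c * f)⁻¹, ?_⟩, ?_, ?_⟩, rfl⟩
    · show algebraMap F' F (algebraMap K F' c * f)⁻¹ ∈ G.O
      rw [map_inv₀]
      exact hinv
    · exact Subtype.ext (mul_inv_cancel₀ hne0)
    · exact Subtype.ext (inv_mul_cancel₀ hne0)

theorem mem_restrictDatum_O (h : RestrictHyp G R F') {f : F'} :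
    f ∈ (restrictDatum h).O ↔ algebraMap F' F f ∈ G.O := Iff.rfl

theorem restrictDatum_redF (h : RestrictHyp G R F') (f : F') :
    (restrictDatum h).redF f = G.redF (algebraMap F' F f) := by
  by_cases hf : f ∈ (restrictDatum h).O
  · rw [(restrictDatum h).redF_of_mem hf, G.redF_of_mem ((mem_restrictDatum_O h).mp hf)]
    rfl
  · rw [(restrictDatum h).redF_of_not_mem hf,
      G.redF_of_not_mem (fun hh => hf ((mem_restrictDatum_O h).mpr hh))]

/-! ### a criterion for (ii) -/

/-- the residues which lift to `F'` form a subfield of `Fk` -/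
def liftable {L : Type*} [Field L] {A : ValuationSubring L} {F : Type*} [Field F] [Algebra L F]
    {Fk : Type*} [Field Fk] [Algebra (IsLocalRing.ResidueField A) Fk] (G : GaussDatum A F Fk)
    (F' : Type*) [Field F'] [Algebra F' F] : Subfield Fk where
  carrier := {η | ∃ f : F', algebraMap F' F f ∈ G.O ∧ G.redF (algebraMap F' F f) = η}
  mul_mem' := by
    rintro _ _ ⟨f, hf, rfl⟩ ⟨g, hg, rfl⟩
    refine ⟨f * g, ?_, ?_⟩
    · rw [map_mul]; exact G.O.mul_mem _ _ hf hg
    · rw [map_mul, G.redF_mul hf hg]
  one_mem' := ⟨1, by rw [map_one]; exact G.O.one_mem, by rw [map_one, G.redF_one]⟩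
  add_mem' := by
    rintro _ _ ⟨f, hf, rfl⟩ ⟨g, hg, rfl⟩
    refine ⟨f + g, ?_, ?_⟩
    · rw [map_add]; exact G.O.add_mem _ _ hf hg
    · rw [map_add, G.redF_add hf hg]
  zero_mem' := ⟨0, by rw [map_zero]; exact G.O.zero_mem, by rw [map_zero, G.redF_zero]⟩
  neg_mem' := by
    rintro _ ⟨f, hf, rfl⟩
    refine ⟨-f, ?_, ?_⟩
    · rw [map_neg]; exact G.O.neg_mem _ hf
    · rw [map_neg, G.redF_neg hf]
  inv_mem' := by
    rintro _ ⟨f, hf, rfl⟩
    by_cases h0 : G.redF (algebraMap F' F f) = 0
    · rw [h0, inv_zero]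
      exact ⟨0, by rw [map_zero]; exact G.O.zero_mem, by rw [map_zero, G.redF_zero]⟩
    · refine ⟨f⁻¹, ?_, ?_⟩
      · rw [map_inv₀]; exact G.inv_mem_of_redF_ne_zero h0
      · rw [map_inv₀, G.redF_inv h0]

theorem mem_liftable {η : Fk} :
    η ∈ liftable G F' ↔ ∃ f : F', algebraMap F' F f ∈ G.O ∧ G.redF (algebraMap F' F f) = η :=
  Iff.rfl

/-- constants lift, if `k_R → k_A` is onto -/
theorem algebraMap_mem_liftable
    (hres : ∀ a : A, ∃ (c : K) (h : algebraMap K L c ∈ A),
      IsLocalRing.residue A ⟨algebraMap K L c, h⟩ = IsLocalRing.residue A a)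
    (x : IsLocalRing.ResidueField A) :
    algebraMap (IsLocalRing.ResidueField A) Fk x ∈ liftable G F' := by
  obtain ⟨a, rfl⟩ := IsLocalRing.residue_surjective x
  obtain ⟨c, hc, hca⟩ := hres a
  refine ⟨algebraMap K F' c, ?_, ?_⟩
  · rw [algebraMap_comm (L := L)]
    exact (G.algebraMap_mem_iff _).mpr hc
  · rw [algebraMap_comm (L := L)]
    have := G.redF_algebraMap ⟨algebraMap K L c, hc⟩
    rw [this, hca]

/-- **criterion for (ii)**: `Fk` is generated, as a field, by the constants and a set `S` of
residues which lift to `F'`, and `k_R → k_A` is onto. -/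
theorem exists_lift_of_closure
    (hres : ∀ a : A, ∃ (c : K) (h : algebraMap K L c ∈ A),
      IsLocalRing.residue A ⟨algebraMap K L c, h⟩ = IsLocalRing.residue A a)
    (S : Set Fk)
    (hS : ∀ s ∈ S, ∃ f : F', algebraMap F' F f ∈ G.O ∧ G.redF (algebraMap F' F f) = s)
    (hgen : Subfield.closure
      (Set.range (algebraMap (IsLocalRing.ResidueField A) Fk) ∪ S) = ⊤) (η : Fk) :
    ∃ f : F', algebraMap F' F f ∈ G.O ∧ G.redF (algebraMap F' F f) = η := by
  have hle : Subfield.closure (Set.range (algebraMap (IsLocalRing.ResidueField A) Fk) ∪ S) ≤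
      liftable G F' := by
    rw [Subfield.closure_le]
    rintro x (⟨y, rfl⟩ | hx)
    · exact algebraMap_mem_liftable hres y
    · exact hS x hx
  rw [hgen] at hle
  exact hle (Subfield.mem_top η)

end Fermat.Agent.S36lib.Desc2
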