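/-
S36lib / Desc2 / Ortho  (helper1)

**Orthonormal bases over `(K, R)` from lattice bases** (any valuation ring `R`, no discreteness
needed here) and **descent of (N1) from `(L, A)` to `(K, R)`**:

* `isOrthonormal_of_latticeBasis` : an `R`-basis of `W ∩ O` which is a `K`-basis of `W` is
  orthonormal (reductions `k`-linearly independent);  `isOrthonormalS_of_latticeBasis` : same for
  the sup-norm of two Gauss data (`LSb.Frame.supO`);
* `hasOrthonormalBases_of_latticeBounded`, `hasOrthonormalBasesS_of_latticeBounded`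
  (`R` a PID): (N1) from boundedness of all `W ∩ O`;
* `hasOrthonormalBases_descent`, `hasOrthonormalBasesS_descent` : (N1) for `G' = G|_{F'}` over
  `(K, R)` from (N1) for `G` over `(L, A)` (boundedness descent, `Desc2/Lattice`).
-/
import Fermat.Agent.S36lib.Desc2.Lattice
import Fermat.Agent.S36lib.Desc2.Restrict
import Fermat.Agent.LSb.Frame.Sup

set_option autoImplicit false
set_option linter.unusedSectionVars false

noncomputable section

namespace Fermat.Agent.S36lib.Desc2

open Fermat.Agent.S18lib Fermat.Agent.LSb.Frame Module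

section Single

variable {K : Type*} [Field K] {R : ValuationSubring K}
variable {F : Type*} [Field F] [Algebra K F]
variable {Fk : Type*} [Field Fk] [Algebra (IsLocalRing.ResidueField R) Fk]

/-- **a lattice basis is orthonormal** -/
theorem isOrthonormal_of_latticeBasis (D : GaussDatum R F Fk) {W : Submodule K F} {n : ℕ}
    {b : Fin n → F} (hbW : ∀ i, b i ∈ W) (hbO : ∀ i, b i ∈ D.O) (hbK : LinearIndependent K b)
    (hrep : ∀ f ∈ W, f ∈ D.O → ∃ a : Fin n → R, f = ∑ i, algebraMap K F (a i : K) * b i) :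
    D.IsOrthonormal b := by
  classical
  refine ⟨hbO, ?_⟩
  rw [Fintype.linearIndependent_iff]
  intro g hg
  -- lift the coefficients
  choose a ha using fun i => IsLocalRing.residue_surjective (g i)
  set x : F := ∑ i, algebraMap K F (a i : K) * b i with hx
  have hxO : x ∈ D.O := D.O.sum_mem fun i _ => D.smul_mem (a i) (hbO i)
  have hxW : x ∈ W := W.sum_mem fun i _ => by
    rw [← Algebra.smul_def]; exact W.smul_mem _ (hbW i)
  have hred : D.redF x = 0 := by
    rw [hx, D.redF_sum _ _ fun i _ => D.smul_mem (a i) (hbO i), ← hg]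
    exact Finset.sum_congr rfl fun i _ => by rw [D.redF_smul (a i) (hbO i), ha i]
  -- comparing coefficients in the `K`-basis `b`
  have hcoeff : ∀ c c' : Fin n → K, ∑ i, algebraMap K F (c i) * b i =
      ∑ i, algebraMap K F (c' i) * b i → ∀ i, c i = c' i := by
    intro c c' h i
    have h1 : ∑ i, (c i - c' i) • b i = 0 := by
      have h2 : ∀ i, (c i - c' i) • b i =
          algebraMap K F (c i) * b i - algebraMap K F (c' i) * b i := fun i => by
        rw [Algebra.smul_def, map_sub, sub_mul]
      simp only [h2, Finset.sum_sub_distrib, h, sub_self]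
    exact sub_eq_zero.mp (Fintype.linearIndependent_iff.mp hbK _ h1 i)
  have hmax : ∀ i, a i ∈ IsLocalRing.maximalIdeal R := by
    by_cases hx0 : x = 0
    · intro i
      have := hcoeff (fun i => (a i : K)) (fun _ => 0) (by simpa [hx] using hx0) i
      have h0 : a i = 0 := Subtype.ext this
      rw [h0]; exact Submodule.zero_mem _
    · obtain ⟨c, y, hc, hy, hxy⟩ := D.exists_eq_mul_of_redF_eq_zero hxO hx0 hred
      have hyO : y ∈ D.O := D.mem_of_redF_ne_zero hy
      have hc0 : (c : K) ≠ 0 := by
        intro h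
        apply hx0
        rw [hxy, h, map_zero, zero_mul]
      have hyW : y ∈ W := by
        have : y = (c : K)⁻¹ • x := by
          rw [hxy, Algebra.smul_def, ← mul_assoc, ← map_mul, inv_mul_cancel₀ hc0, map_one, one_mul]
        rw [this]; exact W.smul_mem _ hxW
      obtain ⟨a', ha'⟩ := hrep y hyW hyO
      intro i
      have h1 : (a i : K) = (c : K) * (a' i : K) := by
        refine hcoeff (fun i => (a i : K)) (fun i => (c : K) * (a' i : K)) ?_ i
        show x = _
        rw [hxy, ha', Finset.mul_sum]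
        exact Finset.sum_congr rfl fun i _ => by rw [map_mul, mul_assoc]
      have h2 : a i = c * a' i := Subtype.ext h1
      rw [h2]
      exact Ideal.mul_mem_right _ _ hc
  intro i
  rw [← ha i, IsLocalRing.residue_eq_zero_iff]
  exact hmax i

/-- (N1) for one Gauss datum from lattice bases -/
theorem hasOrthonormalBases_of_hasLatticeBasis (D : GaussDatum R F Fk)
    (h : ∀ W : Submodule K F, FiniteDimensional K W → HasLatticeBasis R D.O.toSubring W) :
    D.HasOrthonormalBases := by
  intro W hW
  obtain ⟨b, hbW, hbO, hbK, hrep⟩ := h W hW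
  exact ⟨b, hbW, isOrthonormal_of_latticeBasis D hbW hbO hbK hrep⟩

end Single

section Pair

variable {K : Type*} [Field K] {R : ValuationSubring K}
variable {F : Type*} [Field F] [Algebra K F]
variable {Fk1 : Type*} [Field Fk1] [Algebra (IsLocalRing.ResidueField R) Fk1]
variable {Fk2 : Type*} [Field Fk2] [Algebra (IsLocalRing.ResidueField R) Fk2]

/-- an element of the sup-norm ball with zero reduction is `c • y`, `c ∈ 𝔪_R`, `y` in the ball -/
theorem exists_eq_smul_of_redS_eq_zero (D1 : GaussDatum R F Fk1) (D2 : GaussDatum R F Fk2)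
    {x : F} (hxO : x ∈ supO D1 D2) (hx0 : x ≠ 0) (h : redS D1 D2 x = 0) :
    ∃ c : R, c ∈ IsLocalRing.maximalIdeal R ∧ (c : K) ≠ 0 ∧ ∃ y ∈ supO D1 D2,
      x = algebraMap K F (c : K) * y := by
  obtain ⟨hx1, hx2⟩ := mem_supO.1 hxO
  have h₁ : D1.redF x = 0 := congrArg Prod.fst h
  have h₂ : D2.redF x = 0 := congrArg Prod.snd h
  obtain ⟨a₁, y₁, ha₁, hy₁, hay₁⟩ := D1.exists_eq_mul_of_redF_eq_zero hx1 hx0 h₁
  obtain ⟨a₂, y₂, ha₂, hy₂, hay₂⟩ := D2.exists_eq_mul_of_redF_eq_zero hx2 hx0 h₂
  have hy₁O := D1.mem_of_redF_ne_zero hy₁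
  have hy₂O := D2.mem_of_redF_ne_zero hy₂
  have ha₁0 : (a₁ : K) ≠ 0 := by
    intro h
    apply hx0
    rw [hay₁, h, map_zero, zero_mul]
  have ha₂0 : (a₂ : K) ≠ 0 := by
    intro h
    apply hx0
    rw [hay₂, h, map_zero, zero_mul]
  have hF₁ : algebraMap K F (a₁ : K) ≠ 0 := (map_ne_zero _).2 ha₁0
  have hF₂ : algebraMap K F (a₂ : K) ≠ 0 := (map_ne_zero _).2 ha₂0
  rcases ValuationRing.dvd_total a₁ a₂ with ⟨d, hd⟩ | ⟨d, hd⟩
  · refine ⟨a₁, ha₁, ha₁0, y₁, mem_supO.2 ⟨hy₁O, ?_⟩, hay₁⟩
    have : y₁ = algebraMap K F (d : K) * y₂ := by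
      apply mul_left_cancel₀ hF₁
      rw [← hay₁, hay₂, hd, MulMemClass.coe_mul, map_mul, mul_assoc]
    rw [this]
    exact D2.smul_mem d hy₂O
  · refine ⟨a₂, ha₂, ha₂0, y₂, mem_supO.2 ⟨?_, hy₂O⟩, hay₂⟩
    have : y₂ = algebraMap K F (d : K) * y₁ := by
      apply mul_left_cancel₀ hF₂
      rw [← hay₂, hay₁, hd, MulMemClass.coe_mul, map_mul, mul_assoc]
    rw [this]
    exact D1.smul_mem d hy₁O

/-- **a lattice basis for the sup-norm is orthonormal for the sup-norm** -/
theorem isOrthonormalS_of_latticeBasis (D1 : GaussDatum R F Fk1) (D2 : GaussDatum R F Fk2)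
    {W : Submodule K F} {n : ℕ} {b : Fin n → F} (hbW : ∀ i, b i ∈ W)
    (hbO : ∀ i, b i ∈ supO D1 D2) (hbK : LinearIndependent K b)
    (hrep : ∀ f ∈ W, f ∈ supO D1 D2 →
      ∃ a : Fin n → R, f = ∑ i, algebraMap K F (a i : K) * b i) :
    IsOrthonormalS D1 D2 b := by
  classical
  refine ⟨hbO, ?_⟩
  rw [Fintype.linearIndependent_iff]
  intro g hg
  choose a ha using fun i => IsLocalRing.residue_surjective (g i)
  set x : F := ∑ i, algebraMap K F (a i : K) * b i with hx
  have hxO : x ∈ supO D1 D2 := (supO D1 D2).sum_mem fun i _ => smul_mem_supO (a i) (hbO i)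
  have hxW : x ∈ W := W.sum_mem fun i _ => by
    rw [← Algebra.smul_def]; exact W.smul_mem _ (hbW i)
  have hred : redS D1 D2 x = 0 := by
    rw [hx, redS_sum _ _ fun i _ => smul_mem_supO (a i) (hbO i), ← hg]
    exact Finset.sum_congr rfl fun i _ => by rw [redS_smul (a i) (hbO i), ha i]
  have hcoeff : ∀ c c' : Fin n → K, ∑ i, algebraMap K F (c i) * b i =
      ∑ i, algebraMap K F (c' i) * b i → ∀ i, c i = c' i := by
    intro c c' h i
    have h1 : ∑ i, (c i - c' i) • b i = 0 := by
      have h2 : ∀ i, (c i - c' i) • b i =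
          algebraMap K F (c i) * b i - algebraMap K F (c' i) * b i := fun i => by
        rw [Algebra.smul_def, map_sub, sub_mul]
      simp only [h2, Finset.sum_sub_distrib, h, sub_self]
    exact sub_eq_zero.mp (Fintype.linearIndependent_iff.mp hbK _ h1 i)
  have hmax : ∀ i, a i ∈ IsLocalRing.maximalIdeal R := by
    by_cases hx0 : x = 0
    · intro i
      have := hcoeff (fun i => (a i : K)) (fun _ => 0) (by simpa [hx] using hx0) i
      have h0 : a i = 0 := Subtype.ext this
      rw [h0]; exact Submodule.zero_mem _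
    · obtain ⟨c, hc, hc0, y, hyO, hxy⟩ := exists_eq_smul_of_redS_eq_zero D1 D2 hxO hx0 hred
      have hyW : y ∈ W := by
        have : y = (c : K)⁻¹ • x := by
          rw [hxy, Algebra.smul_def, ← mul_assoc, ← map_mul, inv_mul_cancel₀ hc0, map_one, one_mul]
        rw [this]; exact W.smul_mem _ hxW
      obtain ⟨a', ha'⟩ := hrep y hyW hyO
      intro i
      have h1 : (a i : K) = (c : K) * (a' i : K) := by
        refine hcoeff (fun i => (a i : K)) (fun i => (c : K) * (a' i : K)) ?_ i
        show x = _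
        rw [hxy, ha', Finset.mul_sum]
        exact Finset.sum_congr rfl fun i _ => by rw [map_mul, mul_assoc]
      have h2 : a i = c * a' i := Subtype.ext h1
      rw [h2]
      exact Ideal.mul_mem_right _ _ hc
  intro i
  rw [← ha i, IsLocalRing.residue_eq_zero_iff]
  exact hmax i

/-- (N1) for the sup-norm of two Gauss data from lattice bases -/
theorem hasOrthonormalBasesS_of_hasLatticeBasis (D1 : GaussDatum R F Fk1)
    (D2 : GaussDatum R F Fk2)
    (h : ∀ W : Submodule K F, FiniteDimensional K W → HasLatticeBasis R (supO D1 D2) W) :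
    HasOrthonormalBasesS D1 D2 := by
  intro W hW
  obtain ⟨b, hbW, hbO, hbK, hrep⟩ := h W hW
  exact ⟨b, hbW, isOrthonormalS_of_latticeBasis D1 D2 hbW hbO hbK hrep⟩

end Pair

/-! ### descent of (N1) from `(L, A)` to `(K, R)` -/

section Descent

variable {L : Type*} [Field L] {A : ValuationSubring L}
variable {K : Type*} [Field K] [Algebra K L] {R : ValuationSubring K}
variable {F : Type*} [Field F] [Algebra L F] [Algebra K F] [IsScalarTower K L F]
variable {F' : Type*} [Field F'] [Algebra K F'] [Algebra F' F] [IsScalarTower K F' F]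

/-- The base of a descent: `R = A ∩ K` and `R` is cofinal in `A`. -/
structure DescentBase (A : ValuationSubring L) (R : ValuationSubring K) : Prop where
  mem_iff : ∀ c : K, c ∈ R ↔ algebraMap K L c ∈ A
  cofinal : ∀ c : L, ∃ r : R, r ≠ 0 ∧ algebraMap K L (r : K) * c ∈ A

/-- the inclusion `F' → F` as a `K`-linear map -/
def inclLin (K : Type*) [Field K] (F' : Type*) [Field F'] [Algebra K F'] (F : Type*) [Field F]
    [Algebra K F] [Algebra F' F] [IsScalarTower K F' F] : F' →ₗ[K] F :=
  (IsScalarTower.toAlgHom K F' F).toLinearMap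

@[simp] theorem inclLin_apply (x : F') : inclLin K F' F x = algebraMap F' F x := rfl

theorem inclLin_injective : Function.Injective (inclLin K F' F) :=
  (algebraMap F' F).injective

/-- transport of a lattice basis along the inclusion `F' → F` -/
theorem HasLatticeBasis.comap {O : Subring F} {O' : Subring F'}
    (hO' : ∀ x : F', x ∈ O' ↔ algebraMap F' F x ∈ O) (W' : Submodule K F')
    (h : HasLatticeBasis R O (W'.map (inclLin K F' F))) : HasLatticeBasis R O' W' := by
  classical
  obtain ⟨b, hbW, hbO, hbK, hrep⟩ := h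
  have hfr : finrank K (W'.map (inclLin K F' F)) = finrank K W' :=
    (Submodule.equivMapOfInjective _ inclLin_injective W').finrank_eq.symm
  choose b' hb'W hb' using hbW
  refine ⟨fun i => b' (Fin.cast hfr.symm i), fun i => hb'W _, fun i => ?_, ?_, ?_⟩
  · rw [hO', ← inclLin_apply (K := K), hb']
    exact hbO _
  · have h1 : LinearIndependent K (fun i => b' i) := by
      apply LinearIndependent.of_comp (inclLin K F' F)
      have : (inclLin K F' F) ∘ (fun i => b' i) = b := funext fun i => hb' i
      rw [this]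
      exact hbK
    exact h1.comp _ (Fin.cast_injective _)
  · intro f hfW hfO
    obtain ⟨a, ha⟩ := hrep (inclLin K F' F f) (Submodule.mem_map_of_mem hfW)
      ((hO' f).mp hfO)
    refine ⟨fun i => a (Fin.cast hfr.symm i), ?_⟩
    apply inclLin_injective (K := K) (F := F)
    rw [ha, map_sum]
    rw [← Equiv.sum_comp (finCongr hfr.symm)
      (fun i => algebraMap K F ((a i : R) : K) * b i)]
    refine Finset.sum_congr rfl fun i _ => ?_
    rw [inclLin_apply, map_mul, ← inclLin_apply (K := K) (b' _), hb',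
      ← IsScalarTower.algebraMap_apply K F' F]
    rfl

/-- **Descent of lattice bases** (generic ball).  `O ⊆ F` a subring such that every finite
dimensional `L`-subspace `W_L` of `F` has a spanning family `e` in `W_L` with
`Σ βᵢ eᵢ ∈ O ⟹ βᵢ ∈ A` (e.g. an orthonormal basis);  `O' = O ∩ F'`; `F'` linearly disjoint from
`L` over `K`; `R = A ∩ K` a PID cofinal in `A`.  Then every finite dimensional `K`-subspace `W'`
of `F'` has a lattice basis for `O'`. -/
theorem hasLatticeBasis_descent [IsPrincipalIdealRing R] (hb : DescentBase A R)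
    {O : Subring F} {O' : Subring F'} (hO' : ∀ x : F', x ∈ O' ↔ algebraMap F' F x ∈ O)
    (hRO : ∀ r : R, algebraMap K F (r : K) ∈ O)
    (habs : ∀ x : F', ∃ r : R, r ≠ 0 ∧ algebraMap K F' (r : K) * x ∈ O')
    (hdisj : ∀ (n : ℕ) (w : Fin n → F'), LinearIndependent K w →
      LinearIndependent L (fun j => algebraMap F' F (w j)))
    (hN1 : ∀ WL : Submodule L F, FiniteDimensional L WL →
      ∃ (n : ℕ) (e : Fin n → F), (∀ i, e i ∈ WL) ∧ WL ≤ Submodule.span L (Set.range e) ∧
        ∀ β : Fin n → L, ∑ i, β i • e i ∈ O → ∀ i, β i ∈ A)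
    (W' : Submodule K F') [FiniteDimensional K W'] : HasLatticeBasis R O' W' := by
  classical
  set W : Submodule K F := W'.map (inclLin K F' F) with hW
  have : FiniteDimensional K W := by rw [hW]; infer_instance
  -- the `L`-span of `W` is finite dimensional
  set WL : Submodule L F := Submodule.span L (W : Set F) with hWL
  have hWLfd : FiniteDimensional L WL := by
    obtain ⟨S, hS⟩ := (Submodule.fg_iff_finiteDimensional W).mpr inferInstance
    have : WL = Submodule.span L (S : Set F) := by
      rw [hWL, ← hS, Submodule.span_span_of_tower]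
    rw [this]
    exact FiniteDimensional.span_finset L S
  obtain ⟨n, e, heW, hespan, he⟩ := hN1 WL hWLfd
  -- linear disjointness for `W`
  have hdisj' : ∀ (n : ℕ) (w : Fin n → F), (∀ j, w j ∈ W) → LinearIndependent K w →
      LinearIndependent L w := by
    intro n w hwW hwK
    choose w' hw'W hw' using hwW
    have hcomp : (inclLin K F' F) ∘ w' = w := funext fun j => hw' j
    have h1 : LinearIndependent K w' := by
      apply LinearIndependent.of_comp (inclLin K F' F)
      rw [hcomp]; exact hwK
    have h2 := hdisj n w' h1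
    have : (fun j => algebraMap F' F (w' j)) = w := hcomp
    rwa [this] at h2
  have hbdd : LatticeBounded R O W :=
    latticeBounded_of_orthonormal A R hb.mem_iff hb.cofinal O W hdisj' e he heW
      (fun f hf => hespan (Submodule.subset_span hf))
  have habsW : ∀ f ∈ W, ∃ r : R, r ≠ 0 ∧ algebraMap K F (r : K) * f ∈ O := by
    rintro _ ⟨f', -, rfl⟩
    obtain ⟨r, hr, hrf⟩ := habs f'
    refine ⟨r, hr, ?_⟩
    have := (hO' _).mp hrf
    rwa [map_mul, ← IsScalarTower.algebraMap_apply K F' F] at this
  exact HasLatticeBasis.comap hO' W' (hasLatticeBasis_of_bounded hRO W hbdd habsW)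

variable {Fk : Type*} [Field Fk] [Algebra (IsLocalRing.ResidueField A) Fk]
variable {Fk' : Type*} [Field Fk'] [Algebra (IsLocalRing.ResidueField R) Fk']

theorem DescentBase.algebraMap_mem (hb : DescentBase A R) (G : GaussDatum A F Fk) (r : R) :
    algebraMap K F (r : K) ∈ G.O := by
  rw [IsScalarTower.algebraMap_apply K L F, G.algebraMap_mem_iff]
  exact (hb.mem_iff _).mp r.2

/-- an orthonormal basis of `W_L` spans `W_L` -/
theorem le_span_of_isOrthonormal_aux {WL : Submodule L F} [FiniteDimensional L WL]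
    {b : Fin (finrank L WL) → F} (hbW : ∀ i, b i ∈ WL) (hli : LinearIndependent L b) :
    WL ≤ Submodule.span L (Set.range b) := by
  set b' : Fin (finrank L WL) → WL := fun i => ⟨b i, hbW i⟩ with hb'
  have hli' : LinearIndependent L b' := by
    apply LinearIndependent.of_comp WL.subtype
    exact hli
  have htop := hli'.span_eq_top_of_card_eq_finrank' (by simp)
  intro x hx
  have h1 : (⟨x, hx⟩ : WL) ∈ Submodule.span L (Set.range b') := by rw [htop]; trivial
  have h2 := Submodule.apply_mem_span_image_of_mem_span WL.subtype h1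
  rw [← Set.range_comp] at h2
  exact h2

/-- **(N1) descends, one Gauss valuation**: if `G` (over `(L, A)`, on `F`) has orthonormal
bases, so does its restriction `G'` (over `(K, R)`, on `F'`, `G'.O = G.O ∩ F'`), provided `R` is
a PID cofinal in `A` and `F'` is linearly disjoint from `L` over `K`. -/
theorem hasOrthonormalBases_descent [IsPrincipalIdealRing R] (hb : DescentBase A R)
    (G : GaussDatum A F Fk) (G' : GaussDatum R F' Fk')
    (hO' : ∀ x : F', x ∈ G'.O ↔ algebraMap F' F x ∈ G.O)
    (hdisj : ∀ (n : ℕ) (w : Fin n → F'), LinearIndependent K w →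
      LinearIndependent L (fun j => algebraMap F' F (w j)))
    (hG : G.HasOrthonormalBases) : G'.HasOrthonormalBases := by
  apply hasOrthonormalBases_of_hasLatticeBasis
  intro W' hW'
  refine hasLatticeBasis_descent (A := A) (L := L) (F := F) hb (O := G.O.toSubring)
    (O' := G'.O.toSubring) hO' (hb.algebraMap_mem G) (fun x => exists_smul_mem G' x) hdisj ?_ W'
  intro WL hWL
  obtain ⟨b, hbW, hbo⟩ := hG WL hWL
  refine ⟨_, b, hbW, le_span_of_isOrthonormal_aux hbW hbo.linearIndependent, fun β hβ => ?_⟩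
  refine (hbo.sum_mem_iff β).mp ?_
  have : ∑ i, algebraMap L F (β i) * b i = ∑ i, β i • b i :=
    Finset.sum_congr rfl fun i _ => (Algebra.smul_def _ _).symm
  rw [this]
  exact hβ

variable {Fk2 : Type*} [Field Fk2] [Algebra (IsLocalRing.ResidueField A) Fk2]
variable {Fk2' : Type*} [Field Fk2'] [Algebra (IsLocalRing.ResidueField R) Fk2']

/-- **(N1) descends, sup-norm of two Gauss valuations.** -/
theorem hasOrthonormalBasesS_descent [IsPrincipalIdealRing R] (hb : DescentBase A R)
    (G1 : GaussDatum A F Fk) (G2 : GaussDatum A F Fk2)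
    (G1' : GaussDatum R F' Fk') (G2' : GaussDatum R F' Fk2')
    (hO1 : ∀ x : F', x ∈ G1'.O ↔ algebraMap F' F x ∈ G1.O)
    (hO2 : ∀ x : F', x ∈ G2'.O ↔ algebraMap F' F x ∈ G2.O)
    (hdisj : ∀ (n : ℕ) (w : Fin n → F'), LinearIndependent K w →
      LinearIndependent L (fun j => algebraMap F' F (w j)))
    (hG : HasOrthonormalBasesS G1 G2) : HasOrthonormalBasesS G1' G2' := by
  apply hasOrthonormalBasesS_of_hasLatticeBasis
  intro W' hW'
  refine hasLatticeBasis_descent (A := A) (L := L) (F := F) hb (O := supO G1 G2)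
    (O' := supO G1' G2') (fun x => ?_) (fun r => ?_) (fun x => ?_) hdisj ?_ W'
  · rw [mem_supO, mem_supO, hO1, hO2]
  · exact mem_supO.mpr ⟨hb.algebraMap_mem G1 r, hb.algebraMap_mem G2 r⟩
  · obtain ⟨r₁, hr₁, h₁⟩ := exists_smul_mem G1' x
    obtain ⟨r₂, hr₂, h₂⟩ := exists_smul_mem G2' x
    refine ⟨r₁ * r₂, mul_ne_zero hr₁ hr₂, mem_supO.mpr ⟨?_, ?_⟩⟩
    · have := G1'.smul_mem r₂ h₁
      rw [← mul_assoc, ← map_mul, mul_comm (r₂ : K)] at this
      exact this
    · have := G2'.smul_mem r₁ h₂
      rw [← mul_assoc, ← map_mul] at this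
      exact this
  · intro WL hWL
    obtain ⟨b, hbW, hbo⟩ := hG WL hWL
    refine ⟨_, b, hbW, le_span_of_isOrthonormal_aux hbW hbo.linearIndependent, fun β hβ => ?_⟩
    refine (hbo.sum_mem_iff β).mp ?_
    have : ∑ i, algebraMap L F (β i) * b i = ∑ i, β i • b i :=
      Finset.sum_congr rfl fun i _ => (Algebra.smul_def _ _).symm
    rw [this]
    exact hβ

end Descent

end Fermat.Agent.S36lib.Desc2
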