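/-
S36lib / Desc2 / FixedLift  (helper1)

**`K`-rational lifting by the dimension count** (`exists_fixed_lift_of_finrank` of the S36
architecture).  `G` a Gauss datum over `(L, A)` on `F`, `G'` its restriction over `(K, R)` to
`F' ⊆ F` (same residue field `Fk`, `k_R → k_A` onto).  If `G'` has orthonormal bases (over
`(K, R)`; see `Desc2/Ortho`) and `W' = W ∩ F'` has `dim_K W' = dim_L W` (Speiser), then every
reduction of an element of `W ∩ O` is the reduction of an element of `W' ∩ O'`:

  `exists_fixed_lift : h ∈ W → h ∈ G.O → ∃ h' ∈ W', h' ∈ G'.O ∧ G'.redF h' = G.redF h`.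

Same for the sup-norm of two Gauss data (`exists_fixed_liftS`, nodal reduction at level `M q`).
-/
import Fermat.Agent.S36lib.Desc2.Ortho

set_option autoImplicit false
set_option linter.unusedSectionVars false

noncomputable section

namespace Fermat.Agent.S36lib.Desc2

open Fermat.Agent.S18lib Fermat.Agent.LSb.Frame Module

variable {L : Type*} [Field L] {A : ValuationSubring L}
variable {K : Type*} [Field K] [Algebra K L] {R : ValuationSubring K}
variable {F : Type*} [Field F] [Algebra L F] [Algebra K F] [IsScalarTower K L F]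
variable {F' : Type*} [Field F'] [Algebra K F'] [Algebra F' F] [IsScalarTower K F' F]

/-- `k_R → k_A` is onto -/
def ResidueSurj (A : ValuationSubring L) (R : ValuationSubring K) : Prop :=
  ∀ a : A, ∃ (r : R) (h : algebraMap K L (r : K) ∈ A),
    IsLocalRing.residue A ⟨algebraMap K L (r : K), h⟩ = IsLocalRing.residue A a

/-- `Fk` is a `k_R`-algebra compatibly with `k_R → k_A` -/
def AlgCompat (A : ValuationSubring L) (R : ValuationSubring K) (Fk : Type*) [Field Fk]
    [Algebra (IsLocalRing.ResidueField A) Fk] [Algebra (IsLocalRing.ResidueField R) Fk] : Prop :=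
  ∀ (r : R) (h : algebraMap K L (r : K) ∈ A),
    algebraMap (IsLocalRing.ResidueField R) Fk (IsLocalRing.residue R r) =
      algebraMap (IsLocalRing.ResidueField A) Fk
        (IsLocalRing.residue A ⟨algebraMap K L (r : K), h⟩)

/-- non-units of `R` are non-units of `A` -/
theorem DescentBase.mem_maximalIdeal (hb : DescentBase A R) {r : R}
    (hr : r ∈ IsLocalRing.maximalIdeal R) (h : algebraMap K L (r : K) ∈ A) :
    (⟨algebraMap K L (r : K), h⟩ : A) ∈ IsLocalRing.maximalIdeal A := by
  rw [IsLocalRing.mem_maximalIdeal, mem_nonunits_iff] at hr ⊢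
  intro hu
  apply hr
  by_cases hr0 : (r : K) = 0
  · exfalso
    have : (⟨algebraMap K L (r : K), h⟩ : A) = 0 := by
      apply Subtype.ext
      show algebraMap K L (r : K) = 0
      rw [hr0, map_zero]
    rw [this] at hu
    exact not_isUnit_zero hu
  · obtain ⟨u, hu'⟩ := hu
    have hinv : algebraMap K L (r : K)⁻¹ ∈ A := by
      have h1 : ((u⁻¹ : Aˣ) : A) * (⟨algebraMap K L (r : K), h⟩ : A) = 1 := by
        rw [← hu', Units.inv_mul]
      have h2 : (((u⁻¹ : Aˣ) : A) : L) * algebraMap K L (r : K) = 1 :=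
        congrArg Subtype.val h1
      have h3 : (((u⁻¹ : Aˣ) : A) : L) = algebraMap K L (r : K)⁻¹ := by
        rw [map_inv₀]
        exact eq_inv_of_mul_eq_one_left h2
      rw [← h3]
      exact ((u⁻¹ : Aˣ) : A).2
    have hinvR : (r : K)⁻¹ ∈ R := (hb.mem_iff _).mpr hinv
    exact ⟨⟨r, ⟨(r : K)⁻¹, hinvR⟩, Subtype.ext (mul_inv_cancel₀ hr0),
      Subtype.ext (inv_mul_cancel₀ hr0)⟩, rfl⟩

section Single

variable {Fk : Type*} [Field Fk] [Algebra (IsLocalRing.ResidueField A) Fk]
variable [Algebra (IsLocalRing.ResidueField R) Fk]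

/-- `G'` (over `(K, R)`, on `F'`) is the restriction of `G` (over `(L, A)`, on `F`) -/
structure Compat (G : GaussDatum A F Fk) (G' : GaussDatum R F' Fk) : Prop where
  mem : ∀ x : F', x ∈ G'.O ↔ algebraMap F' F x ∈ G.O
  red : ∀ x : F', G'.redF x = G.redF (algebraMap F' F x)

theorem compat_restrictDatum {G : GaussDatum A F Fk} (h : RestrictHyp G R F') :
    Compat G (restrictDatum h) :=
  ⟨fun _ => mem_restrictDatum_O h, fun x => restrictDatum_redF h x⟩

variable {G : GaussDatum A F Fk} {G' : GaussDatum R F' Fk}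

/-- transfer of `k_A`-linear relations between reductions to `k_R`-linear ones -/
theorem residue_lift_aux (hs : ResidueSurj A R) (hc : AlgCompat A R Fk)
    (g : IsLocalRing.ResidueField A) :
    ∃ (r : R) (h : algebraMap K L (r : K) ∈ A),
      IsLocalRing.residue A ⟨algebraMap K L (r : K), h⟩ = g ∧
        ∀ v : Fk, g • v = IsLocalRing.residue R r • v := by
  obtain ⟨a, rfl⟩ := IsLocalRing.residue_surjective g
  obtain ⟨r, h, hr⟩ := hs a
  refine ⟨r, h, hr, fun v => ?_⟩
  rw [Algebra.smul_def, Algebra.smul_def, hc r h, hr]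

/-- **an orthonormal family over `(K, R)` is orthonormal over `(L, A)`** -/
theorem isOrthonormal_map_incl (hb : DescentBase A R) (hs : ResidueSurj A R)
    (hc : AlgCompat A R Fk) (hGG' : Compat G G') {ι : Type*} [Fintype ι] {b' : ι → F'}
    (hb' : G'.IsOrthonormal b') : G.IsOrthonormal (fun i => algebraMap F' F (b' i)) := by
  classical
  refine ⟨fun i => (hGG'.mem _).mp (hb'.1 i), ?_⟩
  rw [Fintype.linearIndependent_iff]
  intro g hg
  choose r hr hrg hrv using fun i => residue_lift_aux hs hc (g i)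
  have h1 : ∑ i, IsLocalRing.residue R (r i) • G'.redF (b' i) = 0 := by
    rw [← hg]
    exact Finset.sum_congr rfl fun i _ => by rw [hGG'.red, ← hrv i]
  have h2 := Fintype.linearIndependent_iff.mp hb'.2 _ h1
  intro i
  rw [← hrg i, IsLocalRing.residue_eq_zero_iff]
  exact hb.mem_maximalIdeal ((IsLocalRing.residue_eq_zero_iff _).mp (h2 i)) (hr i)

/-- **`K`-rational lifting (one Gauss valuation).**  `W' = W ∩ F'` with `dim_K W' = dim_L W`
(Speiser) and (N1) for `G'` over `(K, R)`: every reduction of an element of `W ∩ O` is the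
reduction of an element of `W' ∩ O'`. -/
theorem exists_fixed_lift (hb : DescentBase A R) (hs : ResidueSurj A R)
    (hc : AlgCompat A R Fk) (hGG' : Compat G G') (hG' : G'.HasOrthonormalBases)
    (W : Submodule L F) [FiniteDimensional L W] (W' : Submodule K F')
    [FiniteDimensional K W']
    (hW' : ∀ x : F', x ∈ W' ↔ algebraMap F' F x ∈ W) (hfr : finrank K W' = finrank L W)
    {h : F} (hhW : h ∈ W) (hhO : h ∈ G.O) :
    ∃ h' ∈ W', h' ∈ G'.O ∧ G'.redF h' = G.redF h := by
  classical
  obtain ⟨b', hb'W, hb'o⟩ := hG' W' inferInstance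
  set b : Fin (finrank K W') → F := fun i => algebraMap F' F (b' i) with hbdef
  have hbo : G.IsOrthonormal b := isOrthonormal_map_incl hb hs hc hGG' hb'o
  have hbW : ∀ i, b i ∈ W := fun i => (hW' _).mp (hb'W i)
  have hli := hbo.linearIndependent
  have hspan : Submodule.span L (Set.range b) = W := by
    apply Submodule.eq_of_le_of_finrank_eq
    · rw [Submodule.span_le]
      rintro _ ⟨i, rfl⟩
      exact hbW i
    · rw [finrank_span_eq_card hli, Fintype.card_fin, hfr]
  obtain ⟨a, ha⟩ := hbo.exists_coeff_of_mem_span (by rw [hspan]; exact hhW) hhO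
  choose r hr hra using fun i => hs (a i)
  refine ⟨∑ i, algebraMap K F' ((r i : R) : K) * b' i, ?_, hb'o.sum_mem r, ?_⟩
  · exact W'.sum_mem fun i _ => by
      rw [← Algebra.smul_def]; exact W'.smul_mem _ (hb'W i)
  · rw [hb'o.redF_sum r, ha, hbo.redF_sum a]
    refine Finset.sum_congr rfl fun i _ => ?_
    rw [Algebra.smul_def, Algebra.smul_def, hc (r i) (hr i), hra i, hGG'.red]

end Single

section Pair

variable {Fk1 : Type*} [Field Fk1] [Algebra (IsLocalRing.ResidueField A) Fk1]
variable [Algebra (IsLocalRing.ResidueField R) Fk1]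
variable {Fk2 : Type*} [Field Fk2] [Algebra (IsLocalRing.ResidueField A) Fk2]
variable [Algebra (IsLocalRing.ResidueField R) Fk2]
variable {G1 : GaussDatum A F Fk1} {G2 : GaussDatum A F Fk2}
variable {G1' : GaussDatum R F' Fk1} {G2' : GaussDatum R F' Fk2}

theorem mem_supO_incl (h1 : Compat G1 G1') (h2 : Compat G2 G2') (x : F') :
    x ∈ supO G1' G2' ↔ algebraMap F' F x ∈ supO G1 G2 := by
  rw [mem_supO, mem_supO, h1.mem, h2.mem]

theorem redS_incl (h1 : Compat G1 G1') (h2 : Compat G2 G2') (x : F') :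
    redS G1' G2' x = redS G1 G2 (algebraMap F' F x) := by
  ext
  · exact h1.red x
  · exact h2.red x

theorem residue_lift_aux₂ (hs : ResidueSurj A R) (hc1 : AlgCompat A R Fk1)
    (hc2 : AlgCompat A R Fk2) (g : IsLocalRing.ResidueField A) :
    ∃ (r : R) (h : algebraMap K L (r : K) ∈ A),
      IsLocalRing.residue A ⟨algebraMap K L (r : K), h⟩ = g ∧
        ∀ v : Fk1 × Fk2, g • v = IsLocalRing.residue R r • v := by
  obtain ⟨a, rfl⟩ := IsLocalRing.residue_surjective g
  obtain ⟨r, h, hr⟩ := hs a
  refine ⟨r, h, hr, fun v => ?_⟩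
  ext
  · rw [Prod.smul_fst, Prod.smul_fst, Algebra.smul_def, Algebra.smul_def, hc1 r h, hr]
  · rw [Prod.smul_snd, Prod.smul_snd, Algebra.smul_def, Algebra.smul_def, hc2 r h, hr]

/-- an orthonormal family for the sup-norm over `(K, R)` is orthonormal over `(L, A)` -/
theorem isOrthonormalS_map_incl (hb : DescentBase A R) (hs : ResidueSurj A R)
    (hc1 : AlgCompat A R Fk1) (hc2 : AlgCompat A R Fk2) (h1 : Compat G1 G1')
    (h2 : Compat G2 G2') {ι : Type*} [Fintype ι] {b' : ι → F'}
    (hb' : IsOrthonormalS G1' G2' b') :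
    IsOrthonormalS G1 G2 (fun i => algebraMap F' F (b' i)) := by
  classical
  refine ⟨fun i => (mem_supO_incl h1 h2 _).mp (hb'.1 i), ?_⟩
  rw [Fintype.linearIndependent_iff]
  intro g hg
  choose r hr hrg hrv using fun i => residue_lift_aux₂ hs hc1 hc2 (g i)
  have h3 : ∑ i, IsLocalRing.residue R (r i) • redS G1' G2' (b' i) = 0 := by
    rw [← hg]
    exact Finset.sum_congr rfl fun i _ => by rw [redS_incl h1 h2, ← hrv i]
  have h4 := Fintype.linearIndependent_iff.mp hb'.2 _ h3
  intro i
  rw [← hrg i, IsLocalRing.residue_eq_zero_iff]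
  exact hb.mem_maximalIdeal ((IsLocalRing.residue_eq_zero_iff _).mp (h4 i)) (hr i)

/-- **`K`-rational lifting, sup-norm of two Gauss valuations** (nodal reduction at level `M q`):
every reduction `(red₁ h, red₂ h)` of an element of `W ∩ O₁ ∩ O₂` is the reduction of an element of
`W' ∩ O₁' ∩ O₂'`, `W' = W ∩ F'`, `dim_K W' = dim_L W`. -/
theorem exists_fixed_liftS (hb : DescentBase A R) (hs : ResidueSurj A R)
    (hc1 : AlgCompat A R Fk1) (hc2 : AlgCompat A R Fk2) (h1 : Compat G1 G1')
    (h2 : Compat G2 G2') (hG' : HasOrthonormalBasesS G1' G2')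
    (W : Submodule L F) [FiniteDimensional L W] (W' : Submodule K F')
    [FiniteDimensional K W']
    (hW' : ∀ x : F', x ∈ W' ↔ algebraMap F' F x ∈ W) (hfr : finrank K W' = finrank L W)
    {h : F} (hhW : h ∈ W) (hhO : h ∈ supO G1 G2) :
    ∃ h' ∈ W', h' ∈ supO G1' G2' ∧ redS G1' G2' h' = redS G1 G2 h := by
  classical
  obtain ⟨b', hb'W, hb'o⟩ := hG' W' inferInstance
  set b : Fin (finrank K W') → F := fun i => algebraMap F' F (b' i) with hbdef
  have hbo : IsOrthonormalS G1 G2 b := isOrthonormalS_map_incl hb hs hc1 hc2 h1 h2 hb'o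
  have hbW : ∀ i, b i ∈ W := fun i => (hW' _).mp (hb'W i)
  have hli := hbo.linearIndependent
  have hspan : Submodule.span L (Set.range b) = W := by
    apply Submodule.eq_of_le_of_finrank_eq
    · rw [Submodule.span_le]
      rintro _ ⟨i, rfl⟩
      exact hbW i
    · rw [finrank_span_eq_card hli, Fintype.card_fin, hfr]
  obtain ⟨a, ha⟩ := hbo.exists_coeff_of_mem_span (by rw [hspan]; exact hhW) hhO
  choose r hr hra hrv using fun i =>
    residue_lift_aux₂ hs hc1 hc2 (IsLocalRing.residue A (a i))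
  refine ⟨∑ i, algebraMap K F' ((r i : R) : K) * b' i, ?_, hb'o.sum_mem r, ?_⟩
  · exact W'.sum_mem fun i _ => by
      rw [← Algebra.smul_def]; exact W'.smul_mem _ (hb'W i)
  · rw [hb'o.redS_sum r, ha, hbo.redS_sum a]
    refine Finset.sum_congr rfl fun i _ => ?_
    rw [redS_incl h1 h2, hrv i]

end Pair

end Fermat.Agent.S36lib.Desc2
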