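/-
S36lib / Desc2 / Inst  (helper1)

**The concrete base of the `K`-rational descent**: `(L, A) = (ℚ̄, A | q)`,
`(K, R) = (Kfix A, Wfix A)` (helper2's `Desc/Kfix`), `F = FBar N`,
`F' = fixF N I` (`I = A.inertiaSubgroupIn ℚ`).

* `descentBase_Wfix`, `residueSurj_Wfix`, `isPrincipalIdealRing_Wfix` : the base hypotheses of
  `Desc2/{Restrict, Ortho, FixedLift}`;
* `resAlgebraOn A Fk` (scoped instance): any `k_A`-algebra is a `k_{Wfix A}`-algebra;
  `ResCompat A Fk` : the compatibility of an arbitrary such structure (so any instance fits);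
* `restrictHyp_fixF`      : `RestrictHyp` for `fixF N I` from (i) and (ii) in `FBar N`-form;
* `exists_fixF_lift_of_coe` : (ii) for data with coefficientwise reduction (`IsGaussOne`-type);
* `restrictHyp_of_coe`    : `RestrictHyp` for such data (using helper2's (i), `Desc/FixF`);
* `RestrictHyp.transport`, `restrictHyp_transport` : transport along an automorphism commuting
  with the Galois action (`w_q`, `w_{q²}`);
* `linearIndependent_fixF` : linear disjointness of `fixF N H` and `ℚ̄` over `fixK H`;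
* `hasOrthonormalBases_restrict`, `hasOrthonormalBasesS_restrict` : (N1) for the restricted data.
-/
import Mathlib
import Fermat.Agent.S36lib.Desc.FixF
import Fermat.Agent.S36lib.Desc2.FixedLift
import Fermat.Agent.LSb.Unit.Transport

set_option autoImplicit false
set_option linter.unusedSectionVars false
set_option linter.unusedVariables false
set_option linter.style.haveILetI false

noncomputable section

namespace Fermat.Agent.S36lib.Desc2

open ModularCurve Fermat.Agent.S18lib Fermat.Agent.S18lib.V Fermat.Agent.S13lib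
open Fermat.Agent.S29lib.GH Fermat.Agent.S36lib.Desc IsLocalRing Fermat.Agent.LSb.Val
open Fermat.Agent.LSb.Frame

local notation "Qb" => AlgebraicClosure ℚ
local notation "GQ" => (AlgebraicClosure ℚ ≃ₐ[ℚ] AlgebraicClosure ℚ)

variable {A : ValuationSubring Qb} {q : ℕ}

/-! ### the base `(Kfix A, Wfix A) ⊆ (ℚ̄, A)` -/

/-- rank one: a power of `q` kills any denominator -/
theorem exists_pow_mul_mem (hq : q.Prime) (hA : A.LiesOverPrime q) (c : Qb) :
    ∃ n : ℕ, (q : Qb) ^ n * c ∈ A := by
  haveI : Fact q.Prime := ⟨hq⟩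
  by_cases hc : c ∈ A
  · exact ⟨0, by rw [pow_zero, one_mul]; exact hc⟩
  · have hci : c⁻¹ ∈ A := (A.mem_or_inv_mem c).resolve_left hc
    have hc0 : c ≠ 0 := by
      rintro rfl
      exact hc A.zero_mem
    have hqA : ((q : ℕ) : Qb) ∈ A := natCast_mem A q
    have hqmax : (⟨(q : Qb), hqA⟩ : A) ∈ IsLocalRing.maximalIdeal A := by
      rw [IsLocalRing.mem_maximalIdeal, mem_nonunits_iff]
      intro hu
      have h1 : ((q : ℕ) : Qb) ∈ A.nonunits := hA
      rw [ValuationSubring.mem_nonunits_iff_exists_mem_maximalIdeal] at h1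
      obtain ⟨hm, hm'⟩ := h1
      exact (IsLocalRing.mem_maximalIdeal _).mp hm' hu
    have hd0 : (⟨c⁻¹, hci⟩ : A) ≠ 0 := by
      intro h
      exact inv_ne_zero hc0 (congrArg Subtype.val h)
    obtain ⟨n, hn⟩ := rankOne_of_liesOverPrime A hA ⟨(q : Qb), hqA⟩ hqmax ⟨c⁻¹, hci⟩ hd0
    have hdvd : (⟨c⁻¹, hci⟩ : A) ∣ (⟨(q : Qb), hqA⟩ : A) ^ n := by
      rcases ValuationRing.dvd_total (⟨c⁻¹, hci⟩ : A) ((⟨(q : Qb), hqA⟩ : A) ^ n) with h | h
      · exact h
      · exact absurd h hn
    obtain ⟨e, he⟩ := hdvd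
    have he' : (q : Qb) ^ n = c⁻¹ * (e : Qb) := by
      have := congrArg Subtype.val he
      simpa using this
    refine ⟨n, ?_⟩
    rw [he', mul_comm c⁻¹, mul_assoc, inv_mul_cancel₀ hc0, mul_one]
    exact e.2

/-- `(Kfix A, Wfix A)` is a base of descent for `(ℚ̄, A)` -/
theorem descentBase_Wfix (hq : q.Prime) (hA : A.LiesOverPrime q) :
    DescentBase A (Wfix A) where
  mem_iff := fun c => Iff.rfl
  cofinal := fun c => by
    obtain ⟨n, hn⟩ := exists_pow_mul_mem hq hA c
    refine ⟨qW A q ^ n, pow_ne_zero _ (qW_ne_zero hq), ?_⟩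
    have : algebraMap (Kfix A) Qb (((qW A q ^ n : Wfix A)) : Kfix A) = (q : Qb) ^ n := by
      push_cast
      rw [coe_qW]
      congr 1
    rw [this]
    exact hn

/-- the residue field of `Wfix A` is that of `A` -/
theorem residueSurj_Wfix (hq : q.Prime) (hA : A.LiesOverPrime q) :
    ResidueSurj A (Wfix A) := by
  intro a
  obtain ⟨x, hx⟩ := (resMap_bijective hq hA).2 (residue A a)
  obtain ⟨w, rfl⟩ := residue_surjective x
  refine ⟨w, w.2, ?_⟩
  rw [← hx, resMap_residue]
  rfl

/-- `Wfix A` is a principal ideal domain -/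
theorem isPrincipalIdealRing_Wfix (hq : q.Prime) (hA : A.LiesOverPrime q) :
    IsPrincipalIdealRing (Wfix A) := by
  haveI := isDiscreteValuationRing_Wfix hq hA
  infer_instance

/-! ### the algebra structure over the residue field of `Wfix A` -/

/-- any `k_A`-algebra as an algebra over the residue field of `Wfix A` -/
@[instance_reducible] def resAlgebraOn (A : ValuationSubring Qb) (Fk : Type*) [Field Fk]
    [Algebra (ResidueField A) Fk] : Algebra (ResidueField (Wfix A)) Fk :=
  ((algebraMap (ResidueField A) Fk).comp (resMap A)).toAlgebra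

attribute [scoped instance] resAlgebraOn

/-- the compatibility of two algebra structures on `Fk` -/
def ResCompat (A : ValuationSubring Qb) (Fk : Type*) [Field Fk] [Algebra (ResidueField A) Fk]
    [Algebra (ResidueField (Wfix A)) Fk] : Prop :=
  ∀ x : ResidueField (Wfix A),
    algebraMap (ResidueField (Wfix A)) Fk x = algebraMap (ResidueField A) Fk (resMap A x)

theorem resCompat_resAlgebraOn (A : ValuationSubring Qb) (Fk : Type*) [Field Fk]
    [Algebra (ResidueField A) Fk] : ResCompat A Fk := fun _ => rfl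

theorem algCompat_of_resCompat {Fk : Type*} [Field Fk] [Algebra (ResidueField A) Fk]
    [Algebra (ResidueField (Wfix A)) Fk] (h : ResCompat A Fk) : AlgCompat A (Wfix A) Fk := by
  intro r hr
  rw [h, resMap_residue]
  rfl

/-! ### the restriction hypotheses for `fixF N I` -/

section Restrict

variable (N : ℕ) [NeZero N]
variable {Fk : Type*} [Field Fk] [Algebra (ResidueField A) Fk]
variable [Algebra (ResidueField (Wfix A)) Fk]

/-- **the restriction hypotheses for the inertia-fixed field** `fixF N I` over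
`(Kfix A, Wfix A)`, from (i) and (ii) stated inside `FBar N` -/
theorem restrictHyp_fixF (D : GaussDatum A (FBar N) Fk) (hc : ResCompat A Fk)
    (hi : ∀ f : FBar N, f ∈ fixF N (A.inertiaSubgroupIn ℚ) → f ≠ 0 →
      ∃ c : Kfix A, c ≠ 0 ∧ D.redF (algebraMap Qb (FBar N) (c : Qb) * f) ≠ 0)
    (hii : ∀ η : Fk, ∃ f : FBar N, f ∈ fixF N (A.inertiaSubgroupIn ℚ) ∧ f ∈ D.O ∧ D.redF f = η) :
    RestrictHyp D (Wfix A) (fixF N (A.inertiaSubgroupIn ℚ)) where
  mem_iff := fun c => Iff.rfl
  compat := algCompat_of_resCompat hc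
  exists_const := fun f hf => by
    have hf' : (f : FBar N) ≠ 0 := fun h => hf (Subtype.ext h)
    obtain ⟨c, hc0, hne⟩ := hi f f.2 hf'
    exact ⟨c, hc0, hne⟩
  exists_lift := fun η => by
    obtain ⟨f, hf, hfO, hη⟩ := hii η
    exact ⟨⟨f, hf⟩, hfO, hη⟩

end Restrict

/-! ### data with coefficientwise reduction -/

section Coe

variable {N : ℕ} [NeZero N] {M' : ℕ}
local notation "kA" => IsLocalRing.ResidueField A

/-- `j(t^d)` is fixed by every Galois automorphism -/
theorem jd_mem_fixF (H : Subgroup GQ) (d : ℕ) [NeZero d] (hd : d ∣ N) :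
    jd N d hd ∈ fixF N H := by
  rw [mem_fixF]
  intro σ _
  show arithmeticRingAut (modularFunctionFieldFull N) σ (jd N d hd) = jd N d hd
  exact arithmeticRingAut_jd N d hd σ

theorem jd_eq_toL (d : ℕ) [NeZero d] (hd : d ∣ N) :
    (jd N d hd : FBar N) = ⟨toL A (jqNModC A d), (jqNModC_mem (N := N) (A := A) hd).1⟩ := by
  apply Subtype.ext
  show coeffEmb Qb (qExpand ℚ d jq) = toL A (jqNModC A d)
  rw [toL, coeffMap_jqNModC, coeffEmb, ← jqN, ← jqNModC_rat, coeffMap_jqNModC]

/-- **(ii) for coefficientwise reductions**: every element of `FRes A M'` (`M' ∣ N`) is the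
reduction of a function fixed by `H` (any `H ≤ G_ℚ` whose fixed field has full residue field). -/
theorem exists_fixF_lift_of_coe (H : Subgroup GQ) (D : GaussDatum A (FBar N) (FRes A M'))
    (hmem : ∀ (y : LaurentSeries A) (hy : toL A y ∈ modularFunctionFieldBar N),
      (⟨toL A y, hy⟩ : FBar N) ∈ D.O)
    (hred : ∀ (y : LaurentSeries A) (hy : toL A y ∈ modularFunctionFieldBar N),
      ((D.redF (⟨toL A y, hy⟩ : FBar N) : FRes A M') : LaurentSeries kA) = toK A y)
    (hres : ∀ a : A, ∃ (c : fixK H) (h : algebraMap (fixK H) Qb c ∈ A),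
      IsLocalRing.residue A ⟨algebraMap (fixK H) Qb c, h⟩ = IsLocalRing.residue A a)
    (hdvd : M' ∣ N) (η : FRes A M') :
    ∃ f : FBar N, f ∈ fixF N H ∧ f ∈ D.O ∧ D.redF f = η := by
  suffices h : ∀ x (hx : x ∈ modularFunctionFieldFullC kA M'),
      ∃ f : FBar N, f ∈ fixF N H ∧ f ∈ D.O ∧
        ((D.redF f : FRes A M') : LaurentSeries kA) = x by
    obtain ⟨f, hf, hfO, hfη⟩ := h η.1 η.2
    exact ⟨f, hf, hfO, Subtype.ext hfη⟩
  intro x hx
  induction hx using IntermediateField.adjoin_induction with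
  | mem x hx =>
    obtain ⟨d, hd0, hd, rfl⟩ := hx
    have := hd0
    have hdN : d ∣ N := hd.trans hdvd
    refine ⟨jd N d hdN, jd_mem_fixF H d hdN, ?_, ?_⟩
    · rw [jd_eq_toL (A := A)]
      exact hmem _ _
    · have h1 : toK A (jqNModC A d) = qExpand kA d (jqModC kA) := by
        rw [toK, coeffMap_jqNModC]
        rfl
      have h2 := hred (jqNModC A d) (jqNModC_mem (N := N) (A := A) hdN).1
      rw [← jd_eq_toL (A := A) d hdN, h1] at h2
      exact h2
  | algebraMap c =>
    obtain ⟨a, rfl⟩ := IsLocalRing.residue_surjective c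
    obtain ⟨c₀, hc₀, hca⟩ := hres a
    refine ⟨algebraMap Qb (FBar N) (algebraMap (fixK H) Qb c₀),
      algebraMap_mem_fixF (N := N) (H := H) c₀, (D.algebraMap_mem_iff _).mpr hc₀, ?_⟩
    have := D.redF_algebraMap ⟨algebraMap (fixK H) Qb c₀, hc₀⟩
    rw [this, hca]
    rfl
  | add x y hx hy hx' hy' =>
    obtain ⟨f, hf, hfO, rfl⟩ := hx'
    obtain ⟨g, hg, hgO, rfl⟩ := hy'
    exact ⟨f + g, add_mem hf hg, D.O.add_mem _ _ hfO hgO, by rw [D.redF_add hfO hgO]; rfl⟩
  | inv x hx hx' =>
    obtain ⟨f, hf, hfO, rfl⟩ := hx'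
    by_cases h0 : D.redF f = 0
    · refine ⟨0, zero_mem _, D.O.zero_mem, ?_⟩
      rw [h0, D.redF_zero]
      show (0 : LaurentSeries kA) = (0 : LaurentSeries kA)⁻¹
      rw [inv_zero]
    · exact ⟨f⁻¹, inv_mem hf, D.inv_mem_of_redF_ne_zero h0, by rw [D.redF_inv h0]; rfl⟩
  | mul x y hx hy hx' hy' =>
    obtain ⟨f, hf, hfO, rfl⟩ := hx'
    obtain ⟨g, hg, hgO, rfl⟩ := hy'
    exact ⟨f * g, mul_mem hf hg, D.O.mul_mem _ _ hfO hgO, by rw [D.redF_mul hfO hgO]; rfl⟩

/-- **the restriction hypotheses for a datum with coefficientwise reduction** (`v_M`, `v₁₀`,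
`v₂₀`): helper2's (i) and the lifting of the `j̄(t^d)`. -/
theorem restrictHyp_of_coe [Algebra (ResidueField (Wfix A)) (FRes A M')]
    (hc : ResCompat A (FRes A M')) (D : GaussDatum A (FBar N) (FRes A M'))
    (hmem : ∀ (y : LaurentSeries A) (hy : toL A y ∈ modularFunctionFieldBar N),
      (⟨toL A y, hy⟩ : FBar N) ∈ D.O)
    (hred : ∀ (y : LaurentSeries A) (hy : toL A y ∈ modularFunctionFieldBar N),
      ((D.redF (⟨toL A y, hy⟩ : FBar N) : FRes A M') : LaurentSeries kA) = toK A y)
    (hq : q.Prime) (hA : A.LiesOverPrime q) (hdvd : M' ∣ N) :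
    RestrictHyp D (Wfix A) (fixF N (A.inertiaSubgroupIn ℚ)) := by
  refine restrictHyp_fixF N D hc (fun f hf hf0 => ?_) (fun η => ?_)
  · obtain ⟨c, hc0, u, hu⟩ := exists_fixK_mul_unit (A.inertiaSubgroupIn ℚ) D hmem
      (fun y hy hyK h0 => hyK (by rw [← hred y hy, h0]; rfl)) hq hA le_rfl hf hf0
    exact ⟨c, hc0, D.redF_ne_zero_iff.mpr ⟨u, hu.symm⟩⟩
  · refine exists_fixF_lift_of_coe (A.inertiaSubgroupIn ℚ) D hmem hred (fun a => ?_) hdvd η
    obtain ⟨r, hr, hra⟩ := residueSurj_Wfix hq hA a
    exact ⟨(r : Kfix A), hr, hra⟩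

end Coe

/-! ### transport along an automorphism -/

section Transport

variable {L : Type*} [Field L] {B : ValuationSubring L}
variable {K : Type*} [Field K] [Algebra K L] {R : ValuationSubring K}
variable {F : Type*} [Field F] [Algebra L F]
variable {F' : Type*} [Field F'] [Algebra K F'] [Algebra F' F] [Algebra K F]
variable [IsScalarTower K F' F] [IsScalarTower K L F]
variable {Fk : Type*} [Field Fk] [Algebra (IsLocalRing.ResidueField B) Fk]
variable [Algebra (IsLocalRing.ResidueField R) Fk]

/-- **transport of the restriction hypotheses** along an `L`-automorphism `e` of `F` which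
preserves `F'` -/
theorem RestrictHyp.transport {G : GaussDatum B F Fk} (h : RestrictHyp G R F') (e : F ≃ₐ[L] F)
    (he : ∀ x : F', ∃ y : F', algebraMap F' F y = e (algebraMap F' F x))
    (he' : ∀ x : F', ∃ y : F', algebraMap F' F y = e.symm (algebraMap F' F x)) :
    RestrictHyp (Fermat.Agent.LSb.Unit.transport G e) R F' where
  mem_iff := h.mem_iff
  compat := h.compat
  exists_const := fun f hf => by
    obtain ⟨y, hy⟩ := he f
    have hy0 : y ≠ 0 := by
      rintro rfl
      rw [map_zero] at hy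
      have : algebraMap F' F f = 0 := by
        have := congrArg e.symm hy
        rwa [map_zero, AlgEquiv.symm_apply_apply, eq_comm] at this
      exact hf ((map_eq_zero _).mp this)
    obtain ⟨c, hc0, hne⟩ := h.exists_const y hy0
    refine ⟨c, hc0, ?_⟩
    rw [Fermat.Agent.LSb.Unit.transport_redF]
    have : e (algebraMap F' F (algebraMap K F' c * f)) =
        algebraMap F' F (algebraMap K F' c * y) := by
      rw [map_mul, map_mul, map_mul, hy, algebraMap_comm (L := L), AlgEquiv.commutes]
    rw [this]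
    exact hne
  exists_lift := fun η => by
    obtain ⟨f, hfO, hη⟩ := h.exists_lift η
    obtain ⟨y, hy⟩ := he' f
    refine ⟨y, ?_, ?_⟩
    · rw [Fermat.Agent.LSb.Unit.mem_transport, hy, AlgEquiv.apply_symm_apply]
      exact hfO
    · rw [Fermat.Agent.LSb.Unit.transport_redF, hy, AlgEquiv.apply_symm_apply]
      exact hη

/-- **extensional form**: `G2 = G ∘ e` for a ring endomorphism `e` of `F` fixing the constants of
`K` and inducing a bijection of `F'` (`IsGaussTwo`/`IsGaussZero₂`-type predicates) -/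
theorem RestrictHyp.of_comp {G G2 : GaussDatum B F Fk} (h : RestrictHyp G R F') (e : F →+* F)
    (hmem : ∀ x, x ∈ G2.O ↔ e x ∈ G.O) (hred : ∀ x, G2.redF x = G.redF (e x))
    (heK : ∀ c : K, e (algebraMap K F c) = algebraMap K F c)
    (he : ∀ x : F', ∃ y : F', algebraMap F' F y = e (algebraMap F' F x))
    (he' : ∀ x : F', ∃ y : F', e (algebraMap F' F y) = algebraMap F' F x) :
    RestrictHyp G2 R F' where
  mem_iff := h.mem_iff
  compat := h.compat
  exists_const := fun f hf => by
    obtain ⟨y, hy⟩ := he f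
    have hy0 : y ≠ 0 := by
      rintro rfl
      rw [map_zero] at hy
      have h1 : algebraMap F' F f = 0 := (map_eq_zero e).mp hy.symm
      exact hf ((map_eq_zero _).mp h1)
    obtain ⟨c, hc0, hne⟩ := h.exists_const y hy0
    refine ⟨c, hc0, ?_⟩
    rw [hred]
    have : e (algebraMap F' F (algebraMap K F' c * f)) =
        algebraMap F' F (algebraMap K F' c * y) := by
      rw [map_mul, map_mul, map_mul, hy, ← IsScalarTower.algebraMap_apply K F' F, heK]
    rw [this]
    exact hne
  exists_lift := fun η => by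
    obtain ⟨f, hfO, hη⟩ := h.exists_lift η
    obtain ⟨y, hy⟩ := he' f
    refine ⟨y, ?_, ?_⟩
    · rw [hmem, hy]
      exact hfO
    · rw [hred, hy]
      exact hη

end Transport

section TransportFix

variable {N : ℕ} [NeZero N]
variable {Fk : Type*} [Field Fk] [Algebra (ResidueField A) Fk]
variable [Algebra (ResidueField (Wfix A)) Fk]

/-- transport along an automorphism of `FBar N` commuting with the Galois action -/
theorem restrictHyp_transport {H : Subgroup GQ} {R : ValuationSubring (fixK H)}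
    [Algebra (ResidueField R) Fk] {D : GaussDatum A (FBar N) Fk}
    (h : RestrictHyp D R (fixF N H)) (e : FBar N ≃ₐ[Qb] FBar N)
    (hcomm : ∀ (σ : GQ) (f : FBar N),
      e (arithmeticRingAut (modularFunctionFieldFull N) σ f) =
        arithmeticRingAut (modularFunctionFieldFull N) σ (e f)) :
    RestrictHyp (Fermat.Agent.LSb.Unit.transport D e) R (fixF N H) := by
  have hcomm' : ∀ (σ : GQ) (f : FBar N),
      e.symm (arithmeticRingAut (modularFunctionFieldFull N) σ f) =
        arithmeticRingAut (modularFunctionFieldFull N) σ (e.symm f) := by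
    intro σ f
    apply e.injective
    rw [AlgEquiv.apply_symm_apply, hcomm, AlgEquiv.apply_symm_apply]
  refine h.transport e (fun x => ?_) (fun x => ?_)
  · refine ⟨⟨e (x : FBar N), mem_fixF.mpr fun σ hσ => ?_⟩, rfl⟩
    show arithmeticRingAut (modularFunctionFieldFull N) σ (e (x : FBar N)) = e (x : FBar N)
    rw [← hcomm]
    congr 1
    exact mem_fixF.mp x.2 σ hσ
  · refine ⟨⟨e.symm (x : FBar N), mem_fixF.mpr fun σ hσ => ?_⟩, rfl⟩
    show arithmeticRingAut (modularFunctionFieldFull N) σ (e.symm (x : FBar N)) =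
      e.symm (x : FBar N)
    rw [← hcomm']
    congr 1
    exact mem_fixF.mp x.2 σ hσ

/-- extensional form for `fixF N H`: `D2 = D ∘ e`, `e` a ring endomorphism of `FBar N` over `ℚ̄`
commuting with the Galois action, with a one-sided inverse `e'` of the same kind -/
theorem restrictHyp_of_comp_fix {H : Subgroup GQ} {R : ValuationSubring (fixK H)}
    [Algebra (ResidueField R) Fk] {D D2 : GaussDatum A (FBar N) Fk}
    (h : RestrictHyp D R (fixF N H)) (e e' : FBar N →+* FBar N)
    (hmem : ∀ x, x ∈ D2.O ↔ e x ∈ D.O) (hred : ∀ x, D2.redF x = D.redF (e x))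
    (heQ : ∀ c : Qb, e (algebraMap Qb (FBar N) c) = algebraMap Qb (FBar N) c)
    (hee' : ∀ x, e (e' x) = x)
    (hcomm : ∀ (σ : GQ) (f : FBar N),
      e (arithmeticRingAut (modularFunctionFieldFull N) σ f) =
        arithmeticRingAut (modularFunctionFieldFull N) σ (e f))
    (hcomm' : ∀ (σ : GQ) (f : FBar N),
      e' (arithmeticRingAut (modularFunctionFieldFull N) σ f) =
        arithmeticRingAut (modularFunctionFieldFull N) σ (e' f)) :
    RestrictHyp D2 R (fixF N H) := by
  refine h.of_comp e hmem hred (fun c => ?_) (fun x => ?_) (fun x => ?_)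
  · rw [IsScalarTower.algebraMap_apply (fixK H) Qb (FBar N), heQ]
  · refine ⟨⟨e (x : FBar N), mem_fixF.mpr fun σ hσ => ?_⟩, rfl⟩
    show arithmeticRingAut (modularFunctionFieldFull N) σ (e (x : FBar N)) = e (x : FBar N)
    rw [← hcomm]
    congr 1
    exact mem_fixF.mp x.2 σ hσ
  · refine ⟨⟨e' (x : FBar N), mem_fixF.mpr fun σ hσ => ?_⟩, hee' _⟩
    show arithmeticRingAut (modularFunctionFieldFull N) σ (e' (x : FBar N)) = e' (x : FBar N)
    rw [← hcomm']
    congr 1
    exact mem_fixF.mp x.2 σ hσ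

end TransportFix

/-! ### (N1) for the restricted data -/

section N1

variable {N : ℕ} [NeZero N] (H : Subgroup GQ)

/-- `fixF N H` and `ℚ̄` are linearly disjoint over `fixK H` -/
theorem linearIndependent_fixF (n : ℕ) (w : Fin n → fixF N H)
    (hw : LinearIndependent (fixK H) w) :
    LinearIndependent Qb (fun j => algebraMap (fixF N H) (FBar N) (w j)) := by
  apply linearIndependent_of_fixed (H := H)
  · intro i
    exact mem_fixF.mp (w i).2
  · exact hw.map' (fixFIncl N H) (LinearMap.ker_eq_bot.mpr (fixFIncl_injective N H))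

variable {Fk : Type*} [Field Fk] [Algebra (ResidueField A) Fk]
variable [Algebra (ResidueField (Wfix A)) Fk]

/-- **(N1) over `(Kfix A, Wfix A)`** for a restricted datum on `fixF N I` -/
theorem hasOrthonormalBases_restrict (hq : q.Prime) (hA : A.LiesOverPrime q)
    {D : GaussDatum A (FBar N) Fk}
    (h : RestrictHyp D (Wfix A) (fixF N (A.inertiaSubgroupIn ℚ)))
    (hD : D.HasOrthonormalBases) : (restrictDatum h).HasOrthonormalBases := by
  haveI := isPrincipalIdealRing_Wfix hq hA
  exact hasOrthonormalBases_descent (descentBase_Wfix hq hA) D (restrictDatum h)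
    (fun x => mem_restrictDatum_O h) (linearIndependent_fixF (A.inertiaSubgroupIn ℚ)) hD

variable {Fk2 : Type*} [Field Fk2] [Algebra (ResidueField A) Fk2]
variable [Algebra (ResidueField (Wfix A)) Fk2]

/-- **(N1) over `(Kfix A, Wfix A)`, sup-norm of two restricted data** -/
theorem hasOrthonormalBasesS_restrict (hq : q.Prime) (hA : A.LiesOverPrime q)
    {D1 : GaussDatum A (FBar N) Fk} {D2 : GaussDatum A (FBar N) Fk2}
    (h1 : RestrictHyp D1 (Wfix A) (fixF N (A.inertiaSubgroupIn ℚ)))
    (h2 : RestrictHyp D2 (Wfix A) (fixF N (A.inertiaSubgroupIn ℚ)))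
    (hD : HasOrthonormalBasesS D1 D2) :
    HasOrthonormalBasesS (restrictDatum h1) (restrictDatum h2) := by
  haveI := isPrincipalIdealRing_Wfix hq hA
  exact hasOrthonormalBasesS_descent (descentBase_Wfix hq hA) D1 D2 (restrictDatum h1)
    (restrictDatum h2) (fun x => mem_restrictDatum_O h1) (fun x => mem_restrictDatum_O h2)
    (linearIndependent_fixF (A.inertiaSubgroupIn ℚ)) hD

end N1

end Fermat.Agent.S36lib.Desc2
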