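/-
S36lib / Desc2 / Places  (helper1)

**The `K`-rational Gauss data of levels `M` and `M q`** over `(Kfix A, Wfix A)`, on the
inertia-fixed fields `fixF M I`, `fixF (M q) I`:

* `gaussMK`   : the restriction of `V.gaussDatum M` (`v_M`), with (N1) `gaussMK_hasOrthonormalBases`;
* `gaussOneK`, `gaussTwoK` : the restrictions of `gaussOne` (`v₁₀`) and `gaussTwo` (`v₀₁`), with
  (N1) for the sup-norm `gaussK_hasOrthonormalBasesS`;
* generic versions for arbitrary data `D1 D2` with `IsGaussOne D1`, `IsGaussTwo D1 D2 wq`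
  (`restrictHyp_of_isGaussOne`, `restrictHyp_of_isGaussTwo`).

The algebra structure of `FRes A M` over the residue field of `Wfix A` is the scoped instance
`resAlgebraOn` of `Desc2/Inst`.
-/
import Mathlib
import Fermat.Agent.S36lib.Desc2.Inst
import Fermat.Agent.LSb.Val.D1H
import Fermat.Agent.LSb.Frame.Modular
import Fermat.Agent.S18lib.V.GaussU.Frame

set_option autoImplicit false
set_option linter.unusedSectionVars false
set_option linter.unusedVariables false
set_option linter.style.haveILetI false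

noncomputable section

namespace Fermat.Agent.S36lib.Desc2

open ModularCurve Fermat.Agent.S18lib Fermat.Agent.S18lib.V Fermat.Agent.S13lib
open Fermat.Agent.S29lib.GH Fermat.Agent.S36lib.Desc IsLocalRing Fermat.Agent.LSb.Val
open Fermat.Agent.LSb.Frame Fermat.Agent.LSb.Old

local notation "Qb" => AlgebraicClosure ℚ
local notation "GQ" => (AlgebraicClosure ℚ ≃ₐ[ℚ] AlgebraicClosure ℚ)

/-! ### level `M` -/

section LevelM

variable (M : ℕ) [NeZero M] (A : ValuationSubring Qb) {q : ℕ} [hq : Fact q.Prime]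
  (hqM : ¬ q ∣ M) (hA : A.LiesOverPrime q)

local notation "kA" => IsLocalRing.ResidueField A

/-- integral `t`-series of level `M` lie in `O_M` -/
theorem gaussDatum_mem_of_integral (y : LaurentSeries A)
    (hy : toL A y ∈ modularFunctionFieldBar M) :
    (⟨toL A y, hy⟩ : FBar M) ∈ (gaussDatum M A hqM hA).O :=
  mem_gaussSubring_of_integral (mem_or_inv_mem_gaussSubring_U M A hqM hA) y hy

/-- ... and the reduction is coefficientwise -/
theorem coe_gaussDatum_redF_of_integral (y : LaurentSeries A)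
    (hy : toL A y ∈ modularFunctionFieldBar M) :
    (((gaussDatum M A hqM hA).redF (⟨toL A y, hy⟩ : FBar M) : FRes A M) :
      LaurentSeries kA) = toK A y := by
  have h := gaussDatum_redF_elemL M A hqM hA
    (intOfSeries (mem_or_inv_mem_gaussSubring_U M A hqM hA) y hy)
  rw [elemL_intOfSeries] at h
  rw [h]
  rfl

/-- the restriction hypotheses for `v_M` -/
theorem restrictHyp_gaussM :
    RestrictHyp (gaussDatum M A hqM hA) (Wfix A) (fixF M (A.inertiaSubgroupIn ℚ)) :=
  restrictHyp_of_coe (resCompat_resAlgebraOn A _) _ (gaussDatum_mem_of_integral M A hqM hA)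
    (coe_gaussDatum_redF_of_integral M A hqM hA) hq.out hA dvd_rfl

/-- **the `K`-rational Gauss datum of level `M`** -/
def gaussMK : GaussDatum (Wfix A) (fixF M (A.inertiaSubgroupIn ℚ)) (FRes A M) :=
  restrictDatum (restrictHyp_gaussM M A hqM hA)

theorem mem_gaussMK_O {f : fixF M (A.inertiaSubgroupIn ℚ)} :
    f ∈ (gaussMK M A hqM hA).O ↔ (f : FBar M) ∈ (gaussDatum M A hqM hA).O := Iff.rfl

theorem gaussMK_redF (f : fixF M (A.inertiaSubgroupIn ℚ)) :
    (gaussMK M A hqM hA).redF f = (gaussDatum M A hqM hA).redF (f : FBar M) :=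
  restrictDatum_redF _ f

theorem compat_gaussMK : Compat (gaussDatum M A hqM hA) (gaussMK M A hqM hA) :=
  compat_restrictDatum _

/-- **(N1) at level `M` over `(Kfix A, Wfix A)`** -/
theorem gaussMK_hasOrthonormalBases : (gaussMK M A hqM hA).HasOrthonormalBases :=
  hasOrthonormalBases_restrict hq.out hA _ (gaussDatum_hasOrthonormalBases M A hqM hA)

end LevelM

/-! ### level `M q` -/

section LevelMq

variable {M q : ℕ} [NeZero M] [NeZero q] [hq : Fact q.Prime] {A : ValuationSubring Qb}

local notation "kA" => IsLocalRing.ResidueField A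

variable {D1 D2 : GaussDatum A (FBar (M * q)) (FRes A M)}

/-- the restriction hypotheses for any first Gauss datum of level `M q` -/
theorem restrictHyp_of_isGaussOne (hA : A.LiesOverPrime q) (h1 : IsGaussOne D1) :
    RestrictHyp D1 (Wfix A) (fixF (M * q) (A.inertiaSubgroupIn ℚ)) :=
  restrictHyp_of_coe (resCompat_resAlgebraOn A _) D1 h1.mem h1.red hq.out hA (Dvd.intro q rfl)

/-- the restriction hypotheses for any second Gauss datum of level `M q` -/
theorem restrictHyp_of_isGaussTwo (hqM : ¬ q ∣ M) (hA : A.LiesOverPrime q) (h1 : IsGaussOne D1)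
    (h2 : IsGaussTwo D1 D2
      ((wq M q hq.out hqM : FBar (M * q) ≃ₐ[Qb] FBar (M * q)) : FBar (M * q) →+* FBar (M * q))) :
    RestrictHyp D2 (Wfix A) (fixF (M * q) (A.inertiaSubgroupIn ℚ)) :=
  restrictHyp_of_comp_fix (restrictHyp_of_isGaussOne hA h1)
    ((wq M q hq.out hqM : FBar (M * q) ≃ₐ[Qb] FBar (M * q)) : FBar (M * q) →+* FBar (M * q))
    ((wq M q hq.out hqM : FBar (M * q) ≃ₐ[Qb] FBar (M * q)) : FBar (M * q) →+* FBar (M * q))
    h2.mem_iff h2.redF
    (fun c => (wq M q hq.out hqM).commutes c) (fun x => wq_wq M q hq.out hqM x)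
    (fun σ f => wq_arithmeticRingAut M q hq.out hqM σ f)
    (fun σ f => wq_arithmeticRingAut M q hq.out hqM σ f)

variable (M q A)
variable (hqM : ¬ q ∣ M) (hA : A.LiesOverPrime q)

/-- **the `K`-rational first Gauss datum of level `M q`** (`v₁₀`) -/
def gaussOneK : GaussDatum (Wfix A) (fixF (M * q) (A.inertiaSubgroupIn ℚ)) (FRes A M) :=
  restrictDatum (restrictHyp_of_isGaussOne hA (isGaussOne_gaussOne M q A hqM hA))

/-- **the `K`-rational second Gauss datum of level `M q`** (`v₀₁`) -/
def gaussTwoK : GaussDatum (Wfix A) (fixF (M * q) (A.inertiaSubgroupIn ℚ)) (FRes A M) :=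
  restrictDatum (restrictHyp_of_isGaussTwo hqM hA (isGaussOne_gaussOne M q A hqM hA)
    (isGaussTwo_gaussTwo M q A hqM hA))

theorem mem_gaussOneK_O {f : fixF (M * q) (A.inertiaSubgroupIn ℚ)} :
    f ∈ (gaussOneK M q A hqM hA).O ↔ (f : FBar (M * q)) ∈ (gaussOne M q A hqM hA).O := Iff.rfl

theorem gaussOneK_redF (f : fixF (M * q) (A.inertiaSubgroupIn ℚ)) :
    (gaussOneK M q A hqM hA).redF f = (gaussOne M q A hqM hA).redF (f : FBar (M * q)) :=
  restrictDatum_redF _ f

theorem mem_gaussTwoK_O {f : fixF (M * q) (A.inertiaSubgroupIn ℚ)} :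
    f ∈ (gaussTwoK M q A hqM hA).O ↔ (f : FBar (M * q)) ∈ (gaussTwo M q A hqM hA).O := Iff.rfl

theorem gaussTwoK_redF (f : fixF (M * q) (A.inertiaSubgroupIn ℚ)) :
    (gaussTwoK M q A hqM hA).redF f = (gaussTwo M q A hqM hA).redF (f : FBar (M * q)) :=
  restrictDatum_redF _ f

theorem compat_gaussOneK : Compat (gaussOne M q A hqM hA) (gaussOneK M q A hqM hA) :=
  compat_restrictDatum _

theorem compat_gaussTwoK : Compat (gaussTwo M q A hqM hA) (gaussTwoK M q A hqM hA) :=
  compat_restrictDatum _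

/-- **(N1) at level `M q` over `(Kfix A, Wfix A)`**: the sup-norm of `v₁₀`, `v₀₁` on the
inertia-fixed field has orthonormal bases -/
theorem gaussK_hasOrthonormalBasesS :
    HasOrthonormalBasesS (gaussOneK M q A hqM hA) (gaussTwoK M q A hqM hA) :=
  hasOrthonormalBasesS_restrict hq.out hA _ _
    (modular_hasOrthonormalBasesS hqM hA (isGaussOne_gaussOne M q A hqM hA)
      (isGaussTwo_gaussTwo M q A hqM hA) (fun x => wq_wq M q hq.out hqM x))

end LevelMq

end Fermat.Agent.S36lib.Desc2
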