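/-
S36lib / Desc2 / LiftM  (helper1)

**`K`-rational level-`M` lifts** (`hlift₀` of helper3's `Fin.glueAt_of_rows`).  `q ∤ M`, `A` over
`q`, `I = A.inertiaSubgroupIn ℚ`, `K = Kfix A`, `R = Wfix A`.

* `exists_fixF_lift_level` : every `z ∈ FRes A M` which is regular away from the poles of `j̄` is the
  reduction (for the `K`-rational Gauss datum `gaussMK` of level `M`) of some `y ∈ fixF M I`,
  `y ∈ O_M`, regular away from the poles of `j` (as a function of `FBar M`).
  (= `LSb.Old.exists_lift_level` made `K`-rational: lift into `L_ℚ̄(m (j)_∞) ∩ O_M`, then the dimension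
  count `Desc2.exists_fixed_lift` with `W' = Fin.fixL M I (m (j)_∞)`, Speiser `Fin.finrank_fixL`,
  (N1) `gaussMK_hasOrthonormalBases`.)
* `regAwayFix M H` : the test ring `S₀ = regAway ℚ̄ (j) ∩ fixF M H` (as a subring of `fixF M H`);
* `exists_regAwayFix_lift` : the same in the shape of `hlift₀`, with `R₀ = regAway k_A (j̄)`;
* `regAway_constIso` : `regAway k x = regAway k' x` along helper4's `J.ConstIso k k' F`;
* `exists_regAwayFix_lift_of_constIso` : `hlift₀` with `R₀ = regAway k (j̄)` for any constant field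
  `k ≃ k_A` (e.g. `k = ResidueField (Wfix A)`), stated for `WM = Norm.ofGauss (gaussMK …)`.
-/
import Mathlib
import Fermat.Agent.S36lib.Desc2.Places
import Fermat.Agent.S36lib.Fin.ChartInst
import Fermat.Agent.LSb.Old.Lift
import Fermat.Agent.LSb.Unit.Nodes
import Fermat.Agent.S36lib.J.BaseIso
import Fermat.Agent.S36lib.Norm.Bridge

set_option autoImplicit false
set_option linter.unusedSectionVars false
set_option linter.unusedVariables false
set_option linter.style.haveILetI false

noncomputable section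

namespace Fermat.Agent.S36lib.Desc2

open AlgebraicCurve ModularCurve Module
open Fermat.Agent.S18lib Fermat.Agent.S18lib.V Fermat.Agent.S13lib
open Fermat.Agent.S29lib.GH Fermat.Agent.S36lib.Desc IsLocalRing Fermat.Agent.LSb.Val
open Fermat.Agent.LSb.Frame Fermat.Agent.LSb.Old Fermat.Agent.ProgramR
open Fermat.Agent.LSb.Unit (regAway mem_regAway)

local notation "Qb" => AlgebraicClosure ℚ
local notation "GQ" => (AlgebraicClosure ℚ ≃ₐ[ℚ] AlgebraicClosure ℚ)

section

variable (M : ℕ) [NeZero M]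

/-- `j` is fixed by every subgroup of `G_ℚ` -/
theorem jF_mem_fixF (H : Subgroup GQ) : Gin0.jF M ∈ fixF M H := by
  have h : Gin0.jF M = jd M 1 (one_dvd M) := by
    apply Subtype.ext
    rw [Gin0.coe_jF, coe_jd_eq, qExpand_one_apply]
  rw [h]
  exact jd_mem_fixF H 1 (one_dvd M)

/-- the test ring of level `M`: the `H`-fixed functions which are regular away from the poles of
`j` -/
def regAwayFix (H : Subgroup GQ) : Subring (fixF M H) :=
  (regAway Qb (Gin0.jF M)).comap (fixF M H).subtype

theorem mem_regAwayFix {H : Subgroup GQ} {y : fixF M H} :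
    y ∈ regAwayFix M H ↔ (y : FBar M) ∈ regAway Qb (Gin0.jF M) := Iff.rfl

end

section LevelM

variable (M : ℕ) [NeZero M] (A : ValuationSubring Qb) {q : ℕ} [NeZero q] [hq : Fact q.Prime]
  (hqM : ¬ q ∣ M) (hA : A.LiesOverPrime q)

local notation "kA" => IsLocalRing.ResidueField A

/-- **`K`-rational (O3)**: every `z ∈ FRes A M` regular away from the poles of `j̄` lifts to an
inertia-fixed function of level `M` in the Gauss ring, regular away from the poles of `j`. -/
theorem exists_fixF_lift_level (z : FRes A M)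
    (hz : ∀ Q : Place kA (FRes A M), 0 ≤ Q.ord (Gink.jK A M) → 0 ≤ Q.ord z) :
    ∃ y : fixF M (A.inertiaSubgroupIn ℚ), y ∈ (gaussMK M A hqM hA).O ∧
      (∀ P : Place Qb (FBar M), 0 ≤ P.ord (Gin0.jF M) → 0 ≤ P.ord (y : FBar M)) ∧
      (gaussMK M A hqM hA).redF y = z := by
  obtain ⟨g, hF, hFk⟩ := S37lib.B3.exists_genus_level M A hqM hA
    (S37lib.B3.reductionInputsModL M A hqM hA)
  haveI := hF.hasPrincipalDivisors
  haveI := hFk.hasPrincipalDivisors
  obtain ⟨m₀, hm₀⟩ := exists_mem_rr_smul_polesOf (K := kA) (Gink.jK A M) z hz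
  have hdeg := V.degree_polesOf_jF_eq M A hqM hA
  have hdegpos : (1 : ℤ) ≤ Divisor.degree (polesOf (K := Qb) (Gin0.jF M)) := by
    rw [polesOf_eq_poleDiv, Gin0.degree_poleDiv_jF]
    have : 0 < dedekindPsi M := BarField.dedekindPsi_pos M
    exact_mod_cast this
  set m : ℕ := m₀ + 2 * g with hm
  have hmdeg : 2 * (g : ℤ) - 2 < m * Divisor.degree (polesOf (K := Qb) (Gin0.jF M)) := by
    have h1 : (m : ℤ) * 1 ≤ m * Divisor.degree (polesOf (K := Qb) (Gin0.jF M)) :=
      mul_le_mul_of_nonneg_left hdegpos (Nat.cast_nonneg m)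
    have h2 : (m : ℤ) = m₀ + 2 * g := by rw [hm]; push_cast; ring
    have h3 : (0 : ℤ) ≤ m₀ := Nat.cast_nonneg m₀
    linarith
  have hφ : z ∈ riemannRochSpace ((m : ℤ) •
      polesOf (K := kA) ((V.gaussDatum M A hqM hA).redF (Gin0.jF M))) := by
    rw [V.gaussDatum_redF_jF]
    exact hm₀ m (by rw [hm]; exact Nat.le_add_right _ _)
  obtain ⟨f, hfO, hfrr, hfred⟩ := (V.gaussDatum M A hqM hA).exists_lift_polesOf
    (V.gaussDatum_isFrameFamily_jF M A hqM hA) (Gin0.transcendental_jF M) hF hFk hdeg m hmdeg hφ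
  -- the stable divisor `E = m (j)_∞`
  set E : Divisor Qb (FBar M) := (m : ℤ) • polesOf (K := Qb) (Gin0.jF M) with hE
  have hEst : Fin.IsStableDiv M (A.inertiaSubgroupIn ℚ) E :=
    (Fin.isStableDiv_polesOf (jF_mem_fixF M _)).zsmul m
  haveI : FiniteDimensional Qb (riemannRochSpace E) := hF.finiteDimensional E
  haveI : FiniteDimensional (fixK (A.inertiaSubgroupIn ℚ))
      (Fin.fixL M (A.inertiaSubgroupIn ℚ) E) := Fin.finiteDimensional_fixL hF hEst
  obtain ⟨y, hyW, hyO, hyred⟩ := exists_fixed_lift (descentBase_Wfix hq.out hA)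
    (residueSurj_Wfix hq.out hA) (algCompat_of_resCompat (resCompat_resAlgebraOn A _))
    (compat_gaussMK M A hqM hA) (gaussMK_hasOrthonormalBases M A hqM hA)
    (riemannRochSpace E) (Fin.fixL M (A.inertiaSubgroupIn ℚ) E) (fun x => Fin.mem_fixL)
    (Fin.finrank_fixL hEst) hfrr hfO
  refine ⟨y, hyO, fun P hP => ?_, hyred.trans hfred⟩
  have hyrr : (y : FBar M) ∈ riemannRochSpace E := Fin.mem_fixL.1 hyW
  rcases eq_or_ne (y : FBar M) 0 with h0 | hy0
  · rw [h0, Place.ord_zero]
  have := (mem_riemannRochSpace_iff.1 hyrr P).resolve_left hy0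
  rw [hE, Finsupp.smul_apply, smul_eq_mul, polesOf_apply, max_eq_right (by linarith), mul_zero,
    neg_zero] at this
  exact this

/-- **`hlift₀`**: every function of `FRes A M` regular away from the poles of `j̄` is the reduction
of an element of `regAwayFix M I ∩ O_M`. -/
theorem exists_regAwayFix_lift (z : FRes A M) (hz : z ∈ regAway kA (Gink.jK A M)) :
    ∃ y ∈ regAwayFix M (A.inertiaSubgroupIn ℚ), y ∈ (gaussMK M A hqM hA).O ∧
      (gaussMK M A hqM hA).redF y = z := by
  obtain ⟨y, hyO, hyreg, hyred⟩ := exists_fixF_lift_level M A hqM hA z (fun Q hQ =>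
    (FF.mem_iff_ord_nonneg Q z).1 (hz Q ((FF.mem_iff_ord_nonneg Q _).2 hQ)))
  exact ⟨y, fun P hP => (FF.mem_iff_ord_nonneg P _).2
    (hyreg P ((FF.mem_iff_ord_nonneg P _).1 hP)), hyO, hyred⟩

/-- `regAway` does not depend on the constant field (along a `ConstIso`) -/
theorem regAway_constIso {k k' F : Type*} [Field k] [Field k'] [Field F] [Algebra k F]
    [Algebra k' F] (I : J.ConstIso k k' F) (x : F) : regAway k x = regAway k' x := by
  ext f
  constructor
  · intro h Q hQ
    exact h (I.place Q) hQ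
  · intro h Q hQ
    exact h (I.placeInv Q) hQ

/-- **`hlift₀` for `WM = ofGauss (gaussMK …)`, `S₀ = regAwayFix M I`, `R₀ = regAway k (j̄)`**, `k` any
constant field of `FRes A M` isomorphic to `k_A` (`k = ResidueField (Wfix A)`). -/
theorem exists_regAwayFix_lift_of_constIso {k : Type*} [Field k] [Algebra k (FRes A M)]
    (I : J.ConstIso k kA (FRes A M)) :
    ∀ z ∈ regAway k (Gink.jK A M), ∃ y ∈ regAwayFix M (A.inertiaSubgroupIn ℚ),
      y ∈ (Norm.ofGauss (gaussMK M A hqM hA)).O ∧
        (Norm.ofGauss (gaussMK M A hqM hA)).redF y = z := by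
  intro z hz
  rw [regAway_constIso I] at hz
  exact exists_regAwayFix_lift M A hqM hA z hz

end LevelM

end Fermat.Agent.S36lib.Desc2
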