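/-
S36lib / Desc2 / Tau  (helper1)

**The `K`-rational simultaneous local parameter `τ`** (input B1 of helper8's `Reg/Inst`).
`q ∤ M`, `A` over `q`, `I = A.inertiaSubgroupIn ℚ`, `WM = gaussMK M A hqM hA` (the `K`-rational Gauss
datum of level `M`), `V = VqR hA` (`t ↦ t ^ q` on `FRes A M`).

* `VqR_mem_regAway` : `V` preserves `regAway k_A (j̄)`;
* `exists_tau_of_places` : for finitely many distinct places `x c` of `FRes A M` (over `k_A`) at which
  `j̄` is regular there are `τ τ″ ∈ fixF M I`, in `O_M`, regular away from the poles of `j`, with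
  `red τ″ = V (red τ)` and `ord_{x c} (red τ) = 1` for all `c`
  (`τ̄` from helper8's `Reg.exists_mem_rr_ord_eq_one` in `L(m (j̄)_∞)`, lifts by `Desc2/LiftM`);
* `exists_tau_triplePt` : the same at the supersingular points `Inst.ssPt` / `Inst.triplePt`, stated
  for `WM = Norm.ofGauss (gaussMK M A hqM hA)`.
-/
import Mathlib
import Fermat.Agent.S36lib.Desc2.LiftM
import Fermat.Agent.S36lib.Reg.SimpleZeros
import Fermat.Agent.S36lib.Inst.Ctx

set_option autoImplicit false
set_option linter.unusedSectionVars false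
set_option linter.unusedVariables false
set_option linter.style.haveILetI false

noncomputable section

namespace Fermat.Agent.S36lib.Desc2

open AlgebraicCurve ModularCurve Module
open Fermat.Agent.S18lib Fermat.Agent.S18lib.V Fermat.Agent.S13lib
open Fermat.Agent.S29lib.GH Fermat.Agent.S36lib.Desc IsLocalRing Fermat.Agent.LSb.Val
open Fermat.Agent.LSb.Frame Fermat.Agent.LSb.Old Fermat.Agent.ProgramR
open Fermat.Agent.LSb.Unit (regAway mem_regAway VqR VqR_algebraMap VqR_pow VqR_jK frobPlace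
  comap_ne_top_of_pow)

local notation "Qb" => AlgebraicClosure ℚ
local notation "GQ" => (AlgebraicClosure ℚ ≃ₐ[ℚ] AlgebraicClosure ℚ)

section LevelM

variable (M : ℕ) [NeZero M] (A : ValuationSubring Qb) {q : ℕ} [NeZero q] [hq : Fact q.Prime]
  (hqM : ¬ q ∣ M) (hA : A.LiesOverPrime q)

local notation "kA" => IsLocalRing.ResidueField A

/-- `t ↦ t ^ q` preserves regularity away from the poles of `j̄` -/
theorem VqR_mem_regAway {z : FRes A M} (hz : z ∈ regAway kA (Gink.jK A M)) :
    VqR hA z ∈ regAway kA (Gink.jK A M) := by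
  intro Q hQ
  have h1 : Gink.jK A M ∈ (frobPlace (VqR hA) (VqR_algebraMap hA) Q
      (comap_ne_top_of_pow (VqR hA) hq.out.pos (VqR_pow hA) Q)).toValuationSubring := by
    show VqR hA (Gink.jK A M) ∈ Q.toValuationSubring
    rw [VqR_jK]
    exact pow_mem hQ q
  exact hz _ h1

/-- **B1**: the simultaneous local parameter at finitely many places where `j̄` is regular, and its
Frobenius twist, lifted to inertia-fixed functions of level `M`. -/
theorem exists_tau_of_places {s : ℕ} (x : Fin s → Place kA (FRes A M))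
    (hx : Function.Injective x) (hxj : ∀ c, Gink.jK A M ∈ (x c).toValuationSubring) :
    ∃ τ τ' : fixF M (A.inertiaSubgroupIn ℚ),
      τ ∈ (gaussMK M A hqM hA).O ∧ τ' ∈ (gaussMK M A hqM hA).O ∧
      τ ∈ regAwayFix M (A.inertiaSubgroupIn ℚ) ∧ τ' ∈ regAwayFix M (A.inertiaSubgroupIn ℚ) ∧
      (gaussMK M A hqM hA).redF τ' = VqR hA ((gaussMK M A hqM hA).redF τ) ∧
      ∀ c, (x c).ord ((gaussMK M A hqM hA).redF τ) = 1 := by
  obtain ⟨g, hF, hFk⟩ := S37lib.B3.exists_genus_level M A hqM hA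
    (S37lib.B3.reductionInputsModL M A hqM hA)
  haveI := hF.hasPrincipalDivisors
  haveI := hFk.hasPrincipalDivisors
  haveI : IsAlgClosed kA := Gink.isAlgClosed_residueField A
  have hdegpos : (1 : ℤ) ≤ Divisor.degree (polesOf (K := kA) (Gink.jK A M)) := by
    have h := V.degree_polesOf_jF_eq M A hqM hA
    rw [V.gaussDatum_redF_jF] at h
    rw [← h, polesOf_eq_poleDiv, Gin0.degree_poleDiv_jF]
    have : 0 < dedekindPsi M := BarField.dedekindPsi_pos M
    exact_mod_cast this
  set m : ℕ := 2 * g + s with hm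
  set E : Divisor kA (FRes A M) := (m : ℤ) • polesOf (K := kA) (Gink.jK A M) with hE
  have hEx : ∀ c, E (x c) = 0 := by
    intro c
    have h0 : 0 ≤ (x c).ord (Gink.jK A M) := (FF.mem_iff_ord_nonneg _ _).1 (hxj c)
    rw [hE, Finsupp.smul_apply, polesOf_apply, max_eq_right (by linarith), smul_zero]
  have hdeg : 2 * (g : ℤ) - 1 + s < Divisor.degree E := by
    rw [hE, map_zsmul, smul_eq_mul]
    have h1 : (m : ℤ) * 1 ≤ m * Divisor.degree (polesOf (K := kA) (Gink.jK A M)) :=
      mul_le_mul_of_nonneg_left hdegpos (Nat.cast_nonneg m)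
    have h2 : (m : ℤ) = 2 * g + s := by rw [hm]; push_cast; ring
    linarith
  obtain ⟨t, htE, ht1⟩ := Reg.exists_mem_rr_ord_eq_one hFk hx E hEx hdeg
  have htreg : t ∈ regAway kA (Gink.jK A M) := by
    intro Q hQ
    rcases eq_or_ne t 0 with rfl | ht0
    · exact Q.toValuationSubring.zero_mem
    have h1 := (mem_riemannRochSpace_iff.1 htE Q).resolve_left ht0
    have h0 : 0 ≤ Q.ord (Gink.jK A M) := (FF.mem_iff_ord_nonneg _ _).1 hQ
    rw [hE, Finsupp.smul_apply, polesOf_apply, max_eq_right (by linarith), smul_zero,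
      neg_zero] at h1
    exact (FF.mem_iff_ord_nonneg _ _).2 h1
  obtain ⟨τ, hτS, hτO, hτr⟩ := exists_regAwayFix_lift M A hqM hA t htreg
  obtain ⟨τ', hτ'S, hτ'O, hτ'r⟩ := exists_regAwayFix_lift M A hqM hA (VqR hA t)
    (VqR_mem_regAway M A hA htreg)
  refine ⟨τ, τ', hτO, hτ'O, hτS, hτ'S, ?_, fun c => ?_⟩
  · rw [hτ'r, hτr]
  · rw [hτr]; exact ht1 c

end LevelM

section Triple

variable (M q : ℕ) [NeZero M] [NeZero q] [hq : Fact q.Prime] (A : ValuationSubring Qb)
  (hqM : ¬ q ∣ M) (hA : A.LiesOverPrime q)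

/-- **B1 at the supersingular points** (shape of helper8's `Reg/Inst`) -/
theorem exists_tau_triplePt :
    ∃ τ τ' : fixF M (A.inertiaSubgroupIn ℚ),
      τ ∈ (Norm.ofGauss (gaussMK M A hqM hA)).O ∧ τ' ∈ (Norm.ofGauss (gaussMK M A hqM hA)).O ∧
      (Norm.ofGauss (gaussMK M A hqM hA)).redF τ' =
        VqR hA ((Norm.ofGauss (gaussMK M A hqM hA)).redF τ) ∧
      τ ∈ regAwayFix M (A.inertiaSubgroupIn ℚ) ∧ τ' ∈ regAwayFix M (A.inertiaSubgroupIn ℚ) ∧
      (∀ c, (Inst.ssPt M q A hqM hA c).ord ((Norm.ofGauss (gaussMK M A hqM hA)).redF τ) = 1) ∧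
      ∀ c, (Inst.triplePt M q A hqM hA c).ord
        ((Norm.ofGauss (gaussMK M A hqM hA)).redF τ) = 1 := by
  obtain ⟨g, hF, hFk⟩ := S37lib.B3.exists_genus_level M A hqM hA
    (S37lib.B3.reductionInputsModL M A hqM hA)
  haveI := hFk.hasPrincipalDivisors
  obtain ⟨τ, τ', h1, h2, h3, h4, h5, h6⟩ := exists_tau_of_places M A hqM hA
    (Inst.ssPt M q A hqM hA) LSb.Unit.modX₂_injective (fun c => by
      have := Inst.ssPt_mem (hqM := hqM) (hA := hA) c
      rw [LSb.Unit.modNodes, LSb.Unit.mem_nodeSet] at this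
      exact this.1)
  exact ⟨τ, τ', h1, h2, h5, h3, h4, h6, h6⟩

end Triple

end Fermat.Agent.S36lib.Desc2
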