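/-
S36lib / Desc2 / ThickLattice  (helper1)

**(N1) for the thick ball**: `ThickDatum.HasLatticeBases` (field `hD` of `ThickCtx`).

Setting: `F / F'` finite separable (`F' = fixF(M)`, `F = fixF(M q²)` along `α ∘ α`), a complete
ramified family `RamDatum P' π P ϖ e` (helper7) of places of `F` over the place `P'` of `F'`
(`∑ e_i f_i = [F : F']`), so that `∩ O_i` is integral over `O'` and `Tr (∩ O_i) ⊆ O'`.
If every finite dimensional `K`-subspace of `F'` has bounded intersection with `O'` ((N1) at the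
lower level), then every finite dimensional `K`-subspace of `F` has a lattice basis with respect
to `∩ O_i`.

* `ballOf P`, `mem_ballOf`;
* `ramDatum_trace_mem`            : `Tr (∩ O_i) ⊆ O'`;
* `ramDatum_latticeBounded`, `ramDatum_hasLatticeBasis`;
* `latticeBounded_of_hasOrthonormalBases` : (N1) ⟹ boundedness (input `hN1`);
* `thickDatum_exists_smul_mem_O`  : the thick ball absorbs `K`-scalars;
* `thickDatum_hasLatticeBases_of_ramDatum` : the field `hD`;
* `thickDatum_hasLatticeBases_along`, `thickDatum_hasLatticeBases_of_ramDatum_along` : the same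
  along an explicit homomorphism `ψ : F' →+* F` (no `Algebra F' F` instance in the statement).
-/
import Mathlib
import Fermat.Agent.S36lib.Desc2.Lattice
import Fermat.Agent.S36lib.Desc2.Ortho
import Fermat.Agent.S36lib.Norm.RamIntegral
import Fermat.Agent.S36lib.Norm.Along
import Fermat.Agent.S36lib.Thick.Datum

set_option autoImplicit false
set_option linter.unusedSectionVars false
set_option linter.unusedVariables false
set_option linter.style.haveILetI false

noncomputable section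

namespace Fermat.Agent.S36lib.Desc2

open Module Fermat.Agent.S36lib.Norm Fermat.Agent.S18lib

section Ram

variable {K : Type*} [Field K] {R : ValuationSubring K}
variable {F' F : Type*} [Field F'] [Field F] [Algebra F' F]
variable [Algebra K F'] [Algebra K F] [IsScalarTower K F' F]
variable {κ' : Type*} [Field κ']
variable {ι : Type*} [Fintype ι] [DecidableEq ι]
variable {κ : ι → Type*} [∀ i, Field (κ i)] [∀ i, Algebra κ' (κ i)]
variable {P' : Place F' κ'} {π : F'} {P : ∀ i, Place F (κ i)} {ϖ : ι → F} {e : ι → ℕ}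

/-- the intersection of the valuation rings of a family of places -/
def ballOf (P : ∀ i, Place F (κ i)) : Subring F := ⨅ i, (P i).O.toSubring

theorem mem_ballOf {f : F} : f ∈ ballOf P ↔ ∀ i, f ∈ (P i).O := by
  rw [ballOf, Subring.mem_iInf]
  rfl

/-- `Tr (∩ O_i) ⊆ O'` -/
theorem ramDatum_trace_mem [FiniteDimensional F' F] [∀ i, Module.Finite κ' (κ i)]
    (D : RamDatum P' π P ϖ e)
    (hdeg : ∑ i, e i * Module.finrank κ' (κ i) = Module.finrank F' F)
    {f : F} (hf : f ∈ ballOf P) : Algebra.trace F' F f ∈ P'.O.toSubring :=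
  trace_mem_of_minpoly_coeff_mem P'.O.toSubring f
    (fun m => D.minpoly_coeff_mem hdeg (mem_ballOf.mp hf) m)

/-- boundedness for the thick ball from boundedness at the base place -/
theorem ramDatum_latticeBounded [FiniteDimensional F' F] [Algebra.IsSeparable F' F]
    [∀ i, Module.Finite κ' (κ i)] (D : RamDatum P' π P ϖ e)
    (hdeg : ∑ i, e i * Module.finrank κ' (κ i) = Module.finrank F' F)
    (habs : ∀ f : F, ∃ c : K, c ≠ 0 ∧ algebraMap K F c * f ∈ ballOf P)
    (hN1 : ∀ W₁ : Submodule K F', FiniteDimensional K W₁ →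
      LatticeBounded R P'.O.toSubring W₁)
    (W : Submodule K F) [FiniteDimensional K W] : LatticeBounded R (ballOf P) W :=
  latticeBounded_of_trace R P'.O.toSubring (ballOf P) (fun f hf => ramDatum_trace_mem D hdeg hf) habs
    hN1 W

/-- **lattice bases for the thick ball** -/
theorem ramDatum_hasLatticeBasis [IsPrincipalIdealRing R] [FiniteDimensional F' F]
    [Algebra.IsSeparable F' F] [∀ i, Module.Finite κ' (κ i)] (D : RamDatum P' π P ϖ e)
    (hdeg : ∑ i, e i * Module.finrank κ' (κ i) = Module.finrank F' F)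
    (hRO : ∀ r : R, algebraMap K F (r : K) ∈ ballOf P)
    (habs : ∀ f : F, ∃ r : R, r ≠ 0 ∧ algebraMap K F (r : K) * f ∈ ballOf P)
    (hN1 : ∀ W₁ : Submodule K F', FiniteDimensional K W₁ →
      LatticeBounded R P'.O.toSubring W₁)
    (W : Submodule K F) [FiniteDimensional K W] : HasLatticeBasis R (ballOf P) W := by
  refine hasLatticeBasis_of_bounded hRO W ?_ (fun f _ => habs f)
  refine ramDatum_latticeBounded D hdeg (fun f => ?_) hN1 W
  obtain ⟨r, hr, hrf⟩ := habs f
  exact ⟨(r : K), fun h => hr (Subtype.ext h), hrf⟩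

end Ram

section N1

variable {K : Type*} [Field K] {R : ValuationSubring K}
variable {F : Type*} [Field F] [Algebra K F]
variable {Fk : Type*} [Field Fk] [Algebra (IsLocalRing.ResidueField R) Fk]

/-- (N1) gives boundedness: the input `hN1` of `ramDatum_hasLatticeBasis` -/
theorem latticeBounded_of_hasOrthonormalBases (G : GaussDatum R F Fk)
    (hG : G.HasOrthonormalBases) (W : Submodule K F) (hW : FiniteDimensional K W) :
    LatticeBounded R G.O.toSubring W := by
  obtain ⟨b, hbW, hbo⟩ := hG W hW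
  refine ⟨_, b, fun f hfW hfO => ?_⟩
  have hli := hbo.linearIndependent
  have hspan : Submodule.span K (Set.range b) = W := by
    apply Submodule.eq_of_le_of_finrank_eq
    · rw [Submodule.span_le]
      rintro _ ⟨i, rfl⟩
      exact hbW i
    · rw [finrank_span_eq_card hli, Fintype.card_fin]
  obtain ⟨a, ha⟩ := hbo.exists_coeff_of_mem_span (by rw [hspan]; exact hfW) hfO
  exact ⟨a, ha⟩

end N1

section Thick

open Fermat.Agent.S36lib.Thick

variable {K : Type*} [Field K] {R : ValuationSubring K}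
variable {F : Type*} [Field F] [Algebra K F]
variable {F₁ F₂ F₃ : Type*} [Field F₁] [Field F₂] [Field F₃]
variable [Algebra (IsLocalRing.ResidueField R) F₁] [Algebra (IsLocalRing.ResidueField R) F₂]
variable [Algebra (IsLocalRing.ResidueField R) F₃]

/-- `R`-scalars lie in the thick ball -/
theorem thickDatum_algebraMap_mem_O (D : ThickDatum R F F₁ F₂ F₃) (r : R) :
    algebraMap K F (r : K) ∈ D.O := by
  rw [ThickDatum.mem_O]
  exact ⟨(D.V₁.algebraMap_mem_iff _).mpr r.2, (D.V₂.algebraMap_mem_iff _).mpr r.2,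
    (D.V₃.algebraMap_mem_iff _).mpr r.2⟩

/-- the middle valuation ring absorbs powers of `π` -/
theorem thickDatum_exists_pow_mul_mem₂ (D : ThickDatum R F F₁ F₂ F₃) (hπ0 : D.π ≠ 0)
    (he : 0 < D.e)
    (hpow : ∃ u : D.V₂.Oˣ, D.ϖ ^ D.e = algebraMap K F D.π * ((u : D.V₂.O) : F)) (f : F) :
    ∃ n : ℕ, algebraMap K F D.π ^ n * f ∈ D.V₂.O := by
  rcases eq_or_ne f 0 with rfl | hf
  · exact ⟨0, by rw [mul_zero]; exact D.V₂.O.zero_mem⟩
  obtain ⟨j, v, hjv⟩ := D.V₂.exists_zpow_mul_isUnit f hf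
  obtain ⟨u, hu⟩ := hpow
  have h1 : ((u : D.V₂.O) : F) * (((u⁻¹ : D.V₂.Oˣ) : D.V₂.O) : F) = 1 :=
    congrArg Subtype.val u.mul_inv
  have hu0 : ((u : D.V₂.O) : F) ≠ 0 := by
    intro h0
    rw [h0, zero_mul] at h1
    exact zero_ne_one h1
  have hπF : algebraMap K F D.π ≠ 0 := (map_ne_zero _).mpr hπ0
  have hϖ0 : D.ϖ ≠ 0 := by
    intro h0
    rw [h0, zero_pow he.ne'] at hu
    exact mul_ne_zero hπF hu0 hu.symm
  -- `π = ϖ^e * u⁻¹`
  have hπ' : algebraMap K F D.π = D.ϖ ^ D.e * (((u⁻¹ : D.V₂.Oˣ) : D.V₂.O) : F) := by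
    rw [hu, mul_assoc, h1, mul_one]
  rcases le_or_gt 0 j with hj | hj
  · refine ⟨0, ?_⟩
    rw [pow_zero, one_mul, hjv]
    obtain ⟨m, rfl⟩ := Int.eq_ofNat_of_zero_le hj
    rw [zpow_natCast]
    exact D.V₂.O.mul_mem _ _ (D.V₂.O.pow_mem D.V₂.unif_mem m) (v : D.V₂.O).2
  · obtain ⟨m, rfl⟩ : ∃ m : ℕ, j = -(m : ℤ) := ⟨j.natAbs, by omega⟩
    refine ⟨m, ?_⟩
    have hsplit : D.ϖ ^ D.e = D.ϖ ^ (D.e - 1) * D.ϖ := by
      rw [← pow_succ]
      congr 1
      omega
    have key : algebraMap K F D.π ^ m * f =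
        (D.ϖ ^ (D.e - 1)) ^ m * (((u⁻¹ : D.V₂.Oˣ) : D.V₂.O) : F) ^ m * ((v : D.V₂.O) : F) := by
      rw [hjv, hπ', hsplit, mul_pow, mul_pow, zpow_neg, zpow_natCast]
      have hm : D.ϖ ^ m ≠ 0 := pow_ne_zero _ hϖ0
      field_simp
    rw [key]
    exact D.V₂.O.mul_mem _ _ (D.V₂.O.mul_mem _ _
      (D.V₂.O.pow_mem (D.V₂.O.pow_mem D.V₂.unif_mem _) _)
      (D.V₂.O.pow_mem ((u⁻¹ : D.V₂.Oˣ) : D.V₂.O).2 _)) (v : D.V₂.O).2

/-- **the thick ball absorbs `K`-scalars** -/
theorem thickDatum_exists_smul_mem_O (D : ThickDatum R F F₁ F₂ F₃) (hπ : D.π ∈ R)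
    (hπ0 : D.π ≠ 0) (he : 0 < D.e)
    (hpow : ∃ u : D.V₂.Oˣ, D.ϖ ^ D.e = algebraMap K F D.π * ((u : D.V₂.O) : F)) (f : F) :
    ∃ r : R, r ≠ 0 ∧ algebraMap K F (r : K) * f ∈ D.O := by
  obtain ⟨r₁, hr₁, h₁⟩ := Fermat.Agent.LSb.Frame.exists_smul_mem D.V₁ f
  obtain ⟨r₃, hr₃, h₃⟩ := Fermat.Agent.LSb.Frame.exists_smul_mem D.V₃ f
  obtain ⟨n, h₂⟩ := thickDatum_exists_pow_mul_mem₂ D hπ0 he hpow f
  set p : R := ⟨D.π, hπ⟩ with hp
  have hp0 : p ≠ 0 := fun h => hπ0 (congrArg Subtype.val h)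
  have hR : ∀ r : R, algebraMap K F (r : K) ∈ D.O := thickDatum_algebraMap_mem_O D
  refine ⟨r₁ * r₃ * p ^ n, mul_ne_zero (mul_ne_zero hr₁ hr₃) (pow_ne_zero _ hp0), ?_⟩
  have hc : ((r₁ * r₃ * p ^ n : R) : K) = (r₁ : K) * (r₃ : K) * (D.π ^ n) := by
    push_cast
    rfl
  have hc3 : ((r₃ * p ^ n : R) : K) = (r₃ : K) * (D.π ^ n) := by
    push_cast
    rfl
  have hc1 : ((r₁ * p ^ n : R) : K) = (r₁ : K) * (D.π ^ n) := by
    push_cast
    rfl
  have hc13 : ((r₁ * r₃ : R) : K) = (r₁ : K) * (r₃ : K) := by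
    push_cast
    rfl
  rw [ThickDatum.mem_O]
  refine ⟨?_, ?_, ?_⟩
  · have : algebraMap K F ((r₁ * r₃ * p ^ n : R) : K) * f =
        algebraMap K F ((r₃ * p ^ n : R) : K) * (algebraMap K F (r₁ : K) * f) := by
      simp only [hc, hc3, map_mul, map_pow]
      ring
    rw [this]
    exact D.V₁.O.mul_mem _ _ (ThickDatum.mem_O.mp (hR _)).1 h₁
  · have : algebraMap K F ((r₁ * r₃ * p ^ n : R) : K) * f =
        algebraMap K F ((r₁ * r₃ : R) : K) * (algebraMap K F D.π ^ n * f) := by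
      simp only [hc, hc13, map_mul, map_pow]
      ring
    rw [this]
    exact D.V₂.O.mul_mem _ _ (ThickDatum.mem_O.mp (hR _)).2.1 h₂
  · have : algebraMap K F ((r₁ * r₃ * p ^ n : R) : K) * f =
        algebraMap K F ((r₁ * p ^ n : R) : K) * (algebraMap K F (r₃ : K) * f) := by
      simp only [hc, hc1, map_mul, map_pow]
      ring
    rw [this]
    exact D.V₃.O.mul_mem _ _ (ThickDatum.mem_O.mp (hR _)).2.2 h₃

variable {F' : Type*} [Field F'] [Algebra F' F] [Algebra K F'] [IsScalarTower K F' F]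
variable {κ' : Type*} [Field κ']
variable {ι : Type*} [Fintype ι] [DecidableEq ι]
variable {κ : ι → Type*} [∀ i, Field (κ i)] [∀ i, Algebra κ' (κ i)]
variable {P' : Place F' κ'} {π' : F'} {P : ∀ i, Place F (κ i)} {ϖ' : ι → F} {e' : ι → ℕ}

/-- **(N1) for the thick ball** (field `hD` of `ThickCtx`): from a complete ramified family over
a place `P'` of a subfield `F'` with (N1) at `P'` (in the bounded form). -/
theorem thickDatum_hasLatticeBases_of_ramDatum [IsPrincipalIdealRing R]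
    [FiniteDimensional F' F] [Algebra.IsSeparable F' F] [∀ i, Module.Finite κ' (κ i)]
    (D : ThickDatum R F F₁ F₂ F₃) (hπ : D.π ∈ R) (hπ0 : D.π ≠ 0) (he : 0 < D.e)
    (hpow : ∃ u : D.V₂.Oˣ, D.ϖ ^ D.e = algebraMap K F D.π * ((u : D.V₂.O) : F))
    (RD : RamDatum P' π' P ϖ' e')
    (hdeg : ∑ i, e' i * Module.finrank κ' (κ i) = Module.finrank F' F)
    (hball : ∀ f : F, f ∈ D.O ↔ ∀ i, f ∈ (P i).O)
    (hN1 : ∀ W₁ : Submodule K F', FiniteDimensional K W₁ →
      LatticeBounded R P'.O.toSubring W₁) : D.HasLatticeBases := by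
  intro W hW
  have hO : ballOf P = D.O := by
    ext f
    rw [mem_ballOf, hball]
  obtain ⟨b, hbW, hbO, -, hrep⟩ := ramDatum_hasLatticeBasis (R := R) RD hdeg
    (fun r => by rw [hO]; exact thickDatum_algebraMap_mem_O D r)
    (fun f => by rw [hO]; exact thickDatum_exists_smul_mem_O D hπ hπ0 he hpow f) hN1 W
  rw [hO] at hbO hrep
  exact ⟨b, hbW, hbO, hrep⟩

end Thick

/-! ### the same along an explicit homomorphism `ψ : F' →+* F` (no `Algebra F' F` instance in the
statements; `finrankHom`, `FiniteHom` of helper7's `Norm/Along`) -/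

section Along

open Fermat.Agent.S36lib.Thick

variable {K : Type*} [Field K] {R : ValuationSubring K}
variable {F : Type*} [Field F] [Algebra K F]
variable {F₁ F₂ F₃ : Type*} [Field F₁] [Field F₂] [Field F₃]
variable [Algebra (IsLocalRing.ResidueField R) F₁] [Algebra (IsLocalRing.ResidueField R) F₂]
variable [Algebra (IsLocalRing.ResidueField R) F₃]
variable {F' : Type*} [Field F'] [Algebra K F'] [CharZero F']

/-- **(N1) for the thick ball, trace form along `ψ`**: the minimal polynomials over `ψ F'` of the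
elements of the thick ball have coefficients in a subring `O'` of `F'` with bounded lattices. -/
theorem thickDatum_hasLatticeBases_along [IsPrincipalIdealRing R]
    (D : ThickDatum R F F₁ F₂ F₃) (hπ : D.π ∈ R) (hπ0 : D.π ≠ 0) (he : 0 < D.e)
    (hpow : ∃ u : D.V₂.Oˣ, D.ϖ ^ D.e = algebraMap K F D.π * ((u : D.V₂.O) : F))
    (ψ : F' →+* F) (hψK : ∀ c : K, ψ (algebraMap K F' c) = algebraMap K F c)
    (hfin : FiniteHom ψ) (O' : Subring F')
    (hmin : letI := ψ.toAlgebra; ∀ f ∈ D.O, ∀ m, (minpoly F' f).coeff m ∈ O')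
    (hN1 : ∀ W₁ : Submodule K F', FiniteDimensional K W₁ → LatticeBounded R O' W₁) :
    D.HasLatticeBases := by
  letI : Algebra F' F := ψ.toAlgebra
  haveI : IsScalarTower K F' F := IsScalarTower.of_algebraMap_eq (fun c => (hψK c).symm)
  haveI : FiniteDimensional F' F := hfin
  intro W hW
  have habs : ∀ f : F, ∃ r : R, r ≠ 0 ∧ algebraMap K F (r : K) * f ∈ D.O :=
    thickDatum_exists_smul_mem_O D hπ hπ0 he hpow
  have hb : LatticeBounded R D.O W :=
    latticeBounded_of_trace R O' D.O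
      (fun f hf => trace_mem_of_minpoly_coeff_mem O' f (hmin f hf))
      (fun f => by
        obtain ⟨r, hr, hrf⟩ := habs f
        exact ⟨(r : K), fun h => hr (Subtype.ext h), hrf⟩) hN1 W
  obtain ⟨b, hbW, hbO, -, hrep⟩ :=
    hasLatticeBasis_of_bounded (thickDatum_algebraMap_mem_O D) W hb (fun f _ => habs f)
  exact ⟨b, hbW, hbO, hrep⟩

variable {κ' : Type*} [Field κ']
variable {ι : Type*} [Fintype ι] [DecidableEq ι]
variable {κ : ι → Type*} [∀ i, Field (κ i)] [∀ i, Algebra κ' (κ i)]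
variable {P' : Place F' κ'} {π' : F'} {P : ∀ i, Place F (κ i)} {ϖ' : ι → F} {e' : ι → ℕ}

/-- **(N1) for the thick ball from a complete ramified family along `ψ`** -/
theorem thickDatum_hasLatticeBases_of_ramDatum_along [IsPrincipalIdealRing R]
    [∀ i, Module.Finite κ' (κ i)]
    (D : ThickDatum R F F₁ F₂ F₃) (hπ : D.π ∈ R) (hπ0 : D.π ≠ 0) (he : 0 < D.e)
    (hpow : ∃ u : D.V₂.Oˣ, D.ϖ ^ D.e = algebraMap K F D.π * ((u : D.V₂.O) : F))
    (ψ : F' →+* F) (hψK : ∀ c : K, ψ (algebraMap K F' c) = algebraMap K F c)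
    (hfin : FiniteHom ψ)
    (RD : letI := ψ.toAlgebra; RamDatum P' π' P ϖ' e')
    (hdeg : ∑ i, e' i * Module.finrank κ' (κ i) = finrankHom ψ)
    (hball : ∀ f : F, f ∈ D.O ↔ ∀ i, f ∈ (P i).O)
    (hN1 : ∀ W₁ : Submodule K F', FiniteDimensional K W₁ →
      LatticeBounded R P'.O.toSubring W₁) : D.HasLatticeBases := by
  letI : Algebra F' F := ψ.toAlgebra
  haveI : IsScalarTower K F' F := IsScalarTower.of_algebraMap_eq (fun c => (hψK c).symm)
  haveI : FiniteDimensional F' F := hfin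
  exact thickDatum_hasLatticeBases_of_ramDatum D hπ hπ0 he hpow RD hdeg hball hN1

end Along

end Fermat.Agent.S36lib.Desc2
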