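/-
S36lib / Desc2 / ThickLatticeInst  (helper1)

**`ThickCtx.hD` from helper8's `Mid.TowerData`**: if `(Pa, Pb, Pc)` are the places of the thick
datum `D` and `T : TowerData …` is the record of the tower `F' → G → F` (so that `Pa Pb Pc` are ALL
the extensions of the place `WM` of `F'`), and `WM` has bounded lattices ((N1) at level `M`), then
`D.HasLatticeBases`.

* `thickDatum_hasLatticeBases_of_towerData` : the abstract statement;
* `latticeBounded_gaussMK` : the input `hN1` for `WM = ofGauss (gaussMK M A hqM hA)`;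
* `hasLatticeBases_of_towerData_gaussMK` : both combined (the modular instance, for any thick
  datum on `fixF (M q²) I` whose places are the `Pa Pb Pc` of a `TowerData` over `gaussMK`).
-/
import Mathlib
import Fermat.Agent.S36lib.Desc2.ThickLattice
import Fermat.Agent.S36lib.Desc2.Places
import Fermat.Agent.S36lib.Mid.Three
import Fermat.Agent.S36lib.Norm.Bridge

set_option autoImplicit false
set_option linter.unusedSectionVars false
set_option linter.unusedVariables false
set_option linter.style.haveILetI false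

noncomputable section

namespace Fermat.Agent.S36lib.Desc2

open Module Fermat.Agent.S36lib.Norm Fermat.Agent.S18lib Fermat.Agent.S36lib.Thick
open Fermat.Agent.S36lib.Mid Fermat.Agent.S36lib.Desc IsLocalRing

local notation "Qb" => AlgebraicClosure ℚ

section Abstract

variable {K : Type*} [Field K] {R : ValuationSubring K}
variable {F' G F κ : Type*} [Field F'] [Field G] [Field F] [Field κ]
variable [Algebra K F'] [Algebra K F] [CharZero F']
variable [Algebra (IsLocalRing.ResidueField R) κ]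
variable {α₁ β₁ : F' →+* G} {α₂ : G →+* F} {V : κ →+* κ} {q eb : ℕ}
  {WM : Place F' κ} {W₁ W₂ : Place G κ} {Pa Pb Pc : Place F κ} {π : F'} {π₁ : G}
  {ϖa ϖb ϖc : F}

/-- **(N1) for the thick ball from the tower record** -/
theorem thickDatum_hasLatticeBases_of_towerData [IsPrincipalIdealRing R]
    (D : ThickDatum R F κ κ κ) (hπ : D.π ∈ R) (hπ0 : D.π ≠ 0) (he : 0 < D.e)
    (hpow : ∃ u : D.V₂.Oˣ, D.ϖ ^ D.e = algebraMap K F D.π * ((u : D.V₂.O) : F))
    (T : TowerData α₁ β₁ α₂ V q eb WM W₁ W₂ Pa Pb Pc π π₁ ϖa ϖb ϖc)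
    (hψK : ∀ c : K, α₂ (α₁ (algebraMap K F' c)) = algebraMap K F c)
    (ha : Pa.O = D.V₁.O) (hb : Pb.O = D.V₂.O) (hc : Pc.O = D.V₃.O)
    (hN1 : ∀ W₁ : Submodule K F', FiniteDimensional K W₁ →
      LatticeBounded R WM.O.toSubring W₁) : D.HasLatticeBases := by
  refine thickDatum_hasLatticeBases_along D hπ hπ0 he hpow (α₂.comp α₁) hψK T.fin₃
    WM.O.toSubring ?_ hN1
  intro f hf m
  obtain ⟨h1, h2, h3⟩ := ThickDatum.mem_O.mp hf
  exact T.minpoly_coeff_mem₃ (by rw [ha]; exact h1) (by rw [hb]; exact h2) (by rw [hc]; exact h3) m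

end Abstract

section Modular

variable (M : ℕ) [NeZero M] (A : ValuationSubring Qb) {q : ℕ} [hq : Fact q.Prime]
  (hqM : ¬ q ∣ M) (hA : A.LiesOverPrime q)

/-- (N1) at level `M` in the bounded form -/
theorem latticeBounded_gaussMK
    (W₁ : Submodule (Kfix A) (fixF M (A.inertiaSubgroupIn ℚ))) (hW₁ : FiniteDimensional (Kfix A) W₁) :
    LatticeBounded (Wfix A) (ofGauss (gaussMK M A hqM hA)).O.toSubring W₁ :=
  latticeBounded_of_hasOrthonormalBases (gaussMK M A hqM hA)
    (gaussMK_hasOrthonormalBases M A hqM hA) W₁ hW₁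

variable {F G : Type*} [Field G] [Field F] [Algebra (Kfix A) F]
variable {α₁ β₁ : fixF M (A.inertiaSubgroupIn ℚ) →+* G} {α₂ : G →+* F}
  {V : FRes A M →+* FRes A M} {q' eb : ℕ}
  {W₁ W₂ : Place G (FRes A M)} {Pa Pb Pc : Place F (FRes A M)}
  {π : fixF M (A.inertiaSubgroupIn ℚ)} {π₁ : G} {ϖa ϖb ϖc : F}

/-- **`hD` in the modular instance**: any thick datum over `(Kfix A, Wfix A)` whose three places
are the `Pa Pb Pc` of a tower record over the level-`M` place `gaussMK`. -/
theorem hasLatticeBases_of_towerData_gaussMK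
    (D : ThickDatum (Wfix A) F (FRes A M) (FRes A M) (FRes A M))
    (hπ : D.π ∈ Wfix A) (hπ0 : D.π ≠ 0) (he : 0 < D.e)
    (hpow : ∃ u : D.V₂.Oˣ, D.ϖ ^ D.e = algebraMap (Kfix A) F D.π * ((u : D.V₂.O) : F))
    (T : TowerData α₁ β₁ α₂ V q' eb (ofGauss (gaussMK M A hqM hA)) W₁ W₂ Pa Pb Pc π π₁ ϖa ϖb ϖc)
    (hψK : ∀ c : Kfix A,
      α₂ (α₁ (algebraMap (Kfix A) (fixF M (A.inertiaSubgroupIn ℚ)) c)) = algebraMap (Kfix A) F c)
    (ha : Pa.O = D.V₁.O) (hb : Pb.O = D.V₂.O) (hc : Pc.O = D.V₃.O) : D.HasLatticeBases := by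
  haveI := isPrincipalIdealRing_Wfix hq.out hA
  exact thickDatum_hasLatticeBases_of_towerData D hπ hπ0 he hpow T hψK ha hb hc
    (latticeBounded_gaussMK M A hqM hA)

end Modular

end Fermat.Agent.S36lib.Desc2
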